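import Fermat.Agent.TOR.MazurW

/-!
The auxiliary primes of the level raising argument: a prime at which the representation is not
congruent to `± Eisenstein`, and primes congruent to one at which it is not Eisenstein.
-/

set_option autoImplicit false
set_option linter.unusedSectionVars false
set_option linter.style.haveILetI false

noncomputable section

open Matrix
open FLTAgent.Attach (cyc powerTrace)

namespace FLTAgent.LR

local notation "GalQ" => AlgebraicClosure ℚ ≃ₐ[ℚ] AlgebraicClosure ℚ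

section Linear

variable {k : Type} [Field k] {G : Type*} [Group G] {r : G →* Matrix (Fin 2) (Fin 2) k}

theorem hom_eq_one_of_mem_commutator {A : Type*} [CommMonoid A] (φ : G →* A) {σ : G}
    (hσ : σ ∈ commutator G) : φ σ = 1 := by
  have h := Abelianization.commutator_subset_ker φ.toHomUnits hσ
  exact congrArg Units.val (MonoidHom.mem_ker.1 h)

theorem det_ne_zero (g : G) : (r g).det ≠ 0 := by
  intro h
  have h1 : (r g).det * (r g⁻¹).det = 1 := by rw [← det_mul, ← map_mul, mul_inv_cancel, map_one, det_one]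
  rw [h, zero_mul] at h1
  exact zero_ne_one h1

theorem forall_of_span (hspan : Submodule.span k (Set.range r) = ⊤)
    (φ : Matrix (Fin 2) (Fin 2) k →ₗ[k] k) (h : ∀ g, φ (r g) = 0) (X : Matrix (Fin 2) (Fin 2) k) :
    φ X = 0 := by
  have : Submodule.span k (Set.range r) ≤ LinearMap.ker φ := by
    rw [Submodule.span_le]
    rintro _ ⟨g, rfl⟩
    exact h g
  rw [hspan] at this
  exact this Submodule.mem_top

theorem trace_sq_fin_two (A : Matrix (Fin 2) (Fin 2) k) :
    (A * A).trace = A.trace ^ 2 - 2 * A.det := by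
  simp [Matrix.trace_fin_two, Matrix.det_fin_two, Matrix.mul_apply, Fin.sum_univ_two]
  ring

/-- the determinant of an irreducible representation is not `± trace - 1` -/
theorem exists_trace_sq_ne (hspan : Submodule.span k (Set.range r) = ⊤) (h2 : (2 : k) ≠ 0)
    {c : G} (hc : c * c = 1) (hdet : (r c).det = -1) :
    ∃ g, (r g).trace ^ 2 ≠ (1 + (r g).det) ^ 2 := by
  classical
  by_contra hcon
  push Not at hcon
  have htr : (r c).trace = 0 := by
    have := hcon c
    rw [hdet, add_neg_cancel, zero_pow two_ne_zero] at this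
    exact pow_eq_zero_iff two_ne_zero |>.1 this
  set C := r c with hC
  have hCC : C * C = 1 := by rw [hC, ← map_mul, hc, map_one]
  obtain ⟨v, hv0, hv⟩ : ∃ v : Fin 2 → k, v ≠ 0 ∧ C *ᵥ v = v := by
    by_contra h
    push Not at h
    have : C = -1 := by
      refine Matrix.ext_of_mulVec_single fun j => ?_
      set x : Fin 2 → k := Pi.single j 1
      have h1 : x + C *ᵥ x = 0 := by
        by_contra hne
        refine h _ hne ?_
        rw [mulVec_add, mulVec_mulVec, hCC, one_mulVec, add_comm]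
      rw [neg_mulVec, one_mulVec]
      exact eq_neg_of_add_eq_zero_right h1
    rw [this, trace_neg, trace_one] at htr
    simp at htr
    exact h2 htr
  obtain ⟨w, hw0, hw⟩ : ∃ w : Fin 2 → k, w ≠ 0 ∧ C *ᵥ w = -w := by
    by_contra h
    push Not at h
    have : C = 1 := by
      refine Matrix.ext_of_mulVec_single fun j => ?_
      set x : Fin 2 → k := Pi.single j 1
      have h1 : x - C *ᵥ x = 0 := by
        by_contra hne
        refine h _ hne ?_
        rw [mulVec_sub, mulVec_mulVec, hCC, one_mulVec, neg_sub]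
      rw [one_mulVec]
      exact (sub_eq_zero.1 h1).symm
    rw [this, trace_one] at htr
    simp at htr
    exact h2 htr
  set P : Matrix (Fin 2) (Fin 2) k := Matrix.of fun i j => if j = 0 then v i else w i with hP
  have hPdet : IsUnit P.det := by
    rw [isUnit_iff_ne_zero]
    intro h0
    obtain ⟨x, hx0, hx⟩ := (Matrix.exists_mulVec_eq_zero_iff).2 h0
    have e1 : x 0 • v + x 1 • w = 0 := by
      rw [← hx]
      ext i
      simp [hP, mulVec, dotProduct, Fin.sum_univ_two]
      ring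
    have e2 : x 0 • v - x 1 • w = 0 := by
      have := congrArg (C *ᵥ ·) e1
      simpa [mulVec_add, mulVec_smul, hv, hw, smul_neg, ← sub_eq_add_neg] using this
    have e3 : (2 * x 0) • v = 0 := by
      rw [mul_smul, two_smul]
      calc x 0 • v + x 0 • v = (x 0 • v + x 1 • w) + (x 0 • v - x 1 • w) := by abel
        _ = 0 := by rw [e1, e2, add_zero]
    have hx1 : x 0 = 0 := (mul_eq_zero.1 ((smul_eq_zero.1 e3).resolve_right hv0)).resolve_left h2
    rw [hx1, zero_smul, zero_add] at e1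
    have hx2 : x 1 = 0 := (smul_eq_zero.1 e1).resolve_right hw0
    exact hx0 (funext fun i => by fin_cases i <;> assumption)
  let conjP : Matrix (Fin 2) (Fin 2) k →ₗ[k] Matrix (Fin 2) (Fin 2) k :=
    (LinearMap.mulRight k P).comp (LinearMap.mulLeft k P⁻¹)
  have hconj : ∀ X, conjP X = P⁻¹ * X * P := fun X => rfl
  have hcmul : ∀ X Y, conjP (X * Y) = conjP X * conjP Y := fun X Y => by
    simp only [hconj, Matrix.mul_assoc, Matrix.mul_nonsing_inv_cancel_left _ _ hPdet]
  have hJ : conjP C = !![1, 0; 0, -1] := by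
    have : C * P = P * !![1, 0; 0, -1] := by
      ext i j
      have a1 := congrFun hv i
      have a2 := congrFun hw i
      simp only [mulVec, dotProduct, Fin.sum_univ_two, Pi.neg_apply] at a1 a2
      fin_cases j <;> simp [hP, Matrix.mul_apply, Fin.sum_univ_two, a1, a2]
    rw [hconj, Matrix.mul_assoc, this, Matrix.nonsing_inv_mul_cancel_left _ _ hPdet]
  have hprod : ∀ g, conjP (r g) 0 1 * conjP (r g) 1 0 = 0 := by
    intro g
    have ht : ∀ X, (conjP X).trace = X.trace := fun X => by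
      rw [hconj, Matrix.trace_mul_cycle, Matrix.mul_nonsing_inv _ hPdet, Matrix.one_mul]
    have hd : ∀ X, (conjP X).det = X.det := fun X => by
      rw [hconj, det_mul, det_mul]
      calc P⁻¹.det * X.det * P.det = (P⁻¹.det * P.det) * X.det := by ring
        _ = X.det := by rw [← det_mul, Matrix.nonsing_inv_mul _ hPdet, det_one, one_mul]
    have h1 := hcon g
    have h3 := hcon (g * c)
    rw [map_mul, det_mul, hdet, ← ht, ← hd, hcmul, hJ] at h3
    rw [← ht, ← hd] at h1
    set M := conjP (r g)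
    simp only [Matrix.trace_fin_two, Matrix.det_fin_two, Matrix.mul_apply, Fin.sum_univ_two,
      Matrix.of_apply, Matrix.cons_val', Matrix.cons_val_zero, Matrix.cons_val_one,
      Matrix.empty_val', Matrix.cons_val_fin_one] at h1 h3
    have h4 : (2 * 2 : k) * (M 0 1 * M 1 0) = 0 := by linear_combination h1 - h3
    exact (mul_eq_zero.1 h4).resolve_left (mul_ne_zero h2 h2)
  let ev : Fin 2 → Fin 2 → (Matrix (Fin 2) (Fin 2) k →ₗ[k] k) := fun i j =>
    { toFun := fun X => conjP X i j
      map_add' := fun X Y => by simp [map_add]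
      map_smul' := fun a X => by simp [map_smul] }
  have hev : ∀ i j X, ev i j X = conjP X i j := fun i j X => rfl
  have hnz : ∀ i j, ∃ g, conjP (r g) i j ≠ 0 := by
    intro i j
    by_contra h
    push Not at h
    have := forall_of_span hspan (ev i j) h (P * single i j 1 * P⁻¹)
    rw [hev, hconj, Matrix.mul_assoc, Matrix.mul_assoc, Matrix.mul_assoc,
      Matrix.nonsing_inv_mul _ hPdet, Matrix.mul_one, Matrix.nonsing_inv_mul_cancel_left _ _ hPdet,
      single_apply_same] at this
    exact one_ne_zero this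
  obtain ⟨g, hg⟩ := hnz 0 1
  obtain ⟨h, hh⟩ := hnz 1 0
  have hg0 : conjP (r g) 1 0 = 0 := (mul_eq_zero.1 (hprod g)).resolve_left hg
  have hh0 : conjP (r h) 0 1 = 0 := (mul_eq_zero.1 (hprod h)).resolve_right hh
  have hdd : ∀ x, (conjP (r x)).det ≠ 0 := fun x => by
    rw [hconj, det_mul, det_mul]
    exact mul_ne_zero (mul_ne_zero ((Matrix.isUnit_nonsing_inv_det _ hPdet).ne_zero)
      (det_ne_zero x)) hPdet.ne_zero
  have hgd : conjP (r g) 1 1 ≠ 0 := fun h0 => hdd g (by simp [Matrix.det_fin_two, hg0, h0])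
  have hhd : conjP (r h) 1 1 ≠ 0 := fun h0 => hdd h (by simp [Matrix.det_fin_two, hh0, h0])
  refine mul_ne_zero (mul_ne_zero hg hhd) (mul_ne_zero hgd hh) ?_
  have := hprod (g * h)
  rw [map_mul, hcmul, Matrix.mul_apply, Matrix.mul_apply, Fin.sum_univ_two, Fin.sum_univ_two,
    hg0, hh0] at this
  linear_combination this

/-- the commutator subgroup of an irreducible representation is not unipotent -/
theorem exists_commutator_trace_ne (hspan : Submodule.span k (Set.range r) = ⊤) :
    ∃ σ ∈ commutator G, (r σ).trace ≠ 2 := by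
  classical
  by_contra hcon
  push Not at hcon
  by_cases htriv : ∀ σ ∈ commutator G, r σ = 1
  · have hcomm : ∀ g h, r g * r h = r h * r g := fun g h => by
      have h1 : g * h * g⁻¹ * h⁻¹ ∈ commutator G := by
        rw [commutator_eq_closure]
        exact Subgroup.subset_closure ⟨g, h, rfl⟩
      have e : g * h = (g * h * g⁻¹ * h⁻¹) * (h * g) := by group
      rw [← map_mul, ← map_mul, e, map_mul, htriv _ h1, one_mul]
    have hall : ∀ g X, r g * X = X * r g := fun g X => by
      have h1 : Submodule.span k (Set.range r) ≤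
          LinearMap.ker (LinearMap.mulLeft k (r g) - LinearMap.mulRight k (r g)) := by
        rw [Submodule.span_le]
        rintro _ ⟨h, rfl⟩
        simp [hcomm g h]
      rw [hspan] at h1
      exact sub_eq_zero.1 (h1 (Submodule.mem_top : X ∈ ⊤))
    have hxy : ∀ X Y : Matrix (Fin 2) (Fin 2) k, X * Y = Y * X := fun X Y => by
      have h1 : Submodule.span k (Set.range r) ≤
          LinearMap.ker (LinearMap.mulRight k Y - LinearMap.mulLeft k Y) := by
        rw [Submodule.span_le]
        rintro _ ⟨h, rfl⟩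
        simp [hall h Y]
      rw [hspan] at h1
      exact sub_eq_zero.1 (h1 (Submodule.mem_top : X ∈ ⊤))
    have := congrArg (fun A : Matrix (Fin 2) (Fin 2) k => A 0 0)
      (hxy (single 0 1 1) (single 1 0 1))
    simp [Matrix.mul_apply, single] at this
  push Not at htriv
  obtain ⟨σ, hσ, hne⟩ := htriv
  have hdet : ∀ τ ∈ commutator G, (r τ).det = 1 := fun τ hτ =>
    hom_eq_one_of_mem_commutator ((detMonoidHom).comp r) hτ
  set N := r σ - 1 with hN
  have hN2 : N * N = 0 := by
    have h := Attach.sq_fin_two (r σ)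
    rw [hcon σ hσ, hdet σ hσ] at h
    simp only [hN, sub_mul, mul_sub, one_mul, mul_one, h]
    rw [two_smul, one_smul]
    abel
  have htN : N.trace = 0 := by rw [hN, trace_sub, hcon σ hσ, trace_one]; simp
  have hdN : N.det = 0 := by
    have := trace_sq_fin_two N
    rw [hN2, trace_zero, htN] at this
    have h' : (2 : k) * N.det = 0 := by linear_combination this
    rcases mul_eq_zero.1 h' with h | h
    · have hh := congrArg Matrix.det hN2
      rw [det_mul, det_zero] at hh
      exact mul_self_eq_zero.1 hh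
    · exact h
  have hkey : ∀ g, (N * r g).trace = 0 := by
    intro g
    have hτ : g * σ * g⁻¹ ∈ commutator G := Subgroup.Normal.conj_mem inferInstance σ hσ g
    have h1 := hcon _ (mul_mem hσ hτ)
    have hgg : r g * r g⁻¹ = 1 := by rw [← map_mul, mul_inv_cancel, map_one]
    have e : r (σ * (g * σ * g⁻¹)) = 1 + N + r g * N * r g⁻¹ + N * (r g * N * r g⁻¹) := by
      simp only [map_mul, hN, sub_mul, mul_sub, mul_one, one_mul, hgg]
      abel
    rw [e, trace_add, trace_add, trace_add, trace_one, htN,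
      Matrix.trace_mul_cycle (r g) N, ← map_mul, inv_mul_cancel, map_one, one_mul, htN] at h1
    have h2 : (N * (r g * N * r g⁻¹)).trace = 0 := by simpa using h1
    have hginv : (r g).det • r g⁻¹ = (r g).trace • (1 : Matrix (Fin 2) (Fin 2) k) - r g := by
      have h := congrArg (· * r g⁻¹) (Attach.sq_fin_two (r g))
      simp only [sub_mul, smul_mul_assoc, Matrix.mul_assoc, hgg, mul_one, one_mul] at h
      exact eq_sub_of_add_eq' (eq_sub_iff_add_eq.1 h)
    have h3 := congrArg ((r g).det * ·) h2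
    rw [mul_zero, ← smul_eq_mul, ← trace_smul, ← Matrix.mul_smul, ← Matrix.mul_smul, hginv] at h3
    have h4 : (N * (r g * N * ((r g).trace • 1 - r g))).trace =
        (r g).trace * (r g * (N * N)).trace - (N * r g * (N * r g)).trace := by
      simp only [mul_sub, Matrix.mul_smul, mul_one, trace_sub, trace_smul, smul_eq_mul]
      rw [Matrix.trace_mul_comm N (r g * N), Matrix.mul_assoc (r g) N N]
      simp only [Matrix.mul_assoc]
    rw [h4, hN2, mul_zero, trace_zero, mul_zero, zero_sub, neg_eq_zero, trace_sq_fin_two,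
      det_mul, hdN, zero_mul, mul_zero, sub_zero] at h3
    exact pow_eq_zero_iff two_ne_zero |>.1 h3
  apply hne
  have hlin := forall_of_span hspan ((Matrix.traceLinearMap (Fin 2) k k).comp
    (LinearMap.mulLeft k N)) (fun g => hkey g)
  have : N = 0 := by
    ext i j
    have h := hlin (single j i 1)
    simp only [LinearMap.comp_apply, LinearMap.mulLeft_apply, Matrix.traceLinearMap_apply] at h
    fin_cases i <;> fin_cases j <;>
      simpa [Matrix.trace_fin_two, Matrix.mul_apply, Fin.sum_univ_two, single] using h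
  exact sub_eq_zero.1 this

theorem powerTrace_sign {R : Type*} [CommRing R] (e c : R) (he : e * e = 1) :
    ∀ j, powerTrace (e * (1 + c)) c j = e ^ j * (1 + c ^ j)
  | 0 => by simp [powerTrace, one_add_one_eq_two]
  | 1 => by simp [powerTrace]
  | j + 2 => by
    rw [powerTrace, powerTrace_sign e c he (j + 1), powerTrace_sign e c he j]
    linear_combination (e ^ j * c) * (1 + c ^ j) * he

end Linear

open Chebotarev in
open scoped Pointwise in
/-- Frobenius density, with both generators -/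
theorem exists_frobenius_gen (E : IntermediateField ℚ QBar) [FiniteDimensional ℚ E]
    (σ : GalQBar) (S : Finset ℕ) :
    ∃ (ℓ : ℕ) (A : ValuationSubring QBar) (τ : GalQBar) (k j : ℕ),
      ℓ.Prime ∧ ℓ ∉ S ∧ A.LiesOverPrime ℓ ∧ A.IsFrobeniusAt τ ℓ ∧
        (∀ x ∈ E, (τ ^ k) x = σ x) ∧ ∀ x ∈ E, τ x = (σ ^ j) x := by
  have : IsGalois ℚ QBar := FLTAgent.Alg.qb_isGalois
  let M := IntermediateField.normalClosure ℚ E QBar
  have : Normal ℚ M := normalClosure.normal ℚ E QBar
  obtain ⟨p, x, hpS, hx⟩ := exists_frobRes_conj_gen M (AlgEquiv.restrictNormalHom M σ) S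
  obtain ⟨g, hg⟩ := AlgEquiv.restrictNormalHom_surjective (F := ℚ) (K₁ := M)
    QBar x⁻¹
  have hmem : AlgEquiv.restrictNormalHom M σ ∈ Submonoid.powers (x⁻¹ * frobRes M p * x) := by
    rw [mem_powers_iff_mem_zpowers, hx]
    exact Subgroup.mem_zpowers _
  have hmem2 : x⁻¹ * frobRes M p * x ∈ Submonoid.powers (AlgEquiv.restrictNormalHom M σ) := by
    rw [mem_powers_iff_mem_zpowers, ← hx]
    exact Subgroup.mem_zpowers _
  obtain ⟨k, hk⟩ := hmem
  obtain ⟨j, hj⟩ := hmem2
  have key : ∀ σ₁ σ₂ : GalQBar, AlgEquiv.restrictNormalHom M σ₁ = AlgEquiv.restrictNormalHom M σ₂ →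
      ∀ z ∈ E, σ₁ z = σ₂ z := by
    intro σ₁ σ₂ h z hz
    have hzM : z ∈ M := E.le_normalClosure hz
    have h1 := AlgEquiv.restrictNormal_commutes σ₁ M ⟨z, hzM⟩
    have h2 := AlgEquiv.restrictNormal_commutes σ₂ M ⟨z, hzM⟩
    have e : σ₁.restrictNormal M = σ₂.restrictNormal M := h
    rw [e] at h1
    exact h1.symm.trans h2
  refine ⟨p, g • placeAt p, g * frobAt p * g⁻¹, k, j, p.2, hpS,
    liesOverPrime_smul g (placeAt_liesOver p), isFrobeniusAt_conj (isFrobeniusAt_frobAt p) g,
    key _ _ ?_, key _ _ ?_⟩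
  · rw [map_pow, map_mul, map_mul, map_inv, hg, inv_inv]
    exact hk
  · rw [map_mul, map_mul, map_inv, hg, inv_inv, map_pow]
    exact hj.symm

variable {W : WeierstrassCurve ℤ} {p : ℕ}

theorem two_ne_zero_zmod (hp : p.Prime) (hp2 : p ≠ 2) : (2 : ZMod p) ≠ 0 := by
  haveI : Fact p.Prime := ⟨hp⟩
  intro h
  have h' : p ∣ 2 := (ZMod.natCast_eq_zero_iff 2 p).1 (by exact_mod_cast h)
  exact hp2 ((Nat.prime_dvd_prime_iff_eq hp Nat.prime_two).1 h')

/-- a prime at which the representation is not congruent to `± Eisenstein` -/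
theorem exists_prime_sq_ne (hΔ : W.Δ ≠ 0) (hp : p.Prime) (hp2 : p ≠ 2)
    (hirr : W.ModRepIsIrreducible p) (S : Finset ℕ) :
    ∃ ℓ, ℓ.Prime ∧ ℓ ∉ S ∧ W.IsGoodPrimeFor ℓ ∧ ℓ ≠ p ∧
      ¬ (p : ℤ) ∣ W.apOfModel ℓ ^ 2 - ((ℓ : ℤ) + 1) ^ 2 := by
  classical
  haveI : Fact p.Prime := ⟨hp⟩
  obtain ⟨r, e, hspan, he, htr, hdet⟩ := TOR.exists_matrix_rep (p := p) hΔ hp2 hirr
  obtain ⟨g, hg⟩ := exists_trace_sq_ne hspan (two_ne_zero_zmod hp hp2)
    complexConjugation_mul_self (by rw [hdet, TOR.cyc_conj hp2])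
  by_contra hcon
  push Not at hcon
  obtain ⟨L2, hL2, hfix⟩ := EllFrob.exists_torsion_field hΔ p hp.ne_zero
  haveI := hL2
  obtain ⟨ℓ, A, τ, k, hℓ, hS, hA, hτ, hagree⟩ := Chebotarev.exists_frobenius_pow L2 g
    (insert p (W.Δ.natAbs.primeFactors ∪ S))
  simp only [Finset.mem_insert, Finset.mem_union, not_or] at hS
  obtain ⟨hℓp, hℓΔ, hℓS⟩ := hS
  have hgood : W.IsGoodPrimeFor ℓ := fun h => hℓΔ (Nat.mem_primeFactors.2
    ⟨hℓ, Int.natCast_dvd.1 h, by simpa using hΔ⟩)
  have hrk : r g = r τ ^ k := by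
    rw [← map_pow]
    refine Matrix.ext_of_mulVec_single fun j => ?_
    obtain ⟨x, hx⟩ := e.surjective (Pi.single j 1)
    rw [← hx, ← he, ← he, hfix g (τ ^ k) (fun z hz => (hagree z hz).symm)]
  obtain ⟨e1, -⟩ := EllFrob.galois_charpoly hℓ hgood hA hτ hp (Ne.symm hℓp)
  have hd : (r τ).det = (ℓ : ZMod p) :=
    (hdet τ).trans (Attach.cyc_frobenius hℓ
      (fun h => hℓp ((Nat.prime_dvd_prime_iff_eq hℓ hp).1 h)) hA hτ)
  obtain ⟨s, hs, hs'⟩ : ∃ s : ZMod p, s * s = 1 ∧ (r τ).trace = s * (1 + (ℓ : ZMod p)) := by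
    have h := (ZMod.intCast_zmod_eq_zero_iff_dvd _ p).2 (hcon ℓ hℓ hℓS hgood hℓp)
    push_cast at h
    rw [htr, e1]
    rcases sq_eq_sq_iff_eq_or_eq_neg.1 (sub_eq_zero.1 h) with h' | h'
    · exact ⟨1, one_mul 1, by rw [h', one_mul, add_comm]⟩
    · exact ⟨-1, by ring, by rw [h']; ring⟩
  refine hg ?_
  rw [hrk, Matrix.det_pow, SS2.trace_pow_fin_two, hs', hd, powerTrace_sign s _ hs, mul_pow,
    ← pow_mul, mul_comm k 2, pow_mul, pow_two s, hs, one_pow, one_mul]

/-- primes congruent to one at which the representation is not Eisenstein -/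
theorem exists_prime_one_mod (hΔ : W.Δ ≠ 0) (hp : p.Prime) (hp2 : p ≠ 2)
    (hirr : W.ModRepIsIrreducible p) (S : Finset ℕ) (M : ℕ) (hM : 0 < M) :
    ∃ s, s.Prime ∧ s ∉ S ∧ W.IsGoodPrimeFor s ∧ s ≠ p ∧ (M : ℤ) ∣ (s : ℤ) - 1 ∧
      ¬ (p : ℤ) ∣ W.apOfModel s - ((s : ℤ) + 1) := by
  classical
  haveI : Fact p.Prime := ⟨hp⟩
  haveI : NeZero M := ⟨hM.ne'⟩
  obtain ⟨r, e, hspan, he, htr, hdet⟩ := TOR.exists_matrix_rep (p := p) hΔ hp2 hirr
  obtain ⟨σ, hσ, hσ2⟩ := exists_commutator_trace_ne hspan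
  let φ : GalQ →* ZMod M :=
    { toFun := cyc M, map_one' := Attach.cyc_one M, map_mul' := Attach.cyc_mul M }
  obtain ⟨L2, hL2, hfix⟩ := EllFrob.exists_torsion_field hΔ p hp.ne_zero
  obtain ⟨L3, hL3, hcyc⟩ := Attach.exists_cyc_level M
  haveI := hL2
  haveI := hL3
  obtain ⟨s, A, τ, k, j, hs, hS, hA, hτ, hk, hj⟩ := exists_frobenius_gen (L2 ⊔ L3) σ
    (insert p (W.Δ.natAbs.primeFactors ∪ (M.primeFactors ∪ S)))
  simp only [Finset.mem_insert, Finset.mem_union, not_or] at hS
  obtain ⟨hsp, hsΔ, hsM', hsS⟩ := hS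
  have hgood : W.IsGoodPrimeFor s := fun h => hsΔ (Nat.mem_primeFactors.2
    ⟨hs, Int.natCast_dvd.1 h, by simpa using hΔ⟩)
  have hsM : ¬ s ∣ M := fun h => hsM' (Nat.mem_primeFactors.2 ⟨hs, h, hM.ne'⟩)
  have h1 : cyc M τ = 1 := by
    have hfixL : cyc M ((σ ^ j)⁻¹ * τ) = 1 := hcyc _ fun z hz => by
      rw [AlgEquiv.mul_apply, hj z (le_sup_right (a := L2) hz)]
      exact (σ ^ j).symm_apply_apply z
    have hφ : φ (σ ^ j) = 1 := by rw [map_pow, hom_eq_one_of_mem_commutator φ hσ, one_pow]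
    calc cyc M τ = cyc M (σ ^ j * ((σ ^ j)⁻¹ * τ)) := by rw [mul_inv_cancel_left]
      _ = φ (σ ^ j) * cyc M ((σ ^ j)⁻¹ * τ) := Attach.cyc_mul M _ _
      _ = 1 := by rw [hφ, hfixL, one_mul]
  rw [Attach.cyc_frobenius hs hsM hA hτ] at h1
  refine ⟨s, hs, hsS, hgood, hsp, ?_, fun hcon => ?_⟩
  · rw [← ZMod.intCast_zmod_eq_zero_iff_dvd]
    push_cast
    rw [h1, sub_self]
  have hrk : r σ = r τ ^ k := by
    rw [← map_pow]
    refine Matrix.ext_of_mulVec_single fun i => ?_
    obtain ⟨x, hx⟩ := e.surjective (Pi.single i 1)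
    rw [← hx, ← he, ← he, hfix σ (τ ^ k)
      (fun z hz => (hk z (le_sup_left (b := L3) hz)).symm)]
  obtain ⟨e1, -⟩ := EllFrob.galois_charpoly hs hgood hA hτ hp (Ne.symm hsp)
  have hd : (r τ).det = (s : ZMod p) :=
    (hdet τ).trans (Attach.cyc_frobenius hs
      (fun h => hsp ((Nat.prime_dvd_prime_iff_eq hs hp).1 h)) hA hτ)
  have ht : (r τ).trace = 1 * (1 + (s : ZMod p)) := by
    rw [htr, e1, one_mul, add_comm, ← sub_eq_zero]
    have := (ZMod.intCast_zmod_eq_zero_iff_dvd _ p).2 hcon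
    push_cast at this
    exact this
  have hd1 : (s : ZMod p) ^ k = 1 := by
    rw [← hd, ← Matrix.det_pow, ← hrk]
    exact hom_eq_one_of_mem_commutator (Matrix.detMonoidHom.comp r) hσ
  refine hσ2 ?_
  rw [hrk, SS2.trace_pow_fin_two, ht, hd, powerTrace_sign 1 _ (one_mul 1), hd1, one_pow, one_mul,
    one_add_one_eq_two]

end FLTAgent.LR
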