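import Fermat.Agent.LR.Invariance

/-!
Two Hecke operators at auxiliary primes annihilate every invariant symbol.
-/

set_option autoImplicit false
set_option linter.unusedSectionVars false
set_option linter.style.haveILetI false

noncomputable section

open Matrix OnePoint CongruenceSubgroup
open scoped MatrixGroups

namespace FLTAgent.LR

variable {V : Type} [AddCommGroup V]

theorem mul_apply_SL (g h : SL(2, ℤ)) (i j : Fin 2) :
    (g * h) i j = g i 0 * h 0 j + g i 1 * h 1 j := by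
  rw [Matrix.SpecialLinearGroup.coe_mul, Matrix.mul_apply, Fin.sum_univ_two]

theorem scalar_comm {c : ℚ} (hc : c ≠ 0) (g : GQ) : gm c 0 0 c * g = g * gm c 0 0 c := by
  apply Units.ext
  rw [Units.val_mul, Units.val_mul, val_gm (by simpa using mul_ne_zero hc hc)]
  ext i j
  fin_cases i <;> fin_cases j <;> simp [Matrix.mul_apply, Fin.sum_univ_two] <;> ring

theorem U_zpow (n : ℤ) : U (n : ℚ) = U 1 ^ n := by
  induction n using Int.induction_on with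
  | zero => simp [U_zero]
  | succ n ih => rw [_root_.zpow_add_one, ← ih, U_add]; push_cast; rfl
  | pred n ih => rw [_root_.zpow_sub_one, ← ih, ← U_neg, U_add]; push_cast; rw [sub_eq_add_neg]

theorem U_mem_stab_of_one {Φ : Cu → Cu → V} (h : U 1 ∈ stab Φ) (n : ℤ) : U (n : ℚ) ∈ stab Φ := by
  rw [U_zpow]
  exact Subgroup.zpow_mem _ h n

section BdOp

variable {N q : ℕ} (hN : 0 < N) (hq : q ≠ 0) {r : ℕ} (hr : r.Prime) (hrq : ¬ r ∣ q)
  (hrN : ¬ r ∣ N) (hr1 : ¬ (r : ℤ) ∣ (q : ℤ) ^ 2 - 1)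

include hN hq hr hrq hr1 in
theorem U_div_mem_bdOp (i : ℤ) : U ((i : ℚ) / r) ∈ bdOp V N q := by
  haveI : Fact r.Prime := ⟨hr⟩
  have hrQ : (r : ℚ) ≠ 0 := Nat.cast_ne_zero.mpr hr.ne_zero
  have hcop : IsCoprime ((q : ℤ) ^ 2) (r : ℤ) := by
    refine IsCoprime.pow_left ?_
    rw [Int.isCoprime_iff_gcd_eq_one, Int.gcd_natCast_natCast]
    exact (hr.coprime_iff_not_dvd.mpr hrq).symm
  obtain ⟨k, v, hkv⟩ := hcop
  have hk1 : IsCoprime (k - 1) (r : ℤ) := by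
    have hrp : Prime (r : ℤ) := Nat.prime_iff_prime_int.mp hr
    refine (hrp.coprime_iff_not_dvd.mpr fun ⟨z, hz⟩ => hr1 ?_).symm
    exact ⟨-(v + z * (q : ℤ) ^ 2), by linear_combination hkv - (q : ℤ) ^ 2 * hz⟩
  obtain ⟨a, b, hab⟩ := hk1
  refine ⟨4 * N * r ^ 2 * r ^ 2,
    Nat.mul_pos (Nat.mul_pos (by omega) (pow_pos hr.pos 2)) (pow_pos hr.pos 2), fun Φ hΦ => ?_⟩
  set t : ℤ := i * b with ht
  set j : ℤ := i * a with hj
  have hsplit : (i : ℚ) / r = t + ((j * k : ℤ) / (r : ℚ) - (j : ℚ) / r) := by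
    have e : (i : ℚ) = (j : ℚ) * (k - 1) + t * r := by
      rw [ht, hj]
      push_cast
      have hab' : (a : ℚ) * (k - 1) + b * r = 1 := by exact_mod_cast hab
      linear_combination -(i : ℚ) * hab'
    rw [e]
    push_cast
    field_simp
    ring
  have key : ∀ γ ∈ Gamma (4 * N * r ^ 2 * r ^ 2),
      U ((i : ℚ) / r) * emb γ * (U ((i : ℚ) / r))⁻¹ ∈ stab Φ ∧
        cS Φ (U ((i : ℚ) / r) * emb γ * (U ((i : ℚ) / r))⁻¹) = cS Φ (emb γ) := by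
    intro γ hγ
    obtain ⟨γ', hγ', e⟩ := conj_U_int hr.ne_zero (-j) hγ
    obtain ⟨γ'', hγ'', e'⟩ := conj_U_int (N := N) hr.ne_zero (j * k)
      (gamma_mono (M := N * r ^ 2) ⟨4, by ring⟩ hγ')
    have e1 : emb γ' = (U ((j : ℚ) / r))⁻¹ * emb γ * U ((j : ℚ) / r) := by
      rw [← e, ← U_neg]
      push_cast
      rw [neg_div, neg_neg]
    have h := cS_conj_eq hΦ hr hq hrq hN (k := k) (t0 := -v) (by linear_combination hkv) j hγ'
    have hX : U ((j * k : ℤ) / (r : ℚ)) * emb γ' * U (-((j * k : ℤ) / (r : ℚ))) ∈ stab Φ :=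
      e' ▸ hΦ.gamma _ (Gamma_le_Gamma0 hγ'')
    have hrhs : U ((j : ℚ) / r) * emb γ' * U (-((j : ℚ) / r)) = emb γ := by
      rw [e1, U_neg]; group
    rw [hrhs] at h
    have e2 : U ((i : ℚ) / r) * emb γ * (U ((i : ℚ) / r))⁻¹ =
        U (t : ℚ) * (U ((j * k : ℤ) / (r : ℚ)) * emb γ' * U (-((j * k : ℤ) / (r : ℚ)))) *
          (U (t : ℚ))⁻¹ := by
      rw [hsplit, ← U_add, sub_eq_add_neg ((j * k : ℤ) / (r : ℚ)), ← U_add, e1, U_neg, U_neg]
      group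
    have hts := U_int_mem hΦ t
    refine ⟨e2 ▸ Subgroup.mul_mem _ (Subgroup.mul_mem _ hts hX) (Subgroup.inv_mem _ hts), ?_⟩
    rw [e2, cS_mul hΦ.sym (Subgroup.mul_mem _ hts hX), cS_mul hΦ.sym hts, cS_inv hΦ.sym hts,
      cS_of_fix hΦ.sym hts (U_smul_infty _), h]
    abel
  refine Bd.of_cS ((hΦ.sym.pullS _).sub hΦ.sym) (fun γ hγ => ?_) (fun γ hγ => ?_)
  · intro x y
    have h1 := (key γ hγ).1 (U ((i : ℚ) / r) • x) (U ((i : ℚ) / r) • y)
    simp only [mul_smul, inv_smul_smul] at h1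
    have h2 := hΦ.gamma γ (Gamma_le_Gamma0 (gamma_mono ⟨4 * r ^ 2 * r ^ 2, by ring⟩ hγ)) x y
    simp only [Pi.sub_apply, LR.pullS, h1, h2]
  · have h1 := (key γ hγ).2
    have e : (U ((i : ℚ) / r))⁻¹ • (∞ : Cu) = ∞ := by rw [inv_smul_eq_iff, U_smul_infty]
    rw [cS, mul_smul, e, mul_smul] at h1
    simp only [cS, Pi.sub_apply, LR.pullS, U_smul_infty, h1, sub_self]

include hN hq hr hrq hrN hr1 in
theorem Dg_sq_mem_bdOp : Dg ((r : ℚ) ^ 2) ∈ bdOp V N q := by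
  have hrQ : (r : ℚ) ≠ 0 := Nat.cast_ne_zero.mpr hr.ne_zero
  have hNQ : (N : ℚ) ≠ 0 := Nat.cast_ne_zero.mpr hN.ne'
  obtain ⟨s0, v, hsv⟩ : IsCoprime (r : ℤ) (N : ℤ) := by
    rw [Int.isCoprime_iff_gcd_eq_one, Int.gcd_natCast_natCast]
    exact hr.coprime_iff_not_dvd.mpr hrN
  obtain ⟨w, z, hwz⟩ : IsCoprime s0 (N : ℤ) := ⟨r, v, by linear_combination hsv⟩
  -- `(s0, -z; N, w)` lies in `Γ₀(N)`
  have hdet : s0 * w - -z * (N : ℤ) = 1 := by linear_combination hwz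
  have hγ : emb (sl s0 (-z) N w hdet) ∈ bdOp V N q :=
    mem_bdOp_of_stab fun Φ hΦ => hΦ.gamma _ (mem_Gamma0_iff.mpr (by simp [sl]))
  obtain ⟨y, hy⟩ : ∃ y : ℤ, y = (r : ℤ) * z - w * v := ⟨_, rfl⟩
  have hUy : U (y : ℚ) ∈ bdOp V N q := mem_bdOp_of_stab fun Φ hΦ => U_int_mem hΦ y
  have hLo : Lo ((N * r : ℤ) : ℚ) ∈ bdOp V N q := mem_bdOp_of_stab fun Φ hΦ => by
    rw [Lo_int]
    exact hΦ.gamma _ (mem_Gamma0_iff.mpr (by simp [sl]))
  have hsc : gm (r : ℚ) 0 0 r ∈ bdOp V N q :=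
    mem_bdOp_of_stab fun Φ _ => mem_stab_of_trivial Φ (scalar_smul hrQ)
  have hx : U ((v : ℚ) / r) ∈ bdOp V N q := U_div_mem_bdOp hN hq hr hrq hr1 v
  have hwz' : (s0 : ℚ) * w + z * N = 1 := by exact_mod_cast (by linear_combination hwz : s0 * w + z * N = 1)
  have hsv' : (s0 : ℚ) * r + v * N = 1 := by exact_mod_cast hsv
  have hy' : (y : ℚ) = r * z - w * v := by exact_mod_cast hy
  have e : U ((v : ℚ) / r) * emb (sl s0 (-z) N w hdet) * U (y : ℚ) * gm (r : ℚ) 0 0 r *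
      Dg ((r : ℚ) ^ 2) = Lo ((N * r : ℤ) : ℚ) * gm ((r : ℚ) ^ 2) 0 0 ((r : ℚ) ^ 2) := by
    have e1 : U ((v : ℚ) / r) * emb (sl s0 (-z) N w hdet) * U (y : ℚ) = gm (1 / r) 0 N r := by
      have hd1 : (s0 : ℚ) * w - ((-z : ℤ) : ℚ) * ((N : ℤ) : ℚ) ≠ 0 := by
        push_cast
        rw [show (s0 : ℚ) * w - -(z : ℚ) * N = 1 by linear_combination hwz']
        norm_num
      rw [emb_sl, U, U, gm_mul (by norm_num) hd1, gm_mul ?_ (by norm_num)]
      · refine gm_ext ?_ ?_ ?_ ?_ <;> push_cast <;> field_simp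
        · linear_combination hsv'
        · linear_combination (y : ℚ) * hsv' + hy'
        · ring
        · linear_combination (N : ℚ) * hy' + (r : ℚ) * hwz' - (w : ℚ) * hsv'
      · intro h0
        push_cast at h0
        exact one_ne_zero (α := ℚ) (by linear_combination h0 - hwz')
    rw [e1, Dg, Lo, gm_mul (by simp [hrQ]) (by simp [hrQ]), gm_mul ?_ (by simp [hrQ]),
      gm_mul (by simp) (by simp [hrQ])]
    · refine gm_ext ?_ ?_ ?_ ?_ <;> push_cast <;> field_simp <;> ring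
    · field_simp
      simp [hrQ]
  have hr2 : gm ((r : ℚ) ^ 2) 0 0 ((r : ℚ) ^ 2) ∈ bdOp V N q :=
    mem_bdOp_of_stab fun Φ _ => mem_stab_of_trivial Φ (scalar_smul (pow_ne_zero 2 hrQ))
  rw [← eq_inv_mul_iff_mul_eq] at e
  rw [e]
  exact Subgroup.mul_mem _ (Subgroup.inv_mem _ (Subgroup.mul_mem _ (Subgroup.mul_mem _
    (Subgroup.mul_mem _ hx hγ) hUy) hsc)) (Subgroup.mul_mem _ hLo hr2)

end BdOp

/-- representatives for the correspondence at a prime `ℓ` -/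
def tRep (ℓ : ℕ) : OnePoint (ZMod ℓ) → GQ
  | Option.none => gm ℓ 0 0 1
  | Option.some b => gm 1 (b.val : ℕ) 0 ℓ

theorem tRep_infty (ℓ : ℕ) : tRep ℓ ∞ = Dg ℓ := rfl

theorem tRep_coe (ℓ : ℕ) (b : ZMod ℓ) : tRep ℓ (b : OnePoint (ZMod ℓ)) = gm 1 (b.val : ℕ) 0 ℓ := rfl

theorem tRep_coe_eq {ℓ : ℕ} (hℓ : ℓ ≠ 0) (b : ℚ) :
    gm 1 b 0 ℓ = gm (ℓ : ℚ) 0 0 ℓ * (Dg (ℓ : ℚ)⁻¹ * U b) := by
  have h : (ℓ : ℚ) ≠ 0 := Nat.cast_ne_zero.mpr hℓ
  rw [Dg, U, gm_mul (by simpa using inv_ne_zero h) (by norm_num),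
    gm_mul (by simpa using mul_ne_zero h h) (by simpa using inv_ne_zero h)]
  exact gm_ext (by field_simp; ring) (by field_simp; ring) (by ring) (by ring)

/-- the Hecke operator at `ℓ` on symbols -/
def TS (ℓ : ℕ) [NeZero ℓ] (Φ : Cu → Cu → V) : Cu → Cu → V :=
  ∑ i : OnePoint (ZMod ℓ), pullS (tRep ℓ i) Φ

theorem TS_apply (ℓ : ℕ) [NeZero ℓ] (Φ : Cu → Cu → V) (x y : Cu) :
    TS ℓ Φ x y = ∑ i : OnePoint (ZMod ℓ), Φ (tRep ℓ i • x) (tRep ℓ i • y) := by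
  simp only [TS, Finset.sum_apply]
  rfl

theorem IsSym.TS {Φ : Cu → Cu → V} (h : IsSym Φ) (ℓ : ℕ) [NeZero ℓ] : IsSym (TS ℓ Φ) :=
  ⟨fun x y z => by
    simp only [TS_apply, ← Finset.sum_add_distrib]
    exact Finset.sum_congr rfl fun i _ => h.add _ _ _⟩

/-- `(T_r)² - (r+1)²` -/
def e2 (r : ℕ) [NeZero r] (Φ : Cu → Cu → V) : Cu → Cu → V := TS r (TS r Φ) - ((r + 1) ^ 2) • Φ

/-- `T_s - (s+1)` -/
def e1 (s : ℕ) [NeZero s] (Φ : Cu → Cu → V) : Cu → Cu → V := TS s Φ - (s + 1) • Φ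

theorem TS_stab_U {ℓ : ℕ} [NeZero ℓ] {Φ : Cu → Cu → V} (h : U 1 ∈ stab Φ) :
    U 1 ∈ stab (TS ℓ Φ) := by
  intro x y
  simp only [TS_apply]
  have hℓ : (ℓ : ℚ) ≠ 0 := Nat.cast_ne_zero.mpr (NeZero.ne ℓ)
  refine Fintype.sum_equiv (Equiv.optionCongr (Equiv.addRight (1 : ZMod ℓ))) _ _ fun i => ?_
  induction i using OnePoint.rec with
  | infty =>
    show Φ _ _ = Φ (tRep ℓ ∞ • x) (tRep ℓ ∞ • y)
    have := U_mem_stab_of_one h (ℓ : ℤ)
    rw [← this (tRep ℓ ∞ • x) (tRep ℓ ∞ • y)]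
    push_cast
    simp only [← mul_smul, tRep_infty, Dg_U hℓ, mul_one]
  | coe b =>
    show Φ _ _ = Φ (tRep ℓ (↑(b + 1) : OnePoint (ZMod ℓ)) • x) (tRep ℓ (↑(b + 1) : OnePoint (ZMod ℓ)) • y)
    obtain ⟨t, ht⟩ : (ℓ : ℤ) ∣ (b.val : ℤ) + 1 - ((b + 1).val : ℤ) := by
      rw [← ZMod.intCast_zmod_eq_zero_iff_dvd]
      simp
    have e : tRep ℓ (b : OnePoint (ZMod ℓ)) * U 1 = U (t : ℚ) * tRep ℓ (↑(b + 1) : OnePoint (ZMod ℓ)) := by
      rw [tRep_coe, tRep_coe, U, U, gm_mul (by simpa using hℓ) (by norm_num),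
        gm_mul (by norm_num) (by simpa using hℓ)]
      refine gm_ext (by ring) ?_ (by ring) (by ring)
      have ht' := congrArg (Int.cast : ℤ → ℚ) ht
      push_cast at ht' ⊢
      linear_combination ht'
    have := U_mem_stab_of_one h t
    rw [← mul_smul, ← mul_smul, e, mul_smul, mul_smul, this]

theorem cusp_eq_emb (x : Cu) : ∃ g : SL(2, ℤ), emb g • (∞ : Cu) = x := by
  induction x using OnePoint.rec with
  | infty => exact ⟨1, by rw [map_one, one_smul]⟩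
  | coe x =>
    obtain ⟨u, v, huv⟩ : IsCoprime x.num (x.den : ℤ) := by
      rw [Int.isCoprime_iff_gcd_eq_one, Int.gcd, Int.natAbs_natCast]
      exact x.reduced
    refine ⟨sl x.num (-v) x.den u (by linear_combination huv), ?_⟩
    have hd : (x.den : ℚ) ≠ 0 := Nat.cast_ne_zero.mpr x.den_nz
    rw [smul_infty_eq_ite, emb_eq, val_gm (by rw [det_SL_cast]; norm_num)]
    simp [sl, Rat.num_div_den]

theorem smul_infty_eq_of_col {g h : GQ} {c : ℚ} (hc : c ≠ 0) (h0 : g 0 0 = c * h 0 0)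
    (h1 : g 1 0 = c * h 1 0) : g • (∞ : Cu) = h • ∞ := by
  rw [smul_infty_eq_ite, smul_infty_eq_ite, h0, h1]
  by_cases hh : h 1 0 = 0
  · simp [hh]
  · rw [if_neg (mul_ne_zero hc hh), if_neg hh, mul_div_mul_left _ _ hc]

/-- cusps congruent modulo `M` are equivalent under `Γ(M)` -/
theorem exists_gamma_smul {M : ℕ} (g h : SL(2, ℤ)) (h0 : (M : ℤ) ∣ h 0 0 - g 0 0)
    (h1 : (M : ℤ) ∣ h 1 0 - g 1 0) :
    ∃ γ ∈ Gamma M, emb γ • emb g • (∞ : Cu) = emb h • ∞ := by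
  set k := g⁻¹ * h with hk
  have k00 : k 0 0 = g 1 1 * h 0 0 - g 0 1 * h 1 0 := by
    simp [hk, Matrix.SpecialLinearGroup.coe_mul, Matrix.SpecialLinearGroup.coe_inv,
      Matrix.adjugate_fin_two, Matrix.mul_apply, Fin.sum_univ_two]
    ring
  have k10 : k 1 0 = g 0 0 * h 1 0 - g 1 0 * h 0 0 := by
    simp [hk, Matrix.SpecialLinearGroup.coe_mul, Matrix.SpecialLinearGroup.coe_inv,
      Matrix.adjugate_fin_two, Matrix.mul_apply, Fin.sum_univ_two]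
    ring
  obtain ⟨z0, hz0⟩ := h0
  obtain ⟨z1, hz1⟩ := h1
  set t : ℤ := -k 0 1 with ht
  set k' := k * sl 1 t 0 1 (by ring) with hk'
  have hk'm : k' ∈ Gamma M := by
    have ea : k' 0 0 = k 0 0 := by
      rw [hk', mul_apply_SL]; simp [sl]
    have eb : k' 0 1 = k 0 0 * t + k 0 1 := by
      rw [hk', mul_apply_SL]; simp [sl]
    have ec : k' 1 0 = k 1 0 := by
      rw [hk', mul_apply_SL]; simp [sl]
    have ed : k' 1 1 = k 1 0 * t + k 1 1 := by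
      rw [hk', mul_apply_SL]; simp [sl]
    refine mem_Gamma_iff.mpr ⟨⟨g 1 1 * z0 - g 0 1 * z1, ?_⟩,
      ⟨-k 0 1 * (g 1 1 * z0 - g 0 1 * z1), ?_⟩, ⟨g 0 0 * z1 - g 1 0 * z0, ?_⟩,
      ⟨-k 1 1 * (g 1 1 * z0 - g 0 1 * z1), ?_⟩⟩
    · rw [ea, k00]; linear_combination det_SL g + g 1 1 * hz0 - g 0 1 * hz1
    · rw [eb, ht, k00]
      linear_combination -k 0 1 * (det_SL g + g 1 1 * hz0 - g 0 1 * hz1)
    · rw [ec, k10]; linear_combination g 0 0 * hz1 - g 1 0 * hz0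
    · rw [ed, ht]
      linear_combination det_SL k - k 1 1 * (det_SL g + g 1 1 * hz0 - g 0 1 * hz1) - k 1 1 * k00
  refine ⟨g * k' * g⁻¹, (Gamma_normal M).conj_mem k' hk'm g, ?_⟩
  rw [map_mul, map_mul, map_inv, mul_smul, mul_smul, inv_smul_smul, hk', map_mul, mul_smul,
    show emb (sl 1 t 0 1 (by ring)) • (∞ : Cu) = ∞ by rw [← U_int]; exact U_smul_infty _, hk,
    map_mul, map_inv, mul_smul, smul_inv_smul]

/-- a matrix congruent to the identity modulo `M`, of prime determinant, fixes boundary symbols -/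
theorem bd_fix {M s : ℕ} (hs : s.Prime) (hs1 : (M : ℤ) ∣ (s : ℤ) - 1) {Ψ : Cu → Cu → V} (hΨ : Bd M Ψ)
    {a b c d : ℤ} (hdet : a * d - b * c = s) (ha : (M : ℤ) ∣ a - 1) (hb : (M : ℤ) ∣ b)
    (hc : (M : ℤ) ∣ c) (hd : (M : ℤ) ∣ d - 1) (x : Cu) :
    Ψ ∞ (gm a b c d • x) = Ψ ∞ x := by
  obtain ⟨g, rfl⟩ := cusp_eq_emb x
  have hdetQ : (a : ℚ) * d - (b : ℚ) * c ≠ 0 := by
    rw [show (a : ℚ) * d - (b : ℚ) * c = ((s : ℤ) : ℚ) by exact_mod_cast hdet]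
    exact_mod_cast hs.ne_zero
  set A := a * g 0 0 + b * g 1 0 with hA
  set C := c * g 0 0 + d * g 1 0 with hC
  have hsA : (Int.gcd A C : ℤ) ∣ s := by
    have h1 : (Int.gcd A C : ℤ) ∣ (s : ℤ) * g 0 0 := by
      rw [← hdet, show (a * d - b * c) * g 0 0 = d * A - b * C by rw [hA, hC]; ring]
      exact dvd_sub ((Int.gcd_dvd_left _ _).mul_left _) ((Int.gcd_dvd_right _ _).mul_left _)
    have h2 : (Int.gcd A C : ℤ) ∣ (s : ℤ) * g 1 0 := by
      rw [← hdet, show (a * d - b * c) * g 1 0 = a * C - c * A by rw [hA, hC]; ring]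
      exact dvd_sub ((Int.gcd_dvd_right _ _).mul_left _) ((Int.gcd_dvd_left _ _).mul_left _)
    have := dvd_sub (h1.mul_left (g 1 1)) (h2.mul_left (g 0 1))
    rwa [show g 1 1 * ((s : ℤ) * g 0 0) - g 0 1 * ((s : ℤ) * g 1 0) = s by
      linear_combination (s : ℤ) * det_SL g] at this
  set G := Int.gcd A C with hG
  have hGcase : G = 1 ∨ G = s := (Nat.dvd_prime hs).mp (Int.natCast_dvd_natCast.mp hsA)
  have hG0 : 0 < G := by rcases hGcase with h | h <;> rw [h] <;> [norm_num; exact hs.pos]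
  obtain ⟨w, hw⟩ : (M : ℤ) ∣ (G : ℤ) - 1 := by
    rcases hGcase with h | h <;> rw [h]
    · simp
    · exact hs1
  obtain ⟨A', C', hco, eA, eC⟩ := Int.exists_gcd_one hG0
  obtain ⟨u, v, huv⟩ := Int.isCoprime_iff_gcd_eq_one.mpr hco
  set h := sl A' (-v) C' u (by linear_combination huv) with hh
  have e : emb g • (∞ : Cu) = emb g • ∞ := rfl
  have hcol : gm a b c d • emb g • (∞ : Cu) = emb h • ∞ := by
    rw [← mul_smul, emb_eq g, emb_eq h, gm_mul hdetQ (by rw [det_SL_cast]; norm_num)]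
    refine smul_infty_eq_of_col (c := (G : ℚ)) (Nat.cast_ne_zero.mpr hG0.ne') ?_ ?_ <;>
      rw [val_gm ?_, val_gm ?_] <;>
      first
        | (simp only [hh, sl]; simp; exact_mod_cast eA.trans (mul_comm _ _))
        | (simp only [hh, sl]; simp; exact_mod_cast eC.trans (mul_comm _ _))
        | (rw [det_SL_cast]; norm_num)
        | (intro h0; exact (mul_ne_zero hdetQ one_ne_zero) (by linear_combination h0 + ((a : ℚ) * d - b * c) * det_SL_cast g * (-1)))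
  rw [hcol]
  obtain ⟨a1, ha1⟩ := ha
  obtain ⟨b1, hb1⟩ := hb
  obtain ⟨c1, hc1⟩ := hc
  obtain ⟨d1, hd1⟩ := hd
  obtain ⟨γ, hγ, eγ⟩ := exists_gamma_smul (M := M) g h
    ⟨a1 * g 0 0 + b1 * g 1 0 - A' * w, by
      show A' - g 0 0 = _
      linear_combination -eA + hA + g 0 0 * ha1 + g 1 0 * hb1 - A' * hw⟩
    ⟨c1 * g 0 0 + d1 * g 1 0 - C' * w, by
      show C' - g 1 0 = _
      linear_combination -eC + hC + g 0 0 * hc1 + g 1 0 * hd1 - C' * hw⟩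
  rw [← eγ, hΨ.inv γ hγ]

/-- `T_s` at `s ≡ 1` multiplies boundary symbols by `s + 1` -/
theorem e1_bd {M s : ℕ} [NeZero s] (hs : s.Prime) (hs1 : (M : ℤ) ∣ (s : ℤ) - 1)
    {Ψ : Cu → Cu → V} (hΨ : Bd M Ψ) (hU : U 1 ∈ stab Ψ) : e1 s Ψ = 0 := by
  obtain ⟨w, hw⟩ := hs1
  have key : ∀ x, ∑ i : OnePoint (ZMod s), Ψ ∞ (tRep s i • x) = (s + 1) • Ψ ∞ x := by
    intro x
    rw [show (s + 1) = Fintype.card (OnePoint (ZMod s)) from
      ((Fintype.card_option (α := ZMod s)).trans (by rw [ZMod.card])).symm, ← Finset.card_univ,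
      ← Finset.sum_const]
    refine Finset.sum_congr rfl fun i _ => ?_
    induction i using OnePoint.rec with
    | infty =>
      rw [tRep_infty, Dg]
      exact_mod_cast bd_fix hs ⟨w, hw⟩ hΨ (a := (s : ℤ)) (b := 0) (c := 0) (d := 1) (by ring)
        ⟨w, hw⟩ (dvd_zero _) (dvd_zero _) (by simp) x
    | coe b =>
      -- replace `b` by a multiple of `M`
      set b' : ℤ := -(M : ℤ) * w * b.val with hb'
      have e : gm 1 (b.val : ℕ) 0 (s : ℚ) = U ((b.val : ℤ) : ℚ) * gm 1 (b' : ℚ) 0 s := by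
        rw [U, gm_mul (by norm_num) (by simpa using hs.ne_zero)]
        refine gm_ext (by ring) ?_ (by ring) (by ring)
        have hw' : (s : ℚ) - 1 = M * w := by exact_mod_cast hw
        rw [hb']
        push_cast
        linear_combination -(b.val : ℚ) * hw'
      have hUb := U_mem_stab_of_one hU (b.val : ℤ)
      rw [tRep_coe, e, mul_smul]
      conv_lhs => rw [← U_smul_infty ((b.val : ℤ) : ℚ)]
      rw [hUb]
      exact_mod_cast bd_fix hs ⟨w, hw⟩ hΨ (a := 1) (b := b') (c := 0) (d := (s : ℤ)) (by ring)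
        (by simp) ⟨-(w * b.val), by rw [hb']; ring⟩ (dvd_zero _) ⟨w, hw⟩ x
  funext x y
  show TS s Ψ x y - (s + 1) • Ψ x y = 0
  rw [TS_apply, Finset.sum_congr rfl fun i _ => hΨ.sym.eq_sub (tRep s i • x) (tRep s i • y),
    hΨ.sym.eq_sub x y, Finset.sum_sub_distrib, key, key, nsmul_sub, sub_self]

/-- two Hecke operators annihilate invariant symbols -/
theorem core {N q : ℕ} (hN : 0 < N) (hq : q ≠ 0) {r : ℕ} [NeZero r] (hr : r.Prime) (hrq : ¬ r ∣ q)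
    (hrN : ¬ r ∣ N) (hr1 : ¬ (r : ℤ) ∣ (q : ℤ) ^ 2 - 1) :
    ∃ M : ℕ, 0 < M ∧ ∀ Φ : Cu → Cu → V, Inv N q Φ → ∀ (s : ℕ) [NeZero s], s.Prime →
      (M : ℤ) ∣ (s : ℤ) - 1 → e1 s (e2 r Φ) = 0 := by
  have hrQ : (r : ℚ) ≠ 0 := Nat.cast_ne_zero.mpr hr.ne_zero
  have hmem : ∀ i j : OnePoint (ZMod r), tRep r j * tRep r i ∈ bdOp V N q := by
    have hsc : gm (r : ℚ) 0 0 r ∈ bdOp V N q :=
      mem_bdOp_of_stab fun Φ _ => mem_stab_of_trivial Φ (scalar_smul hrQ)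
    have hU : ∀ n : ℕ, U (n : ℚ) ∈ bdOp V N q := fun n =>
      mem_bdOp_of_stab fun Φ hΦ => by exact_mod_cast U_int_mem hΦ (n : ℤ)
    have hD := Dg_sq_mem_bdOp (V := V) hN hq hr hrq hrN hr1
    intro i j
    induction i using OnePoint.rec with
    | infty =>
      induction j using OnePoint.rec with
      | infty =>
        rw [tRep_infty, Dg_mul hrQ hrQ, ← sq]
        exact hD
      | coe b =>
        rw [tRep_coe, tRep_infty, tRep_coe_eq hr.ne_zero, mul_assoc, mul_assoc]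
        refine Subgroup.mul_mem _ hsc ?_
        rw [← mul_assoc, mul_assoc, show U ((b.val : ℕ) : ℚ) * Dg (r : ℚ) =
            Dg (r : ℚ) * U (((b.val : ℕ) : ℤ) / (r : ℚ)) by
          rw [Dg_U hrQ]; push_cast; rw [mul_div_cancel₀ _ hrQ], ← mul_assoc,
          Dg_mul (inv_ne_zero hrQ) hrQ, inv_mul_cancel₀ hrQ, Dg_one, one_mul]
        exact U_div_mem_bdOp hN hq hr hrq hr1 _
    | coe a =>
      induction j using OnePoint.rec with
      | infty =>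
        rw [tRep_coe, tRep_infty, tRep_coe_eq hr.ne_zero, ← mul_assoc, ← scalar_comm hrQ, mul_assoc,
          ← mul_assoc (Dg (r : ℚ)), Dg_mul hrQ (inv_ne_zero hrQ), mul_inv_cancel₀ hrQ, Dg_one,
          one_mul]
        exact Subgroup.mul_mem _ hsc (hU _)
      | coe b =>
        have hi := Subgroup.inv_mem _ hD
        rw [← Dg_inv (pow_ne_zero 2 hrQ)] at hi
        rw [tRep_coe, tRep_coe, tRep_coe_eq hr.ne_zero, tRep_coe_eq hr.ne_zero, mul_assoc]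
        refine Subgroup.mul_mem _ hsc ?_
        rw [← mul_assoc, ← scalar_comm hrQ, mul_assoc]
        refine Subgroup.mul_mem _ hsc ?_
        have e : U ((b.val : ℕ) : ℚ) * Dg (r : ℚ)⁻¹ =
            Dg (r : ℚ)⁻¹ * U ((r * b.val : ℕ) : ℚ) := by
          rw [Dg_U (inv_ne_zero hrQ)]
          push_cast
          rw [← mul_assoc, inv_mul_cancel₀ hrQ, one_mul]
        rw [mul_assoc, ← mul_assoc (U _), e, mul_assoc, ← mul_assoc (Dg _) (Dg _),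
          Dg_mul (inv_ne_zero hrQ) (inv_ne_zero hrQ), ← mul_inv, ← sq]
        exact Subgroup.mul_mem _ hi (Subgroup.mul_mem _ (hU _) (hU _))
  choose M hM hbd using hmem
  refine ⟨∏ i, ∏ j, M i j, Finset.prod_pos fun i _ => Finset.prod_pos fun j _ => hM i j,
    fun Φ hΦ s _ hs hs1 => e1_bd hs hs1 ?_ ?_⟩
  · have e : e2 r Φ = ∑ i, ∑ j, (pullS (tRep r j * tRep r i) Φ - Φ) := by
      simp only [e2, Finset.sum_sub_distrib, Finset.sum_const, Finset.card_univ, smul_smul]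
      rw [show Fintype.card (OnePoint (ZMod r)) * Fintype.card (OnePoint (ZMod r)) = (r + 1) ^ 2 by
        rw [show Fintype.card (OnePoint (ZMod r)) = r + 1 from
          (Fintype.card_option (α := ZMod r)).trans (by rw [ZMod.card]), sq]]
      congr 1
      funext x y
      simp only [TS_apply, Finset.sum_apply, pullS, mul_smul]
    rw [e]
    refine Bd.sum _ fun i _ => Bd.sum _ fun j _ => (hbd i j Φ hΦ).mono ?_
    exact (Finset.dvd_prod_of_mem _ (Finset.mem_univ j)).trans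
      (Finset.dvd_prod_of_mem (fun i => ∏ j, M i j) (Finset.mem_univ i))
  · have h1 : U 1 ∈ stab Φ := by exact_mod_cast U_int_mem hΦ 1
    have h2 := TS_stab_U (ℓ := r) (TS_stab_U (ℓ := r) h1)
    intro x y
    simp only [e2, Pi.sub_apply, Pi.smul_apply, h1 x y, h2 x y]

/-- a pair of symbols related by `diag (q, 1)` is invariant -/
theorem inv_of_pair {N q : ℕ} (hq : q.Prime) (hqN : ¬ q ∣ N) {Φ₁ Φ₂ : Cu → Cu → V}
    (s₁ : IsSym Φ₁) (s₂ : IsSym Φ₂) (g₁ : ∀ γ ∈ Gamma0 N, emb γ ∈ stab Φ₁)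
    (g₂ : ∀ γ ∈ Gamma0 N, emb γ ∈ stab Φ₂) (h : Φ₁ + pullS (Dg q) Φ₂ = 0) :
    Inv N q Φ₁ ∧ Inv N q Φ₂ := by
  have hqQ : (q : ℚ) ≠ 0 := Nat.cast_ne_zero.mpr hq.ne_zero
  have hΦ : Φ₁ = -pullS (Dg q) Φ₂ := eq_neg_of_add_eq_zero_left h
  have hconj : ∀ g ∈ stab Φ₂, (Dg (q : ℚ))⁻¹ * g * Dg q ∈ stab Φ₁ := fun g hg x y => by
    simp only [hΦ, Pi.neg_apply, pullS, mul_smul, smul_inv_smul, hg _ _]
  have hU : ∀ i : ℤ, U ((i : ℚ) / q) ∈ stab Φ₁ := fun i => by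
    have := hconj (U (i : ℚ)) (by
      rw [U_int]; exact g₂ _ (mem_Gamma0_iff.mpr (by simp [sl])))
    rwa [mul_assoc, show U (i : ℚ) * Dg (q : ℚ) = Dg (q : ℚ) * U ((i : ℚ) / q) by
      rw [Dg_U hqQ, mul_div_cancel₀ _ hqQ], inv_mul_cancel_left] at this
  obtain ⟨s0, v, hsv⟩ : IsCoprime (q : ℤ) (N : ℤ) := by
    rw [Int.isCoprime_iff_gcd_eq_one, Int.gcd_natCast_natCast]
    exact hq.coprime_iff_not_dvd.mpr hqN
  have hdet : s0 * (q : ℤ) - -v * (N : ℤ) = 1 := by linear_combination hsv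
  have e1 : U ((v : ℚ) / q) * emb (sl s0 (-v) N q hdet) = gm (1 / q) 0 N q := by
    have hsv' : (s0 : ℚ) * q + v * N = 1 := by exact_mod_cast hsv
    have hd1 : (s0 : ℚ) * ((q : ℤ) : ℚ) - ((-v : ℤ) : ℚ) * ((N : ℤ) : ℚ) ≠ 0 := by
      push_cast
      rw [show (s0 : ℚ) * q - -(v : ℚ) * N = 1 by linear_combination hsv']
      norm_num
    rw [emb_sl, U, gm_mul (by norm_num) hd1]
    refine gm_ext ?_ ?_ ?_ ?_ <;> push_cast <;> field_simp
    · linear_combination hsv'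
    all_goals ring
  have hm : gm (1 / (q : ℚ)) 0 N q ∈ stab Φ₁ :=
    e1 ▸ Subgroup.mul_mem _ (hU v) (g₁ _ (mem_Gamma0_iff.mpr (by simp [sl])))
  have hd : Dg ((q : ℚ) ^ 2) ∈ stab Φ₁ := by
    have hL : Lo ((N * q : ℤ) : ℚ) ∈ stab Φ₁ := by
      rw [Lo_int]; exact g₁ _ (mem_Gamma0_iff.mpr (by simp [sl]))
    have hsc : gm (q : ℚ) 0 0 q ∈ stab Φ₁ := mem_stab_of_trivial Φ₁ (scalar_smul hqQ)
    have e : gm (1 / (q : ℚ)) 0 N q * gm (q : ℚ) 0 0 q * Dg ((q : ℚ) ^ 2) =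
        Lo ((N * q : ℤ) : ℚ) * (gm (q : ℚ) 0 0 q * gm (q : ℚ) 0 0 q) := by
      rw [Dg, Lo, gm_mul ?_ (by simp [hqQ]), gm_mul ?_ (by simp [hqQ]),
        gm_mul (by simp [hqQ]) (by simp [hqQ]), gm_mul (by simp) (by simp [hqQ])]
      · refine gm_ext ?_ ?_ ?_ ?_ <;> push_cast <;> field_simp <;> ring
      all_goals (field_simp; simp [hqQ])
    rw [← eq_inv_mul_iff_mul_eq] at e
    rw [e]
    exact Subgroup.mul_mem _ (Subgroup.inv_mem _ (Subgroup.mul_mem _ hm hsc))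
      (Subgroup.mul_mem _ hL (Subgroup.mul_mem _ hsc hsc))
  refine ⟨⟨s₁, g₁, hd⟩, s₂, g₂, ?_⟩
  intro x y
  have e : Φ₂ = -pullS (Dg (q : ℚ))⁻¹ Φ₁ := by
    funext x y
    simp [hΦ, pullS]
  have hcm : (Dg (q : ℚ))⁻¹ * Dg ((q : ℚ) ^ 2) = Dg ((q : ℚ) ^ 2) * (Dg (q : ℚ))⁻¹ := by
    rw [← Dg_inv hqQ, Dg_mul (inv_ne_zero hqQ) (pow_ne_zero 2 hqQ),
      Dg_mul (pow_ne_zero 2 hqQ) (inv_ne_zero hqQ), mul_comm]
  simp only [e, Pi.neg_apply, pullS, ← mul_smul, hcm]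
  simp only [mul_smul, hd _ _]

end FLTAgent.LR
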