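import Fermat.Agent.LR.Core
import Fermat.Prelude.Def_ModularCurve_PeriodMap

/-!
Correspondences between groups `Γ₀(A)` acting on homomorphisms and on symbols.
-/

set_option autoImplicit false
set_option linter.unusedSectionVars false
set_option linter.style.haveILetI false

noncomputable section

open Matrix OnePoint CongruenceSubgroup
open scoped MatrixGroups

namespace FLTAgent.LR

/-- homomorphisms on `Γ₀(M)` -/
abbrev HomG (M : ℕ) (V : Type) [AddCommGroup V] : Type := Additive (Gamma0 M) →+ V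

/-- `γ` as a rational matrix -/
abbrev embG {M : ℕ} : Gamma0 M →* GQ := emb.comp (Gamma0 M).subtype

theorem embG_apply {M : ℕ} (γ : Gamma0 M) : embG γ = emb (γ : SL(2, ℤ)) := rfl

theorem emb_injective : Function.Injective emb := Matrix.SpecialLinearGroup.mapGL_injective

theorem embG_injective {M : ℕ} : Function.Injective (embG (M := M)) :=
  emb_injective.comp Subtype.val_injective

/-- separated representatives with a right action -/
structure Corr (A B : ℕ) (ι : Type) [Fintype ι] where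
  rep : ι → GQ
  sep : ∀ i j (g : Gamma0 A), rep i = embG g * rep j → i = j
  step : ∀ (γ : Gamma0 B) (i : ι), ∃ (j : ι) (g : Gamma0 A), rep i * embG γ = embG g * rep j

namespace Corr

variable {A B : ℕ} {ι : Type} [Fintype ι] (C : Corr A B ι)

/-- the relation defining the operator -/
def Rel (γ : Gamma0 B) (σ : ι ≃ ι) (g : ι → Gamma0 A) : Prop :=
  ∀ i, C.rep i * embG γ = embG (g i) * C.rep (σ i)

theorem exists_rel (γ : Gamma0 B) : ∃ σ g, C.Rel γ σ g := by
  choose σ g h using C.step γ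
  have hinj : Function.Injective σ := fun i j e => by
    refine C.sep i j (g i * (g j)⁻¹) (mul_right_cancel (b := embG γ) ?_)
    rw [mul_assoc, h, h, map_mul, map_inv, e, mul_assoc, inv_mul_cancel_left]
  exact ⟨Equiv.ofBijective σ (Finite.injective_iff_bijective.mp hinj), g, h⟩

theorem rel_unique {γ : Gamma0 B} {σ σ' : ι ≃ ι} {g g' : ι → Gamma0 A} (h : C.Rel γ σ g)
    (h' : C.Rel γ σ' g') (i : ι) : σ i = σ' i ∧ g i = g' i := by
  have e : C.rep (σ i) = embG ((g i)⁻¹ * g' i) * C.rep (σ' i) := by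
    rw [map_mul, map_inv, mul_assoc, ← h' i, h i, inv_mul_cancel_left]
  have hs : σ i = σ' i := C.sep _ _ _ e
  refine ⟨hs, embG_injective ?_⟩
  have := (h i).symm.trans (h' i)
  rw [hs] at this
  exact mul_right_cancel this

/-- the permutation -/
def perm (γ : Gamma0 B) : ι ≃ ι := (C.exists_rel γ).choose

/-- the multipliers -/
def mult (γ : Gamma0 B) : ι → Gamma0 A := (C.exists_rel γ).choose_spec.choose

theorem rel_mult (γ : Gamma0 B) : C.Rel γ (C.perm γ) (C.mult γ) :=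
  (C.exists_rel γ).choose_spec.choose_spec

variable {V : Type} [AddCommGroup V]

theorem sum_eq {γ : Gamma0 B} {σ : ι ≃ ι} {g : ι → Gamma0 A} (h : C.Rel γ σ g) (φ : HomG A V) :
    ∑ i, φ (Additive.ofMul (C.mult γ i)) = ∑ i, φ (Additive.ofMul (g i)) :=
  Finset.sum_congr rfl fun i _ => by rw [(C.rel_unique (C.rel_mult γ) h i).2]

/-- the operator on homomorphisms -/
def op : HomG A V →+ HomG B V :=
  AddMonoidHom.mk'
    (fun φ => AddMonoidHom.mk' (fun γ => ∑ i, φ (Additive.ofMul (C.mult (Additive.toMul γ) i)))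
      (fun a b => by
        have ha := C.rel_mult (Additive.toMul a)
        have hb := C.rel_mult (Additive.toMul b)
        have hab : C.Rel (Additive.toMul a * Additive.toMul b)
            ((C.perm (Additive.toMul a)).trans (C.perm (Additive.toMul b)))
            (fun i => C.mult (Additive.toMul a) i *
              C.mult (Additive.toMul b) (C.perm (Additive.toMul a) i)) := fun i => by
          rw [map_mul, ← mul_assoc, ha i, mul_assoc, hb, ← mul_assoc, ← map_mul]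
          rfl
        rw [toMul_add, C.sum_eq hab φ]
        simp only [ofMul_mul, map_add, Finset.sum_add_distrib]
        rw [Equiv.sum_comp (C.perm (Additive.toMul a))
          (fun i => φ (Additive.ofMul (C.mult (Additive.toMul b) i)))]))
    (fun φ ψ => AddMonoidHom.ext fun γ => by simp [Finset.sum_add_distrib])

theorem op_apply {γ : Gamma0 B} {σ : ι ≃ ι} {g : ι → Gamma0 A} (h : C.Rel γ σ g) (φ : HomG A V) :
    C.op φ (Additive.ofMul γ) = ∑ i, φ (Additive.ofMul (g i)) := C.sum_eq h φ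

theorem op_comp {V' : Type} [AddCommGroup V'] (f : V →+ V') (φ : HomG A V) :
    C.op (f.comp φ) = f.comp (C.op φ) :=
  AddMonoidHom.ext fun γ => (map_sum f _ _).symm

variable {D : ℕ} {κ ρ : Type} [Fintype κ] [Fintype ρ]

/-- composites, compared with a third correspondence up to `Γ₀(A)` and one scalar -/
theorem op_op (C₂ : Corr B D κ) (R : Corr A D ρ) (τ : κ × ι ≃ ρ) (a : κ × ι → Gamma0 A) {c : ℚ}
    (hc : c ≠ 0)
    (h : ∀ k i, C.rep i * C₂.rep k = gm c 0 0 c * (embG (a (k, i)) * R.rep (τ (k, i))))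
    (φ : HomG A V) : C₂.op (C.op φ) = R.op φ := by
  refine AddMonoidHom.ext fun x => ?_
  obtain ⟨γ, rfl⟩ := Additive.ofMul.surjective x
  obtain ⟨σ, g, hg⟩ := C₂.exists_rel γ
  let p : κ × ι → κ × ι := fun x => (σ x.1, C.perm (g x.1) x.2)
  have hp : Function.Bijective p := by
    refine Finite.injective_iff_bijective.mp fun x y e => ?_
    have e1 := σ.injective (congrArg Prod.fst e)
    exact Prod.ext e1 ((C.perm (g x.1)).injective ((congrArg Prod.snd e).trans (by rw [e1])))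
  let P : κ × ι ≃ κ × ι := Equiv.ofBijective p hp
  have hR : R.Rel γ ((τ.symm.trans P).trans τ)
      (fun k => (a (τ.symm k))⁻¹ * C.mult (g (τ.symm k).1) (τ.symm k).2 * a (P (τ.symm k))) := by
    intro r
    obtain ⟨⟨k, i⟩, rfl⟩ := τ.surjective r
    simp only [Equiv.symm_apply_apply, Equiv.trans_apply, map_mul, map_inv]
    refine mul_left_cancel (a := gm c 0 0 c * embG (a (k, i))) ?_
    calc gm c 0 0 c * embG (a (k, i)) * (R.rep (τ (k, i)) * embG γ)
        = C.rep i * C₂.rep k * embG γ := by rw [h k i]; group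
      _ = C.rep i * embG (g k) * C₂.rep (σ k) := by rw [mul_assoc, hg k, mul_assoc]
      _ = embG (C.mult (g k) i) * (C.rep (C.perm (g k) i) * C₂.rep (σ k)) := by
          rw [C.rel_mult (g k) i, mul_assoc]
      _ = embG (C.mult (g k) i) * (gm c 0 0 c * (embG (a (P (k, i))) * R.rep (τ (P (k, i))))) := by
          rw [h]; rfl
      _ = gm c 0 0 c * (embG (C.mult (g k) i) * (embG (a (P (k, i))) * R.rep (τ (P (k, i))))) := by
          rw [← mul_assoc, ← scalar_comm hc, mul_assoc]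
      _ = _ := by group
  rw [R.op_apply hR, C₂.op_apply hg,
    Equiv.sum_comp τ.symm (fun x => φ (Additive.ofMul
      ((a x)⁻¹ * C.mult (g x.1) x.2 * a (P x))))]
  simp only [ofMul_mul, ofMul_inv, map_add, map_neg, Finset.sum_add_distrib, Finset.sum_neg_distrib]
  rw [Equiv.sum_comp P (fun x => φ (Additive.ofMul (a x))), Fintype.sum_prod_type
    (f := fun x : κ × ι => φ (Additive.ofMul (C.mult (g x.1) x.2)))]
  simp only [← C.op_apply (C.rel_mult _)]
  abel

/-- composite with a single representative -/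
def comp1 (C₂ : Corr B D Unit) : Corr A D ι where
  rep i := C.rep i * C₂.rep ()
  sep i j g h := C.sep i j g (mul_right_cancel (by rw [h, mul_assoc]))
  step γ i := by
    obtain ⟨⟨⟩, b, hb⟩ := C₂.step γ ()
    obtain ⟨j, a, ha⟩ := C.step b i
    exact ⟨j, a, by rw [mul_assoc, hb, ← mul_assoc, ha, mul_assoc]⟩

theorem op_comp1 (C₂ : Corr B D Unit) (φ : HomG A V) : (C.comp1 C₂).op φ = C₂.op (C.op φ) :=
  (C.op_op C₂ (C.comp1 C₂) (Equiv.punitProd ι) (fun _ => 1) one_ne_zero (fun k i => by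
    rw [gm_id, one_mul, map_one, one_mul]; rfl) φ).symm

/-- the operator on symbols -/
def symOp (Φ : Cu → Cu → V) : Cu → Cu → V := ∑ i, pullS (C.rep i) Φ

theorem symOp_apply (Φ : Cu → Cu → V) (x y : Cu) :
    C.symOp Φ x y = ∑ i, Φ (C.rep i • x) (C.rep i • y) := by
  simp only [symOp, Finset.sum_apply]
  rfl

theorem symOp_sym {Φ : Cu → Cu → V} (h : IsSym Φ) : IsSym (C.symOp Φ) :=
  ⟨fun x y z => by
    simp only [symOp_apply, ← Finset.sum_add_distrib]
    exact Finset.sum_congr rfl fun i _ => h.add _ _ _⟩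

theorem symOp_stab {Φ : Cu → Cu → V} (hs : ∀ g : Gamma0 A, embG g ∈ stab Φ) (γ : Gamma0 B) :
    embG γ ∈ stab (C.symOp Φ) := by
  intro x y
  simp only [symOp_apply, ← mul_smul]
  simp only [C.rel_mult γ _, mul_smul, hs _ _ _]
  exact Equiv.sum_comp (C.perm γ) (fun i => Φ (C.rep i • x) (C.rep i • y))

theorem cS_symOp {Φ : Cu → Cu → V} (h : IsSym Φ) (hs : ∀ g : Gamma0 A, embG g ∈ stab Φ)
    (φ : HomG A V) (hφ : ∀ g, φ (Additive.ofMul g) = cS Φ (embG g)) (γ : Gamma0 B) :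
    cS (C.symOp Φ) (embG γ) = C.op φ (Additive.ofMul γ) := by
  rw [C.op_apply (C.rel_mult γ)]
  simp only [cS, symOp_apply, ← mul_smul]
  have e : ∀ i, Φ (C.rep i • (∞ : Cu)) ((C.rep i * embG γ) • ∞) = φ (Additive.ofMul (C.mult γ i)) +
      (Φ ∞ (C.rep (C.perm γ i) • ∞) - Φ ∞ (C.rep i • ∞)) := by
    intro i
    rw [C.rel_mult γ i, mul_smul, h.eq_sub, hφ, cS,
      ← h.add ∞ (embG (C.mult γ i) • ∞) (embG (C.mult γ i) • C.rep (C.perm γ i) • ∞), hs _ _ _]
    abel
  simp only [e, Finset.sum_add_distrib, Finset.sum_sub_distrib,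
    Equiv.sum_comp (C.perm γ) (fun i => Φ ∞ (C.rep i • ∞)), sub_self, add_zero]

end Corr

/-- integral matrices, with a first entry prime to the determinant, are triangular up to `Γ₀(M)` -/
theorem exists_fin {M ℓ : ℕ} (hℓ : ℓ.Prime) {a b c d : ℤ} (hdet : a * d - b * c = ℓ)
    (hc : (M : ℤ) ∣ c) (ha : ¬ (ℓ : ℤ) ∣ a) :
    ∃ (k : ZMod ℓ) (g : Gamma0 M), gm (a : ℚ) b c d = embG g * gm 1 (k.val : ℕ) 0 ℓ := by
  haveI : Fact ℓ.Prime := ⟨hℓ⟩
  have hℓQ : (ℓ : ℚ) ≠ 0 := Nat.cast_ne_zero.mpr hℓ.ne_zero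
  have ha' : (a : ZMod ℓ) ≠ 0 := fun h => ha ((ZMod.intCast_zmod_eq_zero_iff_dvd _ _).mp h)
  set k : ZMod ℓ := (b : ZMod ℓ) / a with hk
  obtain ⟨u, hu⟩ : (ℓ : ℤ) ∣ b - a * (k.val : ℤ) := by
    rw [← ZMod.intCast_zmod_eq_zero_iff_dvd]
    push_cast
    rw [ZMod.natCast_zmod_val, hk, mul_div_cancel₀ _ ha', sub_self]
  obtain ⟨v, hv⟩ : (ℓ : ℤ) ∣ d - c * (k.val : ℤ) := by
    have hd := congrArg (Int.cast : ℤ → ZMod ℓ) hdet
    push_cast at hd
    rw [ZMod.natCast_self] at hd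
    rw [← ZMod.intCast_zmod_eq_zero_iff_dvd]
    push_cast
    rw [ZMod.natCast_zmod_val, hk]
    field_simp
    linear_combination hd
  have hdet' : a * v - u * c = 1 := by
    refine mul_left_cancel₀ (Int.natCast_ne_zero.mpr hℓ.ne_zero) ?_
    rw [mul_one]
    linear_combination hdet - a * hv + c * hu
  refine ⟨k, ⟨sl a u c v hdet', mem_Gamma0_iff.mpr hc⟩, ?_⟩
  show _ = emb (sl a u c v hdet') * _
  have hu' : (b : ℚ) - a * (k.val : ℕ) = ℓ * u := by exact_mod_cast hu
  have hv' : (d : ℚ) - c * (k.val : ℕ) = ℓ * v := by exact_mod_cast hv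
  have hd' : (a : ℚ) * v - u * c ≠ 0 := by
    rw [show (a : ℚ) * v - u * c = 1 by exact_mod_cast hdet']; norm_num
  rw [emb_sl, gm_mul hd' (by simpa using hℓQ)]
  exact gm_ext (by ring) (by linear_combination hu') (by ring) (by linear_combination hv')

/-- integral matrices of determinant `ℓ` are right translates of the representatives -/
theorem exists_tRep {M ℓ : ℕ} (hℓ : ℓ.Prime) (hℓM : ¬ ℓ ∣ M) {a b c d : ℤ}
    (hdet : a * d - b * c = ℓ) (hc : (M : ℤ) ∣ c) :
    ∃ (i : OnePoint (ZMod ℓ)) (g : Gamma0 M), gm (a : ℚ) b c d = embG g * tRep ℓ i := by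
  haveI : Fact ℓ.Prime := ⟨hℓ⟩
  have hℓQ : (ℓ : ℚ) ≠ 0 := Nat.cast_ne_zero.mpr hℓ.ne_zero
  have hℓZ : (ℓ : ℤ) ≠ 0 := Int.natCast_ne_zero.mpr hℓ.ne_zero
  by_cases ha : (ℓ : ℤ) ∣ a
  swap
  · obtain ⟨k, g, e⟩ := exists_fin hℓ hdet hc ha
    exact ⟨k, g, by rw [tRep_coe]; exact e⟩
  by_cases hcl : (ℓ : ℤ) ∣ c
  · obtain ⟨a', rfl⟩ := ha
    obtain ⟨c', rfl⟩ := hcl
    have hdet' : a' * d - b * c' = 1 := mul_left_cancel₀ hℓZ (by linear_combination hdet)
    have hc' : (M : ℤ) ∣ c' := by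
      refine (IsCoprime.dvd_of_dvd_mul_left ?_ hc)
      rw [Int.isCoprime_iff_gcd_eq_one, Int.gcd_natCast_natCast]
      exact (hℓ.coprime_iff_not_dvd.mpr hℓM).symm
    refine ⟨∞, ⟨sl a' b c' d hdet', mem_Gamma0_iff.mpr hc'⟩, ?_⟩
    show _ = emb (sl a' b c' d hdet') * _
    have hd' : (a' : ℚ) * d - b * c' ≠ 0 := by
      rw [show (a' : ℚ) * d - b * c' = 1 by exact_mod_cast hdet']; norm_num
    rw [emb_sl, tRep_infty, Dg, gm_mul hd' (by simpa using hℓQ)]
    push_cast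
    exact gm_ext (by ring) (by ring) (by ring) (by ring)
  · have hc' : (c : ZMod ℓ) ≠ 0 := fun h => hcl ((ZMod.intCast_zmod_eq_zero_iff_dvd _ _).mp h)
    set k : ZMod ℓ := (d : ZMod ℓ) / c with hk
    have ha0 : (a : ZMod ℓ) = 0 := (ZMod.intCast_zmod_eq_zero_iff_dvd _ _).mpr ha
    have hb0 : (b : ZMod ℓ) = 0 := by
      have hd := congrArg (Int.cast : ℤ → ZMod ℓ) hdet
      push_cast at hd
      rw [ZMod.natCast_self, ha0, zero_mul, zero_sub, neg_eq_zero] at hd
      exact (mul_eq_zero.mp hd).resolve_right hc'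
    obtain ⟨u, hu⟩ : (ℓ : ℤ) ∣ b - a * (k.val : ℤ) := by
      rw [← ZMod.intCast_zmod_eq_zero_iff_dvd]
      push_cast
      rw [ha0, hb0, zero_mul, sub_self]
    obtain ⟨v, hv⟩ : (ℓ : ℤ) ∣ d - c * (k.val : ℤ) := by
      rw [← ZMod.intCast_zmod_eq_zero_iff_dvd]
      push_cast
      rw [ZMod.natCast_zmod_val, hk, mul_div_cancel₀ _ hc', sub_self]
    have hdet' : a * v - u * c = 1 := by
      refine mul_left_cancel₀ hℓZ ?_
      rw [mul_one]
      linear_combination hdet - a * hv + c * hu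
    refine ⟨k, ⟨sl a u c v hdet', mem_Gamma0_iff.mpr hc⟩, ?_⟩
    show _ = emb (sl a u c v hdet') * _
    have hu' : (b : ℚ) - a * (k.val : ℕ) = ℓ * u := by exact_mod_cast hu
    have hv' : (d : ℚ) - c * (k.val : ℕ) = ℓ * v := by exact_mod_cast hv
    have hd' : (a : ℚ) * v - u * c ≠ 0 := by
      rw [show (a : ℚ) * v - u * c = 1 by exact_mod_cast hdet']; norm_num
    rw [emb_sl, tRep_coe, gm_mul hd' (by simpa using hℓQ)]
    exact gm_ext (by ring) (by linear_combination hu') (by ring) (by linear_combination hv')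

theorem gm_eq_iff {a b c d a' b' c' d' : ℚ} (h : a * d - b * c ≠ 0) (h' : a' * d' - b' * c' ≠ 0) :
    gm a b c d = gm a' b' c' d' ↔ a = a' ∧ b = b' ∧ c = c' ∧ d = d' := by
  refine ⟨fun e => ?_, fun ⟨h1, h2, h3, h4⟩ => gm_ext h1 h2 h3 h4⟩
  have e' := congrArg (fun g : GQ => (g : Matrix (Fin 2) (Fin 2) ℚ)) e
  simp only [val_gm h, val_gm h'] at e'
  exact ⟨by simpa using congrFun (congrFun e' 0) 0, by simpa using congrFun (congrFun e' 0) 1,
    by simpa using congrFun (congrFun e' 1) 0, by simpa using congrFun (congrFun e' 1) 1⟩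

theorem tRep_int {ℓ : ℕ} (i : OnePoint (ZMod ℓ)) :
    ∃ a b d : ℤ, a * d = ℓ ∧ tRep ℓ i = gm (a : ℚ) b 0 d := by
  induction i using OnePoint.rec with
  | infty => exact ⟨ℓ, 0, 1, by ring, by rw [tRep_infty, Dg]; push_cast; rfl⟩
  | coe k => exact ⟨1, (k.val : ℕ), ℓ, by ring, by rw [tRep_coe]; push_cast; rfl⟩

/-- the representatives are separated -/
theorem tRep_sep {ℓ : ℕ} [NeZero ℓ] (hℓ : ℓ.Prime) (i j : OnePoint (ZMod ℓ)) (g : SL(2, ℤ))
    (h : tRep ℓ i = emb g * tRep ℓ j) : i = j := by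
  have hℓQ : (ℓ : ℚ) ≠ 0 := Nat.cast_ne_zero.mpr hℓ.ne_zero
  have hg := det_SL_cast g
  have hg' : ((g 0 0 : ℤ) : ℚ) * (g 1 1 : ℤ) - (g 0 1 : ℤ) * (g 1 0 : ℤ) ≠ 0 := by
    rw [hg]; norm_num
  have hone : ∀ z : ℤ, (z : ℚ) * (ℓ : ℚ) = 1 → False := fun z hz => by
    have : z * (ℓ : ℤ) = 1 := by exact_mod_cast hz
    exact hℓ.not_dvd_one (Int.natCast_dvd_natCast.mp ⟨z, by rw [mul_comm]; exact_mod_cast this.symm⟩)
  induction i using OnePoint.rec with
  | infty =>
    induction j using OnePoint.rec with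
    | infty => rfl
    | coe b =>
      exfalso
      rw [tRep_infty, tRep_coe, Dg, emb_eq, gm_mul hg' (by simpa using hℓQ)] at h
      obtain ⟨-, -, h3, h4⟩ := (gm_eq_iff (by simpa using hℓQ) (fun h0 => by
        exact hℓQ (by linear_combination h0 - (ℓ : ℚ) * hg))).mp h
      refine hone (g 1 1) ?_
      linear_combination -h4 + ((b.val : ℕ) : ℚ) * h3
  | coe a =>
    induction j using OnePoint.rec with
    | infty =>
      exfalso
      rw [tRep_infty, tRep_coe, Dg, emb_eq, gm_mul hg' (by simpa using hℓQ)] at h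
      obtain ⟨h1, -, -, -⟩ := (gm_eq_iff (by simpa using hℓQ) (fun h0 => by
        exact hℓQ (by linear_combination h0 - (ℓ : ℚ) * hg))).mp h
      refine hone (g 0 0) ?_
      linear_combination -h1
    | coe b =>
      rw [tRep_coe, tRep_coe, emb_eq, gm_mul hg' (by simpa using hℓQ)] at h
      obtain ⟨h1, h2, -, -⟩ := (gm_eq_iff (by simpa using hℓQ) (fun h0 => by
        exact hℓQ (by linear_combination h0 - (ℓ : ℚ) * hg))).mp h
      have e : ((a.val : ℕ) : ℤ) = (b.val : ℕ) + g 0 1 * (ℓ : ℤ) := by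
        have : (((a.val : ℕ) : ℤ) : ℚ) = (((b.val : ℕ) + g 0 1 * (ℓ : ℤ) : ℤ) : ℚ) := by
          push_cast
          linear_combination h2 - ((b.val : ℕ) : ℚ) * h1
        exact_mod_cast this
      have := congrArg (Int.cast : ℤ → ZMod ℓ) e
      push_cast at this
      rw [ZMod.natCast_zmod_val, ZMod.natCast_zmod_val, ZMod.natCast_self, mul_zero, add_zero] at this
      rw [this]

theorem tRep_mul_int {ℓ : ℕ} [NeZero ℓ] (i : OnePoint (ZMod ℓ)) (γ : SL(2, ℤ)) :
    ∃ a b c d : ℤ, a * d - b * c = ℓ ∧ γ 1 0 ∣ c ∧ tRep ℓ i * emb γ = gm (a : ℚ) b c d := by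
  obtain ⟨a, b, d, had, e⟩ := tRep_int i
  refine ⟨a * γ 0 0 + b * γ 1 0, a * γ 0 1 + b * γ 1 1, d * γ 1 0, d * γ 1 1, ?_,
    dvd_mul_left _ _, ?_⟩
  · linear_combination had + a * d * det_SL γ
  · have hd : (a : ℚ) * d - b * 0 ≠ 0 := by
      rw [mul_zero, sub_zero, show (a : ℚ) * d = ((ℓ : ℤ) : ℚ) by exact_mod_cast had]
      exact_mod_cast NeZero.ne ℓ
    rw [e, emb_eq, gm_mul hd (by rw [det_SL_cast]; norm_num)]
    exact gm_ext (by push_cast; ring) (by push_cast; ring) (by push_cast; ring) (by push_cast; ring)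

/-- the Hecke correspondence at `ℓ`, possibly changing the level -/
def TC (A B ℓ : ℕ) [NeZero ℓ] (hℓ : ℓ.Prime) (hAB : A ∣ B) (hℓA : ¬ ℓ ∣ A) :
    Corr A B (OnePoint (ZMod ℓ)) where
  rep := tRep ℓ
  sep i j g h := tRep_sep hℓ i j g h
  step γ i := by
    obtain ⟨a, b, c, d, hdet, hc, e⟩ := tRep_mul_int i (γ : SL(2, ℤ))
    obtain ⟨j, g, e'⟩ := exists_tRep hℓ hℓA hdet
      (((Int.natCast_dvd_natCast.mpr hAB).trans (mem_Gamma0_iff.mp γ.2)).trans hc)
    exact ⟨j, g, e.trans e'⟩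

theorem TC_symOp {A B ℓ : ℕ} [NeZero ℓ] (hℓ : ℓ.Prime) (hAB : A ∣ B) (hℓA : ¬ ℓ ∣ A)
    {V : Type} [AddCommGroup V] (Φ : Cu → Cu → V) : (TC A B ℓ hℓ hAB hℓA).symOp Φ = TS ℓ Φ := rfl

/-- operators with one representative preserve parabolicity -/
theorem op_parabolic {A B : ℕ} (C : Corr A B Unit) {V : Type} [AddCommGroup V] {φ : HomG A V}
    (hφ : ModularCurve.Period.IsParabolicHom (Gamma0 A) φ) :
    ModularCurve.Period.IsParabolicHom (Gamma0 B) (C.op φ) := by
  intro γ hγ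
  rw [C.op_apply (C.rel_mult γ), Fintype.sum_unique]
  refine hφ _ ?_
  have h := C.rel_mult γ ()
  have e : embG (C.mult γ ()) = C.rep () * embG γ * (C.rep ())⁻¹ := by
    rw [h, show C.perm γ () = () from rfl, mul_inv_cancel_right]
  have ht := congrArg (fun g : GQ => (g : Matrix (Fin 2) (Fin 2) ℚ).trace) e
  simp only [Units.val_mul] at ht
  rw [Matrix.trace_mul_cycle, Units.inv_mul, one_mul] at ht
  have ht' : ((((C.mult γ () : Gamma0 A) : SL(2, ℤ)) : Matrix (Fin 2) (Fin 2) ℤ).trace : ℚ) =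
      (((γ : SL(2, ℤ)) : Matrix (Fin 2) (Fin 2) ℤ).trace : ℚ) := by
    simpa [Matrix.trace_fin_two] using ht
  rw [show ((default : Unit)) = () from rfl, Int.cast_injective ht', hγ]

end FLTAgent.LR
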