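import Mathlib

/-!
Cusps, modular symbols with values in an abelian group, and their periods.
-/

set_option autoImplicit false
set_option linter.unusedSectionVars false

noncomputable section

open Matrix OnePoint CongruenceSubgroup
open scoped MatrixGroups

namespace FLTAgent.LR

/-- invertible rational matrices -/
abbrev GQ := GL (Fin 2) ℚ

/-- cusps -/
abbrev Cu := OnePoint ℚ

/-- an integral matrix of determinant one, over `ℚ` -/
abbrev emb : SL(2, ℤ) →* GQ := Matrix.SpecialLinearGroup.mapGL ℚ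

/-- the matrix with the given entries -/
def gm (a b c d : ℚ) : GQ :=
  if h : a * d - b * c ≠ 0 then
    Matrix.GeneralLinearGroup.mkOfDetNeZero !![a, b; c, d] (by simpa [det_fin_two] using h)
  else 1

theorem val_gm {a b c d : ℚ} (h : a * d - b * c ≠ 0) :
    (gm a b c d : Matrix (Fin 2) (Fin 2) ℚ) = !![a, b; c, d] := by
  rw [gm, dif_pos h]
  rfl

theorem gm_mul {a b c d a' b' c' d' : ℚ} (h : a * d - b * c ≠ 0) (h' : a' * d' - b' * c' ≠ 0) :
    gm a b c d * gm a' b' c' d' =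
      gm (a * a' + b * c') (a * b' + b * d') (c * a' + d * c') (c * b' + d * d') := by
  apply Units.ext
  rw [Units.val_mul, val_gm h, val_gm h', val_gm]
  · ext i j
    fin_cases i <;> fin_cases j <;> simp [Matrix.mul_apply, Fin.sum_univ_two]
  · rw [show (a * a' + b * c') * (c * b' + d * d') - (a * b' + b * d') * (c * a' + d * c') =
      (a * d - b * c) * (a' * d' - b' * c') by ring]
    exact mul_ne_zero h h'

theorem gm_ext {a b c d a' b' c' d' : ℚ} (ha : a = a') (hb : b = b') (hc : c = c') (hd : d = d') :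
    gm a b c d = gm a' b' c' d' := by
  subst ha hb hc hd
  rfl

theorem gm_id : gm 1 0 0 1 = 1 := by
  apply Units.ext
  rw [val_gm (by norm_num), Units.val_one, one_fin_two]

theorem emb_eq (γ : SL(2, ℤ)) : emb γ = gm (γ 0 0 : ℤ) (γ 0 1 : ℤ) (γ 1 0 : ℤ) (γ 1 1 : ℤ) := by
  have h : (γ 0 0 : ℚ) * (γ 1 1 : ℤ) - (γ 0 1 : ℤ) * (γ 1 0 : ℤ) = 1 := by
    exact_mod_cast (det_fin_two (γ : Matrix (Fin 2) (Fin 2) ℤ)).symm.trans
      (Matrix.SpecialLinearGroup.det_coe γ)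
  apply Units.ext
  rw [val_gm (by rw [h]; norm_num)]
  ext i j
  fin_cases i <;> fin_cases j <;> simp

/-- translation -/
def U (x : ℚ) : GQ := gm 1 x 0 1

/-- lower unipotent -/
def Lo (z : ℚ) : GQ := gm 1 0 z 1

/-- homothety -/
def Dg (t : ℚ) : GQ := gm t 0 0 1

theorem U_add (x y : ℚ) : U x * U y = U (x + y) := by
  rw [U, U, gm_mul (by norm_num) (by norm_num), U]
  exact gm_ext (by ring) (by ring) (by ring) (by ring)

theorem U_zero : U 0 = 1 := gm_id

theorem U_neg (x : ℚ) : U (-x) = (U x)⁻¹ :=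
  eq_inv_of_mul_eq_one_left (by rw [U_add, neg_add_cancel, U_zero])

theorem Dg_mul {s t : ℚ} (hs : s ≠ 0) (ht : t ≠ 0) : Dg s * Dg t = Dg (s * t) := by
  rw [Dg, Dg, gm_mul (by simpa using hs) (by simpa using ht), Dg]
  exact gm_ext (by ring) (by ring) (by ring) (by ring)

theorem Dg_one : Dg 1 = 1 := gm_id

theorem Dg_inv {t : ℚ} (ht : t ≠ 0) : Dg t⁻¹ = (Dg t)⁻¹ :=
  eq_inv_of_mul_eq_one_left (by rw [Dg_mul (inv_ne_zero ht) ht, inv_mul_cancel₀ ht, Dg_one])

theorem Dg_pow {t : ℚ} (ht : t ≠ 0) (n : ℕ) : Dg t ^ n = Dg (t ^ n) := by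
  induction n with
  | zero => rw [pow_zero, pow_zero, Dg_one]
  | succ n ih => rw [pow_succ, ih, Dg_mul (pow_ne_zero n ht) ht, pow_succ]

theorem Dg_U {t : ℚ} (ht : t ≠ 0) (x : ℚ) : Dg t * U x = U (t * x) * Dg t := by
  rw [Dg, U, U, gm_mul (by simpa using ht) (by norm_num), gm_mul (by norm_num) (by simpa using ht)]
  exact gm_ext (by ring) (by ring) (by ring) (by ring)

theorem conj_Dg_U {t : ℚ} (ht : t ≠ 0) (x : ℚ) : Dg t * U x * (Dg t)⁻¹ = U (t * x) := by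
  rw [Dg_U ht, mul_inv_cancel_right]

theorem U_smul_infty (x : ℚ) : U x • (∞ : Cu) = ∞ := by
  rw [smul_infty_eq_self_iff, U, val_gm (by norm_num)]
  simp

theorem Dg_smul_infty (t : ℚ) : Dg t • (∞ : Cu) = ∞ := by
  by_cases h : t = 0
  · have : Dg t = 1 := by rw [Dg, gm, dif_neg (by simp [h])]
    rw [this, one_smul]
  · rw [smul_infty_eq_self_iff, Dg, val_gm (by simpa using h)]
    simp

theorem Lo_smul_zero (z : ℚ) : Lo z • ((0 : ℚ) : Cu) = ((0 : ℚ) : Cu) := by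
  rw [smul_some_eq_ite, Lo, val_gm (by norm_num)]
  simp

theorem scalar_smul {c : ℚ} (hc : c ≠ 0) (x : Cu) : gm c 0 0 c • x = x := by
  have h : c * c - 0 * 0 ≠ 0 := by simpa using mul_ne_zero hc hc
  induction x using OnePoint.rec with
  | infty => rw [smul_infty_eq_self_iff, val_gm h]; simp
  | coe x => rw [smul_some_eq_ite, val_gm h]; simp [hc]

theorem scalar_mul {c a b e d : ℚ} (hc : c ≠ 0) (h : a * d - b * e ≠ 0) :
    gm c 0 0 c * gm a b e d = gm (c * a) (c * b) (c * e) (c * d) := by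
  rw [gm_mul (by simpa using mul_ne_zero hc hc) h]
  exact gm_ext (by ring) (by ring) (by ring) (by ring)

/-- two matrices that differ by a scalar act alike -/
theorem smul_eq_of_scalar {a b e d c : ℚ} (hc : c ≠ 0) (h : a * d - b * e ≠ 0) (x : Cu) :
    gm (c * a) (c * b) (c * e) (c * d) • x = gm a b e d • x := by
  rw [← scalar_mul hc h, mul_smul, scalar_smul hc]

theorem emb_neg_one_smul (x : Cu) : emb (-1) • x = x := by
  rw [emb_eq]
  simpa using scalar_smul (c := -1) (by norm_num) x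

variable {V : Type} [AddCommGroup V]

/-- modular symbols -/
structure IsSym (Φ : Cu → Cu → V) : Prop where
  add : ∀ x y z, Φ x y + Φ y z = Φ x z

namespace IsSym

variable {Φ : Cu → Cu → V} (h : IsSym Φ)
include h

theorem self (x : Cu) : Φ x x = 0 := by simpa using h.add x x x

theorem eq_sub (x y : Cu) : Φ x y = Φ ∞ y - Φ ∞ x := eq_sub_of_add_eq' (h.add ∞ x y)

theorem symm (x y : Cu) : Φ y x = -Φ x y := by rw [h.eq_sub y x, h.eq_sub x y, neg_sub]

end IsSym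

/-- the stabiliser of a symbol -/
def stab (Φ : Cu → Cu → V) : Subgroup GQ where
  carrier := {g | ∀ x y, Φ (g • x) (g • y) = Φ x y}
  one_mem' := fun x y => by simp
  mul_mem' := fun {g h} hg hh x y => by rw [mul_smul, mul_smul, hg, hh]
  inv_mem' := fun {g} hg x y => by
    conv_rhs => rw [← smul_inv_smul g x, ← smul_inv_smul g y, hg]

theorem mem_stab {Φ : Cu → Cu → V} {g : GQ} :
    g ∈ stab Φ ↔ ∀ x y, Φ (g • x) (g • y) = Φ x y := Iff.rfl

/-- elements acting trivially on the cusps stabilise everything -/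
theorem mem_stab_of_trivial (Φ : Cu → Cu → V) {g : GQ} (hg : ∀ x : Cu, g • x = x) : g ∈ stab Φ :=
  fun x y => by rw [hg, hg]

/-- the period -/
def cS (Φ : Cu → Cu → V) (g : GQ) : V := Φ ∞ (g • ∞)

theorem cS_mul {Φ : Cu → Cu → V} (h : IsSym Φ) {g g' : GQ} (hg : g ∈ stab Φ) :
    cS Φ (g * g') = cS Φ g + cS Φ g' := by
  unfold cS
  rw [← h.add ∞ (g • ∞) ((g * g') • ∞), mul_smul, hg]

theorem cS_one {Φ : Cu → Cu → V} (h : IsSym Φ) : cS Φ 1 = 0 := by
  rw [cS, one_smul, h.self]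

theorem cS_inv {Φ : Cu → Cu → V} (h : IsSym Φ) {g : GQ} (hg : g ∈ stab Φ) :
    cS Φ g⁻¹ = -cS Φ g := by
  have := cS_mul h (g' := g⁻¹) hg
  rw [mul_inv_cancel, cS_one h] at this
  exact eq_neg_of_add_eq_zero_right this.symm

theorem cS_of_fix {Φ : Cu → Cu → V} (h : IsSym Φ) {g : GQ} (hg : g ∈ stab Φ) {x : Cu}
    (hx : g • x = x) : cS Φ g = 0 := by
  unfold cS
  have h1 := hg x ∞
  rw [hx] at h1
  rw [← h.add ∞ x (g • ∞), h1, h.add, h.self]

theorem cS_of_trivial {Φ : Cu → Cu → V} (h : IsSym Φ) {g : GQ} (hg : ∀ x : Cu, g • x = x) :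
    cS Φ g = 0 :=
  cS_of_fix h (mem_stab_of_trivial Φ hg) (hg ∞)

/-- boundary symbols of level `M` -/
structure Bd (M : ℕ) (Φ : Cu → Cu → V) : Prop where
  sym : IsSym Φ
  inv : ∀ γ ∈ Gamma M, ∀ x, Φ ∞ (emb γ • x) = Φ ∞ x

theorem Bd.of_cS {M : ℕ} {Φ : Cu → Cu → V} (h : IsSym Φ)
    (hs : ∀ γ ∈ Gamma M, emb γ ∈ stab Φ) (hc : ∀ γ ∈ Gamma M, cS Φ (emb γ) = 0) : Bd M Φ := by
  refine ⟨h, fun γ hγ x => ?_⟩
  have h1 : Φ ∞ (emb γ • ∞) = 0 := hc γ hγ
  rw [← h.add ∞ (emb γ • ∞) (emb γ • x), hs γ hγ, h1, zero_add]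

theorem gamma_mono {M M' : ℕ} (h : M ∣ M') {γ : SL(2, ℤ)} (hγ : γ ∈ Gamma M') : γ ∈ Gamma M := by
  rw [Gamma_mem] at hγ ⊢
  obtain ⟨h1, h2, h3, h4⟩ := hγ
  have hc := fun (a : ℤ) (b : ℤ) (e : ((a : ℤ) : ZMod M') = (b : ℤ)) =>
    (ZMod.intCast_eq_intCast_iff_dvd_sub a b M).2
      ((Int.natCast_dvd_natCast.2 h).trans ((ZMod.intCast_eq_intCast_iff_dvd_sub a b M').1 e))
  exact ⟨by simpa using hc _ 1 (by simpa using h1), by simpa using hc _ 0 (by simpa using h2),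
    by simpa using hc _ 0 (by simpa using h3), by simpa using hc _ 1 (by simpa using h4)⟩

theorem Bd.mono {M M' : ℕ} {Φ : Cu → Cu → V} (hM : M ∣ M') (h : Bd M Φ) : Bd M' Φ :=
  ⟨h.sym, fun γ hγ => h.inv γ (gamma_mono hM hγ)⟩

theorem Bd.sum {ι : Type} (S : Finset ι) {M : ℕ} {Φ : ι → Cu → Cu → V}
    (h : ∀ i ∈ S, Bd M (Φ i)) : Bd M (∑ i ∈ S, Φ i) := by
  refine ⟨⟨fun x y z => ?_⟩, fun γ hγ x => ?_⟩
  · simp only [Finset.sum_apply, ← Finset.sum_add_distrib]
    exact Finset.sum_congr rfl fun i hi => (h i hi).sym.add x y z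
  · simp only [Finset.sum_apply]
    exact Finset.sum_congr rfl fun i hi => (h i hi).inv γ hγ x

end FLTAgent.LR
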