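import Fermat.Agent.Attach.EigenCharacter
import Fermat.Agent.Attach.HeckeAction
import Fermat.Agent.SS.Lower

/-!
Eigenforms from characters of the full Hecke algebra, including the coefficients at the level, and
the action of `U` on the lattice.
-/

set_option autoImplicit false
set_option linter.unusedSectionVars false

noncomputable section

open ModularFormClass
open FLTAgent.Attach (HeckeLattice TFull S2)

namespace FLTAgent.LR

/-- a character of the full Hecke algebra comes from a normalised eigenform -/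
theorem exists_eigenform_full {N : ℕ} [NeZero N] (χ : TFull N →+* ℂ) :
    ∃ g : S2 N, g.IsNormalizedEigenform ∧ (∀ (ℓ : ℕ) (hℓ : ℓ.Prime) (hℓN : ¬ ℓ ∣ N),
      qCoeff g ℓ = χ (CuspForm.heckeAlgebra.T hℓ hℓN (Set.notMem_empty _))) ∧
      ∀ (l : ℕ) (hl : l.Prime) (hlN : l ∣ N),
        qCoeff g l = χ (CuspForm.heckeAlgebra.U hl hlN (Set.notMem_empty _)) := by
  obtain ⟨v, hv0, hv, -⟩ := Attach.exists_eigenline χ
  set c : ℕ → ℂ := Alg.coeffSeq N v with hcdef
  have hT : ∀ (ℓ : ℕ) (hℓ : ℓ.Prime) (hℓN : ¬ ℓ ∣ N) (n : ℕ),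
      c (n * ℓ) + (if ℓ ∣ n then (ℓ : ℂ) * c (n / ℓ) else 0) =
        χ (CuspForm.heckeAlgebra.T hℓ hℓN (Set.notMem_empty _)) * c n := by
    intro ℓ hℓ hℓN n
    rw [hcdef, ← Alg.coeff_heckeT hℓ hℓN]
    have := congrArg (fun w => Alg.coeffSeq N w n)
      (hv (CuspForm.heckeAlgebra.T hℓ hℓN (Set.notMem_empty _)))
    simp only [map_smul, Pi.smul_apply, smul_eq_mul] at this
    exact this
  have hU : ∀ (q : ℕ) (hq : q.Prime) (hqN : q ∣ N) (n : ℕ),
      c (n * q) = χ (CuspForm.heckeAlgebra.U hq hqN (Set.notMem_empty _)) * c n := by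
    intro q hq hqN n
    rw [hcdef, ← Alg.coeff_heckeU hq hqN]
    have := congrArg (fun w => Alg.coeffSeq N w n)
      (hv (CuspForm.heckeAlgebra.U hq hqN (Set.notMem_empty _)))
    simp only [map_smul, Pi.smul_apply, smul_eq_mul] at this
    exact this
  obtain ⟨L, e, hrel, he0⟩ : ∃ L e : ℕ → ℂ, (∀ ℓ, ℓ.Prime → ∀ n,
      c (n * ℓ) + (if ℓ ∣ n then e ℓ * c (n / ℓ) else 0) = L ℓ * c n) ∧
      (∀ ℓ, e ℓ = if ℓ ∣ N then 0 else (ℓ : ℂ)) := by
    refine ⟨fun ℓ => if hℓ : ℓ.Prime then (if hℓN : ℓ ∣ N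
        then χ (CuspForm.heckeAlgebra.U hℓ hℓN (Set.notMem_empty _))
        else χ (CuspForm.heckeAlgebra.T hℓ hℓN (Set.notMem_empty _))) else 0,
      fun ℓ => if ℓ ∣ N then 0 else (ℓ : ℂ), ?_, fun _ => rfl⟩
    intro ℓ hℓ n
    by_cases hℓN : ℓ ∣ N
    · simp only [hℓ, hℓN, dite_true, if_true, zero_mul, ite_self, add_zero]
      exact hU ℓ hℓ hℓN n
    · simp only [hℓ, hℓN, dite_true, dite_false, if_false]
      exact hT ℓ hℓ hℓN n
  have hc1 : c 1 ≠ 0 := fun h1 => hv0 (Attach.eq_zero_of_coeff_one χ hv h1)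
  set d : ℕ → ℂ := fun n => (c 1)⁻¹ * c n with hddef
  have hd1 : d 1 = 1 := inv_mul_cancel₀ hc1
  have hdrel : ∀ ℓ, ℓ.Prime → ∀ n,
      d (n * ℓ) + (if ℓ ∣ n then e ℓ * d (n / ℓ) else 0) = L ℓ * d n := by
    intro ℓ hℓ n
    have := hrel ℓ hℓ n
    simp only [hddef]
    split_ifs at this ⊢ <;> linear_combination (c 1)⁻¹ * this
  have hdp : ∀ ℓ, ℓ.Prime → d ℓ = L ℓ := by
    intro ℓ hℓ
    have := hdrel ℓ hℓ 1
    rwa [one_mul, if_neg (fun hd => hℓ.ne_one (Nat.dvd_one.1 hd)), add_zero, hd1, mul_one] at this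
  have hmul : ∀ m n : ℕ, m.Coprime n → d (m * n) = d m * d n := by
    intro m
    induction m using Nat.strong_induction_on with
    | _ m ih =>
      intro n hco
      rcases lt_or_ge m 2 with hm | hm
      · interval_cases m
        · rw [Nat.coprime_zero_left] at hco
          subst hco
          rw [mul_one, hd1, mul_one]
        · rw [one_mul, hd1, one_mul]
      · obtain ⟨ℓ, hℓ, m', rfl⟩ : ∃ ℓ, ℓ.Prime ∧ ∃ m', m = m' * ℓ := by
          obtain ⟨ℓ, hℓ, hd⟩ := Nat.exists_prime_and_dvd (show m ≠ 1 by omega)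
          exact ⟨ℓ, hℓ, m / ℓ, (Nat.div_mul_cancel hd).symm⟩
        have hm' : m' ≠ 0 := by rintro rfl; simp at hm
        have hlt : m' < m' * ℓ := lt_mul_of_one_lt_right (Nat.pos_of_ne_zero hm') hℓ.one_lt
        have hco' : m'.Coprime n := hco.coprime_dvd_left (dvd_mul_right _ _)
        have hℓn : ℓ.Coprime n := hco.coprime_dvd_left (dvd_mul_left _ _)
        have hr1 := hdrel ℓ hℓ (m' * n)
        have hr2 := hdrel ℓ hℓ m'
        rw [show m' * n * ℓ = m' * ℓ * n by ring, ih m' hlt n hco'] at hr1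
        by_cases hd : ℓ ∣ m'
        · rw [if_pos (dvd_mul_of_dvd_left hd n),
            show m' * n / ℓ = m' / ℓ * n from Nat.mul_div_right_comm hd n,
            ih (m' / ℓ) (lt_of_le_of_lt (Nat.div_le_self _ _) hlt) n
              (hco'.coprime_dvd_left (Nat.div_dvd_of_dvd hd))] at hr1
          rw [if_pos hd] at hr2
          linear_combination hr1 - (d n) * hr2
        · rw [if_neg (fun hx => (hℓ.dvd_mul.1 hx).elim hd
            (fun hh => hℓ.ne_one (Nat.eq_one_of_dvd_coprimes hℓn dvd_rfl hh)))] at hr1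
          rw [if_neg hd] at hr2
          linear_combination hr1 - (d n) * hr2
  have hpow : ∀ ℓ r, ℓ.Prime →
      d (ℓ ^ (r + 2)) = d ℓ * d (ℓ ^ (r + 1)) - e ℓ * d (ℓ ^ r) := by
    intro ℓ r hℓ
    have hr := hdrel ℓ hℓ (ℓ ^ (r + 1))
    rw [← pow_succ, if_pos (dvd_pow_self ℓ (Nat.succ_ne_zero r)), ← hdp ℓ hℓ,
      show ℓ ^ (r + 1) / ℓ = ℓ ^ r by rw [pow_succ, Nat.mul_div_cancel _ hℓ.pos]] at hr
    linear_combination hr
  have hco : ∀ n, qCoeff (⇑((c 1)⁻¹ • v)) n = d n := fun n => Alg.qCoeff_form_smul _ v n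
  refine ⟨(c 1)⁻¹ • v, ⟨?_, ?_, ?_, ?_⟩, ?_, ?_⟩
  · rw [hco, hd1]
  · intro m n hmn
    rw [hco, hco, hco, hmul m n hmn]
  · intro p r hp hpN
    rw [hco, hco, hco, hco, hpow p r hp, he0, if_neg hpN]
  · intro p r hp hpN
    rw [hco, hco, hco, hpow p r hp, he0, if_pos hpN, zero_mul, sub_zero]
  · intro ℓ hℓ hℓN
    rw [hco]
    have hr := hT ℓ hℓ hℓN 1
    rw [one_mul, if_neg (fun hd => hℓ.ne_one (Nat.dvd_one.1 hd)), add_zero] at hr
    simp only [hddef]
    rw [hr, mul_left_comm, inv_mul_cancel₀ hc1, mul_one]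
  · intro l hl hlN
    rw [hco]
    have hr := hU l hl hlN 1
    rw [one_mul] at hr
    simp only [hddef]
    rw [hr, mul_left_comm, inv_mul_cancel₀ hc1, mul_one]

theorem act_U {N : ℕ} [NeZero N] (D : HeckeLattice N) {l : ℕ} (hl : l.Prime) (hlN : l ∣ N) :
    D.act (CuspForm.heckeAlgebra.U hl hlN (Set.notMem_empty _)) = D.T ⟨l, hl⟩ := by
  refine Eq.trans ?_ (D.act_gen (⟨l, hl⟩ : Nat.Primes))
  rw [CuspForm.heckeFormsGen_of_dvd (q := (⟨l, hl⟩ : Nat.Primes)) hlN]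

end FLTAgent.LR
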