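import Fermat.Agent.LR.Span
import Fermat.Agent.Periods.Injective

/-!
The two pullbacks of parabolic homomorphisms meet only in what the auxiliary operators kill; and
`T_s - (s + 1)` makes homomorphisms parabolic.
-/

set_option autoImplicit false
set_option linter.unusedSectionVars false
set_option linter.style.haveILetI false
set_option linter.unusedVariables false
set_option linter.unusedSimpArgs false

noncomputable section

open Matrix OnePoint CongruenceSubgroup ModularCurve.Period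
open scoped MatrixGroups

namespace FLTAgent.LR

variable {N q : ℕ} {V : Type} [AddCommGroup V]

theorem emb_T_zpow (n : ℤ) : emb (ModularGroup.T ^ n) = U (n : ℚ) := by
  rw [emb_eq, U]
  refine gm_ext ?_ ?_ ?_ ?_ <;> simp [ModularGroup.coe_T_zpow]

theorem trace_conj_SL (g h : SL(2, ℤ)) :
    ((g * h * g⁻¹ : SL(2, ℤ)) : Matrix (Fin 2) (Fin 2) ℤ).trace = (h : Matrix (Fin 2) (Fin 2) ℤ).trace := by
  rw [Matrix.SpecialLinearGroup.coe_mul, Matrix.SpecialLinearGroup.coe_mul, Matrix.trace_mul_cycle,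
    ← Matrix.SpecialLinearGroup.coe_mul, inv_mul_cancel, Matrix.SpecialLinearGroup.coe_one, one_mul]

/-- elements fixing a cusp are parabolic -/
theorem trace_sq_of_fix {γ : SL(2, ℤ)} {x : Cu} (h : emb γ • x = x) :
    (γ : Matrix (Fin 2) (Fin 2) ℤ).trace ^ 2 = 4 := by
  obtain ⟨g, rfl⟩ := cusp_eq_emb x
  set k := g⁻¹ * γ * g with hk
  have hfix : emb k • (∞ : Cu) = ∞ := by
    rw [hk, map_mul, map_mul, map_inv, mul_smul, mul_smul, h, inv_smul_smul]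
  rw [smul_infty_eq_self_iff, emb_eq, val_gm (by rw [det_SL_cast]; norm_num)] at hfix
  have hc : k 1 0 = 0 := by simpa using hfix
  have hd := det_SL k
  rw [hc, mul_zero, sub_zero] at hd
  have e : γ = g * k * g⁻¹ := by rw [hk]; group
  rw [e, trace_conj_SL, Matrix.trace_fin_two]
  rcases Int.eq_one_or_neg_one_of_mul_eq_one' hd with ⟨h1, h2⟩ | ⟨h1, h2⟩ <;> rw [h1, h2] <;> norm_num

/-- a symbol with given periods -/
structure IsPer (Φ : Cu → Cu → V) (φ : HomG N V) : Prop where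
  sym : IsSym Φ
  inv : ∀ γ : Gamma0 N, embG γ ∈ stab Φ
  per : ∀ γ : Gamma0 N, φ (Additive.ofMul γ) = cS Φ (embG γ)

theorem IsPer.TS {Φ : Cu → Cu → V} {φ : HomG N V} (h : IsPer Φ φ) {ℓ : ℕ} [NeZero ℓ] (hℓ : ℓ.Prime)
    (hℓN : ¬ ℓ ∣ N) : IsPer (TS ℓ Φ) (TH N ℓ hℓ hℓN φ) := by
  refine ⟨h.sym.TS ℓ, fun γ => ?_, fun γ => ?_⟩
  · exact (TC N N ℓ hℓ dvd_rfl hℓN).symOp_stab h.inv γ
  · exact ((TC N N ℓ hℓ dvd_rfl hℓN).cS_symOp h.sym h.inv φ h.per γ).symm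

theorem IsPer.sub_nsmul {Φ Ψ : Cu → Cu → V} {φ ψ : HomG N V} (h : IsPer Φ φ) (h' : IsPer Ψ ψ) (n : ℕ) :
    IsPer (Φ - n • Ψ) (φ - n • ψ) := by
  refine ⟨⟨fun x y z => ?_⟩, fun γ x y => ?_, fun γ => ?_⟩
  · simp only [Pi.sub_apply, Pi.smul_apply, ← h.sym.add x y z, ← h'.sym.add x y z, nsmul_add]
    abel
  · simp only [Pi.sub_apply, Pi.smul_apply, h.inv γ x y, h'.inv γ x y]
  · simp only [AddMonoidHom.sub_apply, AddMonoidHom.smul_apply, h.per, h'.per, cS, Pi.sub_apply,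
      Pi.smul_apply]

theorem IsPer.e1 {Φ : Cu → Cu → V} {φ : HomG N V} (h : IsPer Φ φ) {s : ℕ} [NeZero s] (hs : s.Prime)
    (hsN : ¬ s ∣ N) : IsPer (e1 s Φ) (e1H N s hs hsN φ) :=
  (h.TS hs hsN).sub_nsmul h _

theorem IsPer.e2 {Φ : Cu → Cu → V} {φ : HomG N V} (h : IsPer Φ φ) {r : ℕ} [NeZero r] (hr : r.Prime)
    (hrN : ¬ r ∣ N) : IsPer (e2 r Φ) (e2H N r hr hrN φ) :=
  ((h.TS hr hrN).TS hr hrN).sub_nsmul h _

theorem exists_per (φ : HomG N V) (hφ : IsParabolicHom (Gamma0 N) φ) :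
    ∃ Φ : Cu → Cu → V, IsPer Φ φ := by
  let S : Setoid Cu := Setoid.mk (fun x y => ∃ γ : Gamma0 N, embG γ • x = y)
    ⟨fun x => ⟨1, by rw [map_one, one_smul]⟩,
      fun {x y} ⟨γ, h⟩ => ⟨γ⁻¹, by rw [map_inv, inv_smul_eq_iff, h]⟩,
      fun {x y z} ⟨γ, h⟩ ⟨γ', h'⟩ => ⟨γ' * γ, by rw [map_mul, mul_smul, h, h']⟩⟩
  have hrep : ∀ x, ∃ γ : Gamma0 N, embG γ • Quotient.out (Quotient.mk S x) = x := fun x =>
    Quotient.mk_out (s := S) x
  choose g hg using hrep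
  let f : Cu → V := fun x => φ (Additive.ofMul (g x))
  have hf : ∀ (γ : Gamma0 N) x, f (embG γ • x) = φ (Additive.ofMul γ) + f x := by
    intro γ x
    set r := Quotient.out (Quotient.mk S x)
    have e : Quotient.mk S (embG γ • x) = Quotient.mk S x :=
      (Quotient.sound (s := S) ⟨γ, rfl⟩).symm
    have h1 := hg (embG γ • x)
    rw [e] at h1
    have hfix : embG ((g (embG γ • x))⁻¹ * (γ * g x)) • r = r := by
      rw [map_mul, map_inv, map_mul, mul_smul, mul_smul, hg x, inv_smul_eq_iff, h1]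
    rw [embG_apply] at hfix
    have h0 := hφ _ (trace_sq_of_fix hfix)
    rw [ofMul_mul, ofMul_mul, ofMul_inv, map_add, map_add, map_neg, neg_add_eq_zero] at h0
    exact h0
  refine ⟨fun x y => f y - f x, ⟨fun x y z => by abel⟩, fun γ x y => ?_, fun γ => ?_⟩
  · show f _ - f _ = f _ - f _
    rw [hf, hf]; abel
  · show _ = f _ - f _
    rw [hf]; abel

theorem TS_pullS_Dg {ℓ : ℕ} [NeZero ℓ] (hℓ : ℓ.Prime) [NeZero q] (hℓq : ¬ ℓ ∣ q) {Φ : Cu → Cu → V}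
    (hU : U 1 ∈ stab Φ) : TS ℓ (pullS (Dg q) Φ) = pullS (Dg q) (TS ℓ Φ) := by
  haveI : Fact ℓ.Prime := ⟨hℓ⟩
  have hqQ : (q : ℚ) ≠ 0 := Nat.cast_ne_zero.mpr (NeZero.ne q)
  have hℓQ : (ℓ : ℚ) ≠ 0 := Nat.cast_ne_zero.mpr hℓ.ne_zero
  funext x y
  show TS ℓ (pullS (Dg q) Φ) x y = TS ℓ Φ (Dg (q : ℚ) • x) (Dg (q : ℚ) • y)
  rw [TS_apply, TS_apply]
  refine Fintype.sum_equiv (mulPerm hℓ hℓq) _ _ fun k => ?_
  obtain ⟨m, hm⟩ : ∃ m : ℤ, Dg (q : ℚ) * tRep ℓ k =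
      U (m : ℚ) * (tRep ℓ (mulPerm hℓ hℓq k) * Dg (q : ℚ)) := by
    induction k using OnePoint.rec with
    | infty =>
      refine ⟨0, ?_⟩
      show Dg (q : ℚ) * tRep ℓ ∞ = _ * (tRep ℓ ∞ * _)
      rw [Int.cast_zero, U_zero, one_mul, tRep_infty, Dg_mul hqQ hℓQ, Dg_mul hℓQ hqQ, mul_comm]
    | coe b =>
      set b' : ZMod ℓ := (q : ZMod ℓ) * b with hb'
      obtain ⟨m, hm⟩ : (ℓ : ℤ) ∣ (q : ℤ) * b.val - b'.val := by
        rw [← ZMod.intCast_zmod_eq_zero_iff_dvd]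
        push_cast
        rw [ZMod.natCast_zmod_val, ZMod.natCast_zmod_val, hb', sub_self]
      refine ⟨m, ?_⟩
      show Dg (q : ℚ) * tRep ℓ (b : OnePoint (ZMod ℓ)) =
        U (m : ℚ) * (tRep ℓ (b' : OnePoint (ZMod ℓ)) * Dg (q : ℚ))
      rw [tRep_coe, tRep_coe, Dg, U, gm_mul (by simpa using hqQ) (by simpa using hℓQ),
        gm_mul (by simpa using hℓQ) (by simpa using hqQ), gm_mul (by norm_num) (by simp [hℓQ, hqQ])]
      have hm' := congrArg (Int.cast : ℤ → ℚ) hm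
      push_cast at hm'
      exact gm_ext (by ring) (by linear_combination hm') (by ring) (by ring)
  show Φ (Dg (q : ℚ) • tRep ℓ k • x) (Dg (q : ℚ) • tRep ℓ k • y) = Φ _ _
  rw [← mul_smul, ← mul_smul, hm]
  simp only [mul_smul]
  exact U_mem_stab_of_one hU m _ _

/-- common kernel of the two pullbacks -/
theorem ihara [NeZero N] [NeZero q] (hq : q.Prime) (hqN : ¬ q ∣ N) {r : ℕ} [NeZero r] (hr : r.Prime)
    (hrq : ¬ r ∣ q) (hrN : ¬ r ∣ N) (hr1 : ¬ (r : ℤ) ∣ (q : ℤ) ^ 2 - 1) :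
    ∃ M : ℕ, 0 < M ∧ ∀ (s : ℕ) [NeZero s] (hs : s.Prime) (hsN : ¬ s ∣ N) (hsq : ¬ s ∣ q),
      (M : ℤ) ∣ (s : ℤ) - 1 → ∀ y₁ y₂ : HomG N V, IsParabolicHom (Gamma0 N) y₁ →
        IsParabolicHom (Gamma0 N) y₂ → al1 N q y₁ + al2 N q y₂ = 0 →
          e1H N s hs hsN (e2H N r hr hrN (e1H N s hs hsN y₁)) = 0 := by
  obtain ⟨M₀, hM₀, hcore⟩ := core (V := V) (NeZero.pos N) (NeZero.ne q) hr hrq hrN hr1
  refine ⟨N * q * M₀, Nat.mul_pos (Nat.mul_pos (NeZero.pos N) (NeZero.pos q)) hM₀,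
    fun s _ hs hsN hsq hs1 y₁ y₂ hy₁ hy₂ h0 => ?_⟩
  obtain ⟨Φ₁, h₁⟩ := exists_per y₁ hy₁
  obtain ⟨Φ₂, h₂⟩ := exists_per y₂ hy₂
  have hU : ∀ {Φ : Cu → Cu → V} {φ : HomG N V}, IsPer Φ φ → U 1 ∈ stab Φ := fun {Φ φ} h => by
    have := h.inv ⟨ModularGroup.T ^ (1 : ℤ), mem_Gamma0_iff.mpr (by simp [ModularGroup.coe_T_zpow])⟩
    rwa [embG_apply, emb_T_zpow, Int.cast_one] at this
  set Φ := Φ₁ + pullS (Dg (q : ℚ)) Φ₂
  have hsym : IsSym Φ := ⟨fun x y z => by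
    simp only [Φ, Pi.add_apply, pullS, ← h₁.sym.add x y z,
      ← h₂.sym.add (Dg (q : ℚ) • x) (Dg (q : ℚ) • y) (Dg (q : ℚ) • z)]
    abel⟩
  have hsum : ∀ (C : Corr N (N * q) Unit) (Ψ : Cu → Cu → V), C.symOp Ψ = pullS (C.rep ()) Ψ :=
    fun C Ψ => Fintype.sum_unique _
  have hres : (resC (dvd_mul_right N q)).symOp Φ₁ = Φ₁ := by
    rw [hsum]; exact pullS_of_mem (Subgroup.one_mem _)
  have heta : (etaC N q).symOp Φ₂ = pullS (Dg (q : ℚ)) Φ₂ := hsum _ _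
  have hbd : Bd (N * q) Φ := by
    refine Bd.of_cS hsym (fun γ hγ x y => ?_) (fun γ hγ => ?_)
    · have a1 := (resC (dvd_mul_right N q)).symOp_stab h₁.inv ⟨γ, Gamma_le_Gamma0 hγ⟩ x y
      have a2 := (etaC N q).symOp_stab h₂.inv ⟨γ, Gamma_le_Gamma0 hγ⟩ x y
      rw [hres] at a1
      rw [heta] at a2
      simp only [embG_apply] at a1 a2
      simp only [Φ, Pi.add_apply, a1, a2]
    · have a1 := (resC (dvd_mul_right N q)).cS_symOp h₁.sym h₁.inv y₁ h₁.per ⟨γ, Gamma_le_Gamma0 hγ⟩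
      have a2 := (etaC N q).cS_symOp h₂.sym h₂.inv y₂ h₂.per ⟨γ, Gamma_le_Gamma0 hγ⟩
      rw [hres] at a1
      rw [heta] at a2
      simp only [embG_apply, cS] at a1 a2
      simp only [cS, Φ, Pi.add_apply, a1, a2]
      exact DFunLike.congr_fun h0 _
  have hUΦ : U 1 ∈ stab Φ := fun x y => by
    have hqQ : (q : ℚ) ≠ 0 := Nat.cast_ne_zero.mpr (NeZero.ne q)
    have h1 := hU h₁ x y
    have h2 := U_mem_stab_of_one (hU h₂) (q : ℤ) (Dg (q : ℚ) • x) (Dg (q : ℚ) • y)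
    simp only [Φ, Pi.add_apply, pullS, h1, ← mul_smul, Dg_U hqQ, mul_one]
    simp only [mul_smul]
    rw [show ((q : ℕ) : ℚ) = ((q : ℤ) : ℚ) from (Int.cast_natCast q).symm] at h2 ⊢
    rw [h2]
  have hMs : ((N * q : ℕ) : ℤ) ∣ (s : ℤ) - 1 := (Int.natCast_dvd_natCast.mpr (dvd_mul_right _ _)).trans hs1
  have hz := e1_bd hs hMs hbd hUΦ
  have hsplit : e1 s Φ = e1 s Φ₁ + pullS (Dg (q : ℚ)) (e1 s Φ₂) := by
    have e := TS_pullS_Dg (q := q) hs hsq (hU h₂)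
    funext x y
    have e' := congrFun (congrFun e x) y
    simp only [e1, Φ, Pi.sub_apply, Pi.smul_apply, Pi.add_apply, TS_apply, Finset.sum_add_distrib,
      pullS, nsmul_add] at e' ⊢
    rw [e']
    abel
  have p₁ := h₁.e1 hs hsN
  have p₂ := h₂.e1 hs hsN
  obtain ⟨hI, -⟩ := inv_of_pair hq hqN p₁.sym p₂.sym (fun γ hγ => p₁.inv ⟨γ, hγ⟩)
    (fun γ hγ => p₂.inv ⟨γ, hγ⟩) (hsplit.symm.trans hz)
  have hkill := hcore _ hI s hs ((Int.natCast_dvd_natCast.mpr (dvd_mul_left _ _)).trans hs1)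
  refine AddMonoidHom.ext fun x => ?_
  obtain ⟨γ, rfl⟩ := Additive.ofMul.surjective x
  rw [((p₁.e2 hr hrN).e1 hs hsN).per, hkill]
  rfl

theorem hom_neg_one {M : ℕ} (ψ : HomG M ℤ) :
    ψ (Additive.ofMul (⟨-1, mem_Gamma0_iff.mpr (by simp)⟩ : Gamma0 M)) = 0 := by
  set m : Gamma0 M := ⟨-1, mem_Gamma0_iff.mpr (by simp)⟩
  have h : m * m = 1 := Subtype.ext (by simp [m])
  have h2 : ψ (Additive.ofMul m) + ψ (Additive.ofMul m) = 0 := by
    rw [← map_add, ← ofMul_mul, h, ofMul_one, map_zero]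
  omega

/-- `T_s - (s+1)` at `s ≡ 1` makes homomorphisms parabolic -/
theorem e1H_parabolic {M s : ℕ} [NeZero s] (hs : s.Prime) (hsM : ¬ s ∣ M) (hs1 : (M : ℤ) ∣ (s : ℤ) - 1)
    (φ : HomG M ℤ) : IsParabolicHom (Gamma0 M) (e1H M s hs hsM φ) := by
  haveI : Fact s.Prime := ⟨hs⟩
  obtain ⟨w, hw⟩ := hs1
  intro π hπ
  obtain ⟨g, m, hm⟩ := Periods.exists_conj_T_zpow hπ
  have hneg : (-1 : SL(2, ℤ)) ∈ Gamma0 M := mem_Gamma0_iff.mpr (by simp)
  obtain ⟨π₀, hπ₀, hππ⟩ : ∃ π₀ : Gamma0 M, (π₀ : SL(2, ℤ)) = g * ModularGroup.T ^ m * g⁻¹ ∧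
      ∀ ψ : HomG M ℤ, ψ (Additive.ofMul π) = ψ (Additive.ofMul π₀) := by
    rcases hm with hm | hm
    · exact ⟨π, hm, fun _ => rfl⟩
    · refine ⟨⟨-1, hneg⟩ * π, by simp [hm], fun ψ => ?_⟩
      rw [ofMul_mul, map_add, hom_neg_one ψ, zero_add]
  rw [hππ]
  set n : OnePoint (ZMod s) → ℤ := fun j => Option.elim j 0 (fun b => -(b.val : ℤ)) with hn
  -- representatives congruent to `1` modulo `M`, conjugated
  have hA : ∀ j : OnePoint (ZMod s), ∃ (t : OnePoint (ZMod s)) (a : Gamma0 M),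
      emb (g * ModularGroup.T ^ n j) * tRep s j * emb g⁻¹ = embG a * tRep s t := by
    intro j
    obtain ⟨A, B, D, hAD, hA1, hB, hD1, e⟩ : ∃ A B D : ℤ, A * D = s ∧ (M : ℤ) ∣ A - 1 ∧
        (M : ℤ) ∣ B ∧ (M : ℤ) ∣ D - 1 ∧ U (n j : ℚ) * tRep s j = gm (A : ℚ) B 0 D := by
      induction j using OnePoint.rec with
      | infty =>
        refine ⟨s, 0, 1, by ring, ⟨w, hw⟩, dvd_zero _, by simp, ?_⟩
        rw [show n ∞ = 0 from rfl, Int.cast_zero, U_zero, one_mul, tRep_infty, Dg]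
        push_cast
        rfl
      | coe b =>
        refine ⟨1, (b.val : ℤ) - (b.val : ℤ) * s, s, by ring, by simp,
          ⟨-(b.val : ℤ) * w, by linear_combination -(b.val : ℤ) * hw⟩, ⟨w, hw⟩, ?_⟩
        rw [show n (b : OnePoint (ZMod s)) = -(b.val : ℤ) from rfl, tRep_coe, U,
          gm_mul (by norm_num) (by simpa using hs.ne_zero)]
        push_cast
        exact gm_ext (by ring) (by ring) (by ring) (by ring)
    obtain ⟨a', ha'⟩ := hA1
    obtain ⟨b', hb'⟩ := hB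
    obtain ⟨d', hd'⟩ := hD1
    set G00 := g 0 0
    set G01 := g 0 1
    set G10 := g 1 0
    set G11 := g 1 1
    obtain ⟨t, a, et⟩ := exists_tRep (M := M) hs hsM
      (a := G00 * A * G11 - (G00 * B + G01 * D) * G10)
      (b := -(G00 * A * G01) + (G00 * B + G01 * D) * G00)
      (c := G10 * A * G11 - (G10 * B + G11 * D) * G10)
      (d := -(G10 * A * G01) + (G10 * B + G11 * D) * G00)
      (by linear_combination (G00 * G11 - G01 * G10) * (G00 * G11 - G01 * G10) * hAD +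
        (s : ℤ) * (G00 * G11 - G01 * G10 + 1) * det_SL g)
      ⟨G10 * G11 * (a' - d') - G10 * G10 * b', by
        linear_combination G10 * G11 * ha' - G10 * G11 * hd' - G10 * G10 * hb'⟩
    refine ⟨t, a, ?_⟩
    rw [← et, map_mul, emb_T_zpow, mul_assoc (emb g), e, emb_eq, emb_eq,
      gm_mul (by rw [det_SL_cast]; norm_num) ?_, gm_mul ?_ (by rw [det_SL_cast]; norm_num)]
    · simp only [Matrix.SpecialLinearGroup.coe_inv, Matrix.adjugate_fin_two]
      push_cast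
      refine gm_ext ?_ ?_ ?_ ?_ <;> simp [G00, G01, G10, G11] <;> ring
    · intro h0
      have hADQ : (A : ℚ) * D = (s : ℚ) := by exact_mod_cast hAD
      refine (Nat.cast_ne_zero.mpr hs.ne_zero : (s : ℚ) ≠ 0) ?_
      linear_combination h0 - ((A : ℚ) * D) * det_SL_cast g - hADQ
    · intro h0
      have hADQ : (A : ℚ) * D = (s : ℚ) := by exact_mod_cast hAD
      refine (Nat.cast_ne_zero.mpr hs.ne_zero : (s : ℚ) ≠ 0) ?_
      linear_combination h0 - hADQ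
  choose t a ha using hA
  have hinj : Function.Injective t := fun i j hij => by
    refine tRep_sep hs i j ((ModularGroup.T ^ n i)⁻¹ * g⁻¹ *
      ((a i * (a j)⁻¹ : Gamma0 M) : SL(2, ℤ)) * g * ModularGroup.T ^ n j) ?_
    have hi := ha i
    have hj := ha j
    rw [hij] at hi
    have e : tRep s (t j) = (embG (a j))⁻¹ * (emb (g * ModularGroup.T ^ n j) * tRep s j * emb g⁻¹) := by
      rw [hj, inv_mul_cancel_left]
    rw [e] at hi
    generalize hX : a i * (a j)⁻¹ = X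
    have hX' : embG X = embG (a i) * (embG (a j))⁻¹ := by rw [← hX, map_mul, map_inv]
    rw [← mul_assoc, ← hX'] at hi
    simp only [embG_apply, map_mul, map_inv] at hi ⊢
    calc tRep s i = (emb (ModularGroup.T ^ n i))⁻¹ * (emb g)⁻¹ *
          (emb g * emb (ModularGroup.T ^ n i) * tRep s i * (emb g)⁻¹) * emb g := by group
      _ = _ := by rw [hi]; group
  set τ := Equiv.ofBijective t (Finite.injective_iff_bijective.mp hinj)
  set P : OnePoint (ZMod s) → Gamma0 M := fun j => Option.elim j (π₀ ^ (s ^ 2)) (fun _ => π₀) with hP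
  have hπe : ∀ k : ℕ, embG (π₀ ^ k) = emb g * U ((m : ℚ) * k) * emb g⁻¹ := by
    intro k
    rw [embG_apply, Subgroup.coe_pow, hπ₀, conj_pow, map_mul, map_mul, ← zpow_natCast,
      ← _root_.zpow_mul, emb_T_zpow]
    push_cast
    rfl
  have hstep : ∀ j, tRep s j * U ((m : ℚ) * s) =
      U ((m : ℚ) * (Option.elim j ((s : ℚ) ^ 2) (fun _ => 1) : ℚ)) * tRep s j := by
    intro j
    have hsQ : (s : ℚ) ≠ 0 := Nat.cast_ne_zero.mpr hs.ne_zero
    induction j using OnePoint.rec with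
    | infty =>
      show tRep s ∞ * _ = U ((m : ℚ) * (s : ℚ) ^ 2) * tRep s ∞
      rw [tRep_infty, Dg_U hsQ]
      congr 2
      ring
    | coe b =>
      show tRep s (b : OnePoint (ZMod s)) * _ = U ((m : ℚ) * 1) * tRep s (b : OnePoint (ZMod s))
      rw [tRep_coe, U, U, gm_mul (by simpa using hsQ) (by norm_num),
        gm_mul (by norm_num) (by simpa using hsQ)]
      exact gm_ext (by ring) (by ring) (by ring) (by ring)
  have hrel : (TC M M s hs dvd_rfl hsM).Rel (π₀ ^ s) (Equiv.refl _)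
      (fun i => (a (τ.symm i))⁻¹ * P (τ.symm i) * a (τ.symm i)) := by
    intro i
    obtain ⟨j, rfl⟩ := τ.surjective i
    simp only [Equiv.symm_apply_apply, Equiv.refl_apply, map_mul, map_inv]
    show tRep s (t j) * embG (π₀ ^ s) = _ * tRep s (t j)
    have e : tRep s (t j) = (embG (a j))⁻¹ * (emb (g * ModularGroup.T ^ n j) * tRep s j * emb g⁻¹) := by
      rw [ha j, inv_mul_cancel_left]
    have hPj : embG (P j) = emb g * U ((m : ℚ) * (Option.elim j ((s : ℚ) ^ 2) (fun _ => 1) : ℚ)) *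
        emb g⁻¹ := by
      induction j using OnePoint.rec with
      | infty =>
        show embG (π₀ ^ (s ^ 2)) = _
        rw [hπe]; push_cast; rfl
      | coe b =>
        show embG π₀ = _
        have := hπe 1
        rw [pow_one, Nat.cast_one] at this
        exact this
    have hc : emb (ModularGroup.T ^ n j) * U ((m : ℚ) * (Option.elim j ((s : ℚ) ^ 2) (fun _ => 1) : ℚ)) =
        U ((m : ℚ) * (Option.elim j ((s : ℚ) ^ 2) (fun _ => 1) : ℚ)) * emb (ModularGroup.T ^ n j) := by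
      rw [emb_T_zpow, U_add, U_add, add_comm]
    rw [hπe, hPj, e, map_mul, map_inv]
    calc (embG (a j))⁻¹ * (emb g * emb (ModularGroup.T ^ n j) * tRep s j * (emb g)⁻¹) *
          (emb g * U ((m : ℚ) * s) * (emb g)⁻¹)
        = (embG (a j))⁻¹ * (emb g * emb (ModularGroup.T ^ n j) * (tRep s j * U ((m : ℚ) * s)) * (emb g)⁻¹) := by
          group
      _ = (embG (a j))⁻¹ * (emb g * (emb (ModularGroup.T ^ n j) *
            U ((m : ℚ) * (Option.elim j ((s : ℚ) ^ 2) (fun _ => 1) : ℚ))) * tRep s j * (emb g)⁻¹) := by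
          rw [hstep]; group
      _ = _ := by rw [hc]; group
  have hT := (TC M M s hs dvd_rfl hsM).op_apply hrel φ
  have hP' : ∀ i, φ (Additive.ofMul ((a (τ.symm i))⁻¹ * P (τ.symm i) * a (τ.symm i))) =
      φ (Additive.ofMul (P (τ.symm i))) := fun i => by
    rw [ofMul_mul, ofMul_mul, ofMul_inv, map_add, map_add, map_neg]; ring
  rw [Finset.sum_congr rfl fun i _ => hP' i,
    Equiv.sum_comp τ.symm (fun j => φ (Additive.ofMul (P j)))] at hT
  have hsum := Fintype.sum_option (α := ZMod s) (fun j : OnePoint (ZMod s) => φ (Additive.ofMul (P j)))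
  have e2 : φ (Additive.ofMul (π₀ ^ (s ^ 2))) = ((s : ℤ) ^ 2) * φ (Additive.ofMul π₀) := by
    rw [ofMul_pow, map_nsmul, nsmul_eq_mul]; push_cast; rfl
  have hsum' : ∑ j : OnePoint (ZMod s), φ (Additive.ofMul (P j)) =
      ((s : ℤ) ^ 2) * φ (Additive.ofMul π₀) + (s : ℤ) * φ (Additive.ofMul π₀) := by
    refine hsum.trans ?_
    show φ (Additive.ofMul (π₀ ^ (s ^ 2))) + ∑ _b : ZMod s, φ (Additive.ofMul π₀) = _
    rw [e2, Finset.sum_const, Finset.card_univ, ZMod.card, nsmul_eq_mul]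
  rw [hsum', ofMul_pow, map_nsmul, nsmul_eq_mul] at hT
  rw [e1H_apply, AddMonoidHom.sub_apply, AddMonoidHom.smul_apply, nsmul_eq_mul]
  show TH M s hs hsM φ _ - _ = 0
  have hs0 : (s : ℤ) ≠ 0 := Int.natCast_ne_zero.mpr hs.ne_zero
  refine (mul_eq_zero.mp ?_).resolve_left hs0
  show (s : ℤ) * ((TC M M s hs dvd_rfl hsM).op φ (Additive.ofMul π₀) - _) = 0
  push_cast at hT ⊢
  linear_combination hT

end FLTAgent.LR
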