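import Fermat.Agent.LR.Cusp

/-!
Symbols invariant under `Γ₀(N)` and a diagonal element are, up to boundary symbols, invariant under
translations by fractions with an auxiliary prime denominator.
-/

set_option autoImplicit false
set_option linter.unusedSectionVars false
set_option linter.style.haveILetI false

noncomputable section

open Matrix OnePoint CongruenceSubgroup
open scoped MatrixGroups

namespace FLTAgent.LR

theorem mem_Gamma0_iff {N : ℕ} {γ : SL(2, ℤ)} : γ ∈ Gamma0 N ↔ (N : ℤ) ∣ γ 1 0 :=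
  Gamma0_mem.trans (ZMod.intCast_zmod_eq_zero_iff_dvd _ _)

theorem mem_Gamma_iff {M : ℕ} {γ : SL(2, ℤ)} :
    γ ∈ Gamma M ↔ (M : ℤ) ∣ γ 0 0 - 1 ∧ (M : ℤ) ∣ γ 0 1 ∧ (M : ℤ) ∣ γ 1 0 ∧ (M : ℤ) ∣ γ 1 1 - 1 := by
  simp only [Gamma_mem, ← ZMod.intCast_zmod_eq_zero_iff_dvd, Int.cast_sub, Int.cast_one,
    sub_eq_zero]

theorem Gamma_le_Gamma0 {M : ℕ} {γ : SL(2, ℤ)} (h : γ ∈ Gamma M) : γ ∈ Gamma0 M :=
  Gamma0_mem.mpr (Gamma_mem.mp h).2.2.1

theorem det_SL (γ : SL(2, ℤ)) : γ 0 0 * γ 1 1 - γ 0 1 * γ 1 0 = 1 :=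
  (det_fin_two (γ : Matrix (Fin 2) (Fin 2) ℤ)).symm.trans (Matrix.SpecialLinearGroup.det_coe γ)

theorem det_SL_cast (γ : SL(2, ℤ)) :
    ((γ 0 0 : ℤ) : ℚ) * (γ 1 1 : ℤ) - (γ 0 1 : ℤ) * (γ 1 0 : ℤ) = 1 := by
  exact_mod_cast det_SL γ

/-- an element of `SL(2, ℤ)` -/
def sl (a b c d : ℤ) (h : a * d - b * c = 1) : SL(2, ℤ) := ⟨!![a, b; c, d], by simpa [det_fin_two] using h⟩

theorem emb_sl {a b c d : ℤ} (h : a * d - b * c = 1) :
    emb (sl a b c d h) = gm (a : ℚ) b c d := emb_eq _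

theorem U_int (t : ℤ) : U (t : ℚ) = emb (sl 1 t 0 1 (by ring)) := by
  rw [emb_sl, U]; push_cast; rfl

theorem Lo_int (t : ℤ) : Lo (t : ℚ) = emb (sl 1 0 t 1 (by ring)) := by
  rw [emb_sl, Lo]; push_cast; rfl

theorem conj_Dg_gm {t a b c d : ℚ} (ht : t ≠ 0) (h : a * d - b * c ≠ 0) :
    Dg t * gm a b c d * (Dg t)⁻¹ = gm a (t * b) (c / t) d := by
  have h2 : a * d - t * b * (c / t) ≠ 0 := by
    rw [show a * d - t * b * (c / t) = a * d - b * c by field_simp]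
    exact h
  rw [mul_inv_eq_iff_eq_mul, Dg, gm_mul (by simpa using ht) h, gm_mul h2 (by simpa using ht)]
  exact gm_ext (by ring) (by ring) (by field_simp; ring) (by ring)

theorem twist_eq {a b c d t Q Z : ℚ} (ha : a ≠ 0) (ht : t ≠ 0) (hQ : Q ≠ 0)
    (hdet : a * d - b * c = 1) (hrow : a * Z + Q * b = t * b) :
    ∃ z, gm a (t * b) (c / t) d = Lo z * (gm a (Q * b) (c / Q) d * U Z) := by
  have h1 : a * d - Q * b * (c / Q) = 1 := by
    rw [← hdet]; field_simp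
  refine ⟨(c / t - c / Q) / a, ?_⟩
  rw [U, gm_mul (by rw [h1]; norm_num) (by norm_num), Lo, gm_mul (by norm_num) ?_]
  · have hZ : Z = (t - Q) * b / a := by
      field_simp
      linear_combination hrow
    refine gm_ext (by ring) (by linear_combination -hrow) (by field_simp; ring) ?_
    rw [hZ]
    field_simp
    ring
  · intro h0
    exact one_ne_zero (α := ℚ) (by linear_combination h0 - h1)

/-- conjugating a congruence subgroup -/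
theorem exists_conj_gamma (h : GQ) {M : ℕ} (hM : 0 < M) :
    ∃ M' : ℕ, 0 < M' ∧ ∀ γ ∈ Gamma M', ∃ γ' ∈ Gamma M, h * emb γ = emb γ' * h := by
  obtain ⟨n, A, hn, hA⟩ : ∃ (n : ℕ) (A : Matrix (Fin 2) (Fin 2) ℤ), n ≠ 0 ∧
      A.map (Int.castRingHom ℚ) = (n : ℚ) • (h : Matrix (Fin 2) (Fin 2) ℚ) := by
    refine ⟨∏ i, ∏ j, (h i j).den,
      Matrix.of fun i j => (((∏ i, ∏ j, (h i j).den : ℕ) : ℚ) * h i j).num,
      Finset.prod_ne_zero_iff.mpr fun i _ => Finset.prod_ne_zero_iff.mpr fun j _ => (h i j).den_nz, ?_⟩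
    ext i j
    obtain ⟨k, hk⟩ : (h i j).den ∣ ∏ i, ∏ j, (h i j).den :=
      (Finset.dvd_prod_of_mem (fun j => (h i j).den) (Finset.mem_univ j)).trans
        (Finset.dvd_prod_of_mem (fun i => ∏ j, (h i j).den) (Finset.mem_univ i))
    have e : (((∏ i, ∏ j, (h i j).den : ℕ) : ℚ) * h i j) = (((k : ℤ) * (h i j).num : ℤ) : ℚ) := by
      rw [hk, Nat.cast_mul, Int.cast_mul, Int.cast_natCast, mul_comm ((h i j).den : ℚ), mul_assoc,
        Rat.den_mul_eq_num]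
    simp only [Matrix.map_apply, Matrix.of_apply, Matrix.smul_apply, smul_eq_mul, eq_intCast]
    rw [e, Rat.num_intCast]
  have hD : A.det ≠ 0 := by
    intro h0
    have h1 := (RingHom.map_det (Int.castRingHom ℚ) A).symm
    rw [RingHom.mapMatrix_apply, hA, det_smul, h0, map_zero] at h1
    exact mul_ne_zero (pow_ne_zero _ (Nat.cast_ne_zero.mpr hn)) h.det_ne_zero h1
  refine ⟨((M : ℤ) * A.det).natAbs, Int.natAbs_pos.mpr (mul_ne_zero (by exact_mod_cast hM.ne') hD),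
    fun γ hγ => ?_⟩
  obtain ⟨E, hE⟩ : ∃ E : Matrix (Fin 2) (Fin 2) ℤ,
      (γ : Matrix (Fin 2) (Fin 2) ℤ) = 1 + ((M : ℤ) * A.det) • E := by
    have hd : ∀ i j, ((M : ℤ) * A.det) ∣
        (γ : Matrix (Fin 2) (Fin 2) ℤ) i j - (1 : Matrix (Fin 2) (Fin 2) ℤ) i j := by
      intro i j
      obtain ⟨h1, h2, h3, h4⟩ := mem_Gamma_iff.mp hγ
      rw [Int.natAbs_dvd] at h1 h2 h3 h4
      fin_cases i <;> fin_cases j <;> simpa
    choose E hE using hd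
    refine ⟨Matrix.of E, Matrix.ext fun i j => ?_⟩
    show _ = (1 : Matrix (Fin 2) (Fin 2) ℤ) i j + ((M : ℤ) * A.det) * E i j
    rw [← hE i j, add_sub_cancel]
  set G : Matrix (Fin 2) (Fin 2) ℤ := 1 + (M : ℤ) • (A * E * A.adjugate) with hGdef
  have hG : G * A = A * (γ : Matrix (Fin 2) (Fin 2) ℤ) := by
    rw [hE, hGdef, add_mul, mul_add, one_mul, mul_one, smul_mul_assoc, mul_assoc (A * E),
      adjugate_mul, mul_smul_comm, mul_smul_comm, mul_one, smul_smul]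
  have hdet : G.det = 1 := by
    have := congrArg Matrix.det hG
    rw [det_mul, det_mul, Matrix.SpecialLinearGroup.det_coe, mul_one] at this
    exact mul_right_cancel₀ hD (this.trans (one_mul _).symm)
  refine ⟨⟨G, hdet⟩, mem_Gamma_iff.mpr ?_, ?_⟩
  · have entry : ∀ i j, G i j = (1 : Matrix (Fin 2) (Fin 2) ℤ) i j +
        (M : ℤ) * (A * E * A.adjugate) i j := fun i j => rfl
    refine ⟨⟨(A * E * A.adjugate) 0 0, ?_⟩, ⟨(A * E * A.adjugate) 0 1, ?_⟩,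
      ⟨(A * E * A.adjugate) 1 0, ?_⟩, ⟨(A * E * A.adjugate) 1 1, ?_⟩⟩ <;>
      simp [entry]
  · apply Units.ext
    have e := congrArg (Int.castRingHom ℚ).mapMatrix hG
    simp only [map_mul, RingHom.mapMatrix_apply, hA, Matrix.mul_smul, Matrix.smul_mul] at e
    rw [Units.val_mul, Units.val_mul]
    exact (smul_right_injective _ (Nat.cast_ne_zero.mpr hn) e).symm

variable {V : Type} [AddCommGroup V]

/-- pullback of a symbol -/
def pullS (g : GQ) (Φ : Cu → Cu → V) : Cu → Cu → V := fun x y => Φ (g • x) (g • y)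

theorem pullS_mul (g h : GQ) (Φ : Cu → Cu → V) : pullS (g * h) Φ = pullS h (pullS g Φ) := by
  funext x y
  rw [pullS, mul_smul, mul_smul]
  rfl

theorem pullS_of_mem {g : GQ} {Φ : Cu → Cu → V} (hg : g ∈ stab Φ) : pullS g Φ = Φ :=
  funext fun x => funext fun y => hg x y

theorem IsSym.pullS {Φ : Cu → Cu → V} (h : IsSym Φ) (g : GQ) : IsSym (pullS g Φ) :=
  ⟨fun _ _ _ => h.add _ _ _⟩

theorem IsSym.sub {Φ Ψ : Cu → Cu → V} (h : IsSym Φ) (h' : IsSym Ψ) : IsSym (Φ - Ψ) :=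
  ⟨fun x y z => by simp only [Pi.sub_apply, ← h.add x y z, ← h'.add x y z]; abel⟩

theorem Bd.zero (M : ℕ) : Bd M (0 : Cu → Cu → V) := ⟨⟨fun x y z => by simp⟩, fun γ _ x => by simp⟩

theorem Bd.add {M : ℕ} {Φ Ψ : Cu → Cu → V} (h : Bd M Φ) (h' : Bd M Ψ) : Bd M (Φ + Ψ) :=
  ⟨⟨fun x y z => by simp only [Pi.add_apply, ← h.sym.add x y z, ← h'.sym.add x y z]; abel⟩,
    fun γ hγ x => by simp only [Pi.add_apply, h.inv γ hγ x, h'.inv γ hγ x]⟩

theorem Bd.neg {M : ℕ} {Φ : Cu → Cu → V} (h : Bd M Φ) : Bd M (-Φ) :=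
  ⟨⟨fun x y z => by simp only [Pi.neg_apply, ← h.sym.add x y z]; abel⟩,
    fun γ hγ x => by simp only [Pi.neg_apply, h.inv γ hγ x]⟩

/-- pullbacks of boundary symbols -/
theorem exists_bd_pullS (g : GQ) {M : ℕ} (hM : 0 < M) :
    ∃ M' : ℕ, 0 < M' ∧ ∀ Φ : Cu → Cu → V, Bd M Φ → Bd M' (pullS g Φ) := by
  obtain ⟨M', hM', h⟩ := exists_conj_gamma g hM
  refine ⟨M', hM', fun Φ hΦ => ⟨hΦ.sym.pullS g, fun γ hγ x => ?_⟩⟩
  obtain ⟨γ', hγ', e⟩ := h γ hγ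
  simp only [LR.pullS, ← mul_smul, e]
  rw [mul_smul, hΦ.sym.eq_sub, hΦ.inv γ' hγ', ← hΦ.sym.eq_sub]

variable (N q : ℕ)

/-- invariance under `Γ₀(N)` and the square of `diag (q, 1)` -/
structure Inv (Φ : Cu → Cu → V) : Prop where
  sym : IsSym Φ
  gamma : ∀ γ ∈ Gamma0 N, emb γ ∈ stab Φ
  dg : Dg ((q : ℚ) ^ 2) ∈ stab Φ

variable (V) in
/-- matrices fixing every invariant symbol up to boundary symbols -/
def bdOp : Subgroup GQ where
  carrier := {g | ∃ M : ℕ, 0 < M ∧ ∀ Φ : Cu → Cu → V, Inv N q Φ → Bd M (pullS g Φ - Φ)}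
  one_mem' := ⟨1, one_pos, fun Φ hΦ => by
    rw [pullS_of_mem (Subgroup.one_mem _), sub_self]; exact Bd.zero 1⟩
  mul_mem' := fun {g h} ⟨M₁, hM₁, h₁⟩ ⟨M₂, hM₂, h₂⟩ => by
    obtain ⟨M', hM', hp⟩ := exists_bd_pullS (V := V) h hM₁
    refine ⟨M' * M₂, Nat.mul_pos hM' hM₂, fun Φ hΦ => ?_⟩
    have e : pullS (g * h) Φ - Φ = pullS h (pullS g Φ - Φ) + (pullS h Φ - Φ) := by
      rw [pullS_mul]
      funext x y
      simp only [LR.pullS, Pi.sub_apply, Pi.add_apply, sub_add_sub_cancel]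
    rw [e]
    exact ((hp _ (h₁ Φ hΦ)).mono (dvd_mul_right _ _)).add ((h₂ Φ hΦ).mono (dvd_mul_left _ _))
  inv_mem' := fun {g} ⟨M, hM, h⟩ => by
    obtain ⟨M', hM', hp⟩ := exists_bd_pullS (V := V) g⁻¹ hM
    refine ⟨M', hM', fun Φ hΦ => ?_⟩
    have e : pullS g⁻¹ Φ - Φ = -pullS g⁻¹ (pullS g Φ - Φ) := by
      funext x y
      simp [LR.pullS]
    rw [e]
    exact (hp _ (h Φ hΦ)).neg

variable {N q}

theorem mem_bdOp_of_stab {g : GQ} (h : ∀ Φ : Cu → Cu → V, Inv N q Φ → g ∈ stab Φ) :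
    g ∈ bdOp V N q :=
  ⟨1, one_pos, fun Φ hΦ => by rw [pullS_of_mem (h Φ hΦ), sub_self]; exact Bd.zero 1⟩

/-- conjugate of a congruence element by a translation with denominator `r` -/
theorem conj_U_int {r : ℕ} (hr : r ≠ 0) {N : ℕ} (i : ℤ) {γ : SL(2, ℤ)}
    (hγ : γ ∈ Gamma (N * r ^ 2)) :
    ∃ γ' ∈ Gamma N, U ((i : ℚ) / r) * emb γ * U (-((i : ℚ) / r)) = emb γ' := by
  obtain ⟨h1, h2, h3, h4⟩ := mem_Gamma_iff.mp hγ
  push_cast at h1 h2 h3 h4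
  obtain ⟨a1, ha⟩ := h1
  obtain ⟨b1, hb⟩ := h2
  obtain ⟨c2, hc⟩ := h3
  obtain ⟨d1, hd⟩ := h4
  obtain ⟨e, he⟩ := dvd_sub (Dvd.intro d1 hd.symm) (Dvd.intro a1 ha.symm)
  refine ⟨sl (γ 0 0 + i * (N * r * c2)) (γ 0 1 + i * (N * r * e) - i ^ 2 * (N * c2)) (γ 1 0)
    (γ 1 1 - i * (N * r * c2)) ?_, mem_Gamma_iff.mpr ⟨⟨(r : ℤ) ^ 2 * a1 + i * (r * c2), ?_⟩,
      ⟨(r : ℤ) ^ 2 * b1 + i * (r * e) - i ^ 2 * c2, ?_⟩, ⟨(r : ℤ) ^ 2 * c2, ?_⟩,
      ⟨(r : ℤ) ^ 2 * d1 - i * (r * c2), ?_⟩⟩, ?_⟩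
  · linear_combination det_SL γ + (i * N * r * c2) * he +
      (i ^ 2 * N * c2 - i * N * r * e) * hc
  · show γ 0 0 + i * (N * r * c2) - 1 = _
    linear_combination ha
  · show γ 0 1 + i * (N * r * e) - i ^ 2 * (N * c2) = _
    linear_combination hb
  · show γ 1 0 = _
    rw [hc]; ring
  · show γ 1 1 - i * (N * r * c2) - 1 = _
    linear_combination hd
  · rw [emb_sl, emb_eq, U, U, gm_mul (by norm_num) (by rw [det_SL_cast]; norm_num),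
      gm_mul ?_ (by norm_num)]
    · have hc' := congrArg (Int.cast : ℤ → ℚ) hc
      have he' := congrArg (Int.cast : ℤ → ℚ) he
      have hr' : (r : ℚ) ≠ 0 := Nat.cast_ne_zero.mpr hr
      push_cast at hc' he'
      refine gm_ext ?_ ?_ ?_ ?_ <;> push_cast <;> field_simp
      · linear_combination (i : ℚ) * hc'
      · linear_combination (i : ℚ) * r * he' - (i : ℚ) ^ 2 * hc'
      · ring
      · linear_combination -(i : ℚ) * hc'
    · intro h0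
      exact one_ne_zero (α := ℚ) (by linear_combination h0 - det_SL_cast γ)

section Key

variable {Φ : Cu → Cu → V} (hΦ : Inv N q Φ) {r : ℕ} (hr : r.Prime) (hq : q ≠ 0)

include hΦ in
theorem U_int_mem (t : ℤ) : U (t : ℚ) ∈ stab Φ := by
  rw [U_int]
  exact hΦ.gamma _ (mem_Gamma0_iff.mpr (by simp [sl]))

include hΦ hq in
theorem U_pow_mem (m : ℤ) (n : ℕ) : U ((m : ℚ) / ((q : ℚ) ^ 2) ^ n) ∈ stab Φ := by
  have hq2 : (q : ℚ) ^ 2 ≠ 0 := pow_ne_zero _ (Nat.cast_ne_zero.mpr hq)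
  have e : U ((m : ℚ) / ((q : ℚ) ^ 2) ^ n) =
      (Dg ((q : ℚ) ^ 2) ^ n)⁻¹ * U m * Dg ((q : ℚ) ^ 2) ^ n := by
    rw [Dg_pow hq2, ← Dg_inv (pow_ne_zero _ hq2), Dg_U (inv_ne_zero (pow_ne_zero _ hq2)), mul_assoc,
      Dg_mul (inv_ne_zero (pow_ne_zero _ hq2)) (pow_ne_zero _ hq2),
      inv_mul_cancel₀ (pow_ne_zero _ hq2), Dg_one, mul_one, inv_mul_eq_div]
  rw [e]
  exact Subgroup.mul_mem _ (Subgroup.mul_mem _ (Subgroup.inv_mem _ (Subgroup.pow_mem _ hΦ.dg n))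
    (U_int_mem hΦ m)) (Subgroup.pow_mem _ hΦ.dg n)

include hΦ hr hq in
/-- translations by `j/r` and `jk/r` act alike on periods -/
theorem cS_conj_eq (hrq : ¬ r ∣ q) (hN : 0 < N) {k t0 : ℤ} (hk : k * (q : ℤ) ^ 2 = 1 + r * t0)
    (j : ℤ) {γ : SL(2, ℤ)} (hγ : γ ∈ Gamma (4 * N * r ^ 2)) :
    cS Φ (U ((j * k : ℤ) / (r : ℚ)) * emb γ * U (-((j * k : ℤ) / (r : ℚ)))) =
      cS Φ (U ((j : ℚ) / r) * emb γ * U (-((j : ℚ) / r))) := by
  haveI : Fact r.Prime := ⟨hr⟩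
  have hqQ : (q : ℚ) ≠ 0 := Nat.cast_ne_zero.mpr hq
  have hq2 : (q : ℚ) ^ 2 ≠ 0 := pow_ne_zero _ hqQ
  have hrQ : (r : ℚ) ≠ 0 := Nat.cast_ne_zero.mpr hr.ne_zero
  set y : ℚ := (j : ℚ) / r with hy
  set M0 : ℕ := 4 * N * r ^ 2 with hM0
  set dd : GQ := Dg ((q : ℚ) ^ 2) with hdd
  -- the group on which the conjugated period is a homomorphism
  let H : Subgroup GQ := stab Φ ⊓ (stab Φ).comap (MulAut.conj (U y)).toMonoidHom
  let c' : GQ → V := fun g => cS Φ (U y * g * (U y)⁻¹)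
  have hH : ∀ {g}, g ∈ H → U y * g * (U y)⁻¹ ∈ stab Φ := fun hg => hg.2
  have c'mul : ∀ {g g'}, g ∈ H → c' (g * g') = c' g + c' g' := by
    intro g g' hg
    show cS Φ _ = cS Φ _ + cS Φ _
    rw [← cS_mul hΦ.sym (hH hg)]
    congr 1
    group
  have c'fix : ∀ {g} (x : Cu), g ∈ H → g • x = x → c' g = 0 := fun {g} x hg hx =>
    cS_of_fix hΦ.sym (x := U y • x) (hH hg)
      (by rw [← mul_smul, inv_mul_cancel_right, mul_smul, hx])
  have c'inv : ∀ {g}, g ∈ H → c' g⁻¹ = -c' g := by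
    intro g hg
    have := c'mul (g' := g⁻¹) hg
    rw [mul_inv_cancel, c'fix ∞ (Subgroup.one_mem H) (one_smul _ _)] at this
    exact eq_neg_of_add_eq_zero_right this.symm
  have hgam : ∀ g : SL(2, ℤ), g ∈ Gamma M0 → emb g ∈ H := by
    intro g hg
    have hg' : g ∈ Gamma (N * r ^ 2) :=
      gamma_mono ⟨4, by rw [hM0]; ring⟩ hg
    refine ⟨hΦ.gamma g (Gamma0_mem.mpr (Gamma_mem.mp (gamma_mono (dvd_mul_right N _) hg')).2.2.1),
      ?_⟩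
    obtain ⟨γ', hγ', e⟩ := conj_U_int hr.ne_zero j hg'
    show U y * emb g * (U y)⁻¹ ∈ stab Φ
    rw [← U_neg, e]
    exact hΦ.gamma _ (Gamma_le_Gamma0 hγ')
  -- the twisted conjugate
  have hd' : ∀ g : SL(2, ℤ), g ∈ Gamma M0 → dd * emb g * dd⁻¹ ∈ H ∧
      c' (dd * emb g * dd⁻¹) =
        cS Φ (U ((j * k : ℤ) / (r : ℚ)) * emb g * U (-((j * k : ℤ) / (r : ℚ)))) := by
    intro g hg
    set s : ℚ := ((-(j * t0) : ℤ) : ℚ) / ((q : ℚ) ^ 2) ^ 1 with hs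
    set w : ℚ := ((j * k : ℤ) : ℚ) / (r : ℚ) with hw
    have hys : y = (q : ℚ) ^ 2 * (s + w) := by
      have hk' : (k : ℚ) * (q : ℚ) ^ 2 = 1 + r * t0 := by exact_mod_cast hk
      rw [hy, hs, hw]
      push_cast
      field_simp
      linear_combination -(j : ℚ) * hk'
    have hsm : U s ∈ stab Φ := U_pow_mem hΦ hq _ 1
    obtain ⟨γ', hγ', e⟩ := conj_U_int hr.ne_zero (j * k)
      (gamma_mono (M := N * r ^ 2) ⟨4, by rw [hM0]; ring⟩ hg)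
    have hX : U w * emb g * U (-w) ∈ stab Φ := e ▸ hΦ.gamma _ (Gamma_le_Gamma0 hγ')
    have key : U y * (dd * emb g * dd⁻¹) * (U y)⁻¹ =
        dd * (U s * (U w * emb g * U (-w)) * (U s)⁻¹) * dd⁻¹ := by
      rw [hys, ← conj_Dg_U hq2, ← hdd, ← U_add, U_neg]
      group
    have h1 : U y * (dd * emb g * dd⁻¹) * (U y)⁻¹ ∈ stab Φ := by
      rw [key]
      exact Subgroup.mul_mem _ (Subgroup.mul_mem _ hΦ.dg (Subgroup.mul_mem _
        (Subgroup.mul_mem _ hsm hX) (Subgroup.inv_mem _ hsm))) (Subgroup.inv_mem _ hΦ.dg)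
    refine ⟨⟨Subgroup.mul_mem _ (Subgroup.mul_mem _ hΦ.dg (hgam g hg).1)
      (Subgroup.inv_mem _ hΦ.dg), h1⟩, ?_⟩
    show cS Φ _ = _
    rw [key]
    have c0 : ∀ t : ℚ, U t ∈ stab Φ → cS Φ (U t) = 0 := fun t ht =>
      cS_of_fix hΦ.sym ht (U_smul_infty t)
    have cd : cS Φ dd = 0 := cS_of_fix hΦ.sym hΦ.dg (Dg_smul_infty _)
    rw [cS_mul hΦ.sym (Subgroup.mul_mem _ hΦ.dg (Subgroup.mul_mem _
        (Subgroup.mul_mem _ hsm hX) (Subgroup.inv_mem _ hsm))),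
      cS_mul hΦ.sym hΦ.dg, cS_mul hΦ.sym (Subgroup.mul_mem _ hsm hX), cS_mul hΦ.sym hsm,
      cS_inv hΦ.sym hΦ.dg, cS_inv hΦ.sym hsm, c0 s hsm, cd]
    abel
  suffices main : ∀ g : SL(2, ℤ), g ∈ Gamma M0 → c' (dd * emb g * dd⁻¹) = c' (emb g) by
    rw [← (hd' γ hγ).2, main γ hγ, U_neg]
  -- it is enough to treat a translate
  have step : ∀ g u : SL(2, ℤ), g ∈ Gamma M0 → u ∈ Gamma M0 →
      c' (dd * emb u * dd⁻¹) = c' (emb u) →
      c' (dd * emb (g * u) * dd⁻¹) = c' (emb (g * u)) →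
      c' (dd * emb g * dd⁻¹) = c' (emb g) := by
    intro g u hg hu h1 h2
    rw [map_mul, c'mul (hgam g hg), show dd * (emb g * emb u) * dd⁻¹ =
      dd * emb g * dd⁻¹ * (dd * emb u * dd⁻¹) by group, c'mul (hd' g hg).1, h1] at h2
    exact add_right_cancel h2
  have hup : ∀ t : ℤ, sl 1 ((M0 : ℤ) * t) 0 1 (by ring) ∈ Gamma M0 :=
    fun t => mem_Gamma_iff.mpr (by simp [sl])
  have hlo : ∀ t : ℤ, sl 1 0 ((M0 : ℤ) * t) 1 (by ring) ∈ Gamma M0 :=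
    fun t => mem_Gamma_iff.mpr (by simp [sl])
  have hup0 : ∀ t : ℤ, c' (dd * emb (sl 1 ((M0 : ℤ) * t) 0 1 (by ring)) * dd⁻¹) =
      c' (emb (sl 1 ((M0 : ℤ) * t) 0 1 (by ring))) := fun t => by
    rw [c'fix ∞ (hd' _ (hup t)).1, c'fix ∞ (hgam _ (hup t))]
    · rw [← U_int]; exact U_smul_infty _
    · rw [← U_int, conj_Dg_U hq2]; exact U_smul_infty _
  have hlo0 : ∀ t : ℤ, c' (dd * emb (sl 1 0 ((M0 : ℤ) * t) 1 (by ring)) * dd⁻¹) =
      c' (emb (sl 1 0 ((M0 : ℤ) * t) 1 (by ring))) := fun t => by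
    have hdg0 : ∀ u : ℚ, u ≠ 0 → Dg u • ((0 : ℚ) : Cu) = ((0 : ℚ) : Cu) := fun u hu => by
      rw [smul_some_eq_ite, Dg, val_gm (by simpa using hu)]; simp
    rw [c'fix ((0 : ℚ) : Cu) (hd' _ (hlo t)).1, c'fix ((0 : ℚ) : Cu) (hgam _ (hlo t))]
    · rw [← Lo_int]; exact Lo_smul_zero _
    · rw [mul_smul, mul_smul, hdd, ← Dg_inv hq2, hdg0 _ (inv_ne_zero hq2), ← Lo_int, Lo_smul_zero,
        hdg0 _ hq2]
  intro g hg
  -- first entry in the progression, upper right entry a large prime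
  set E0 : ℕ := r - 1 with hE0
  have hM04 : 4 ∣ M0 := ⟨N * r ^ 2, by rw [hM0]; ring⟩
  have hM0pos : 0 < M0 := by rw [hM0]; exact Nat.mul_pos (by omega) (pow_pos hr.pos 2)
  obtain ⟨g1a, g1b, -, -⟩ := mem_Gamma_iff.mp hg
  obtain ⟨bq, hbq⟩ := g1b
  have ha0 : g 0 0 ≠ 0 := fun h => by
    rw [h, zero_sub, dvd_neg] at g1a
    have : M0 = 1 := by exact_mod_cast Nat.dvd_one.mp (Int.natCast_dvd_natCast.mp g1a)
    obtain ⟨c, hc⟩ := hM04
    omega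
  obtain ⟨b0, hb0gt, hb0p, hb0⟩ := Nat.forall_exists_prime_gt_and_zmodEq E0
    (q := (g 0 0).natAbs) (a := bq) (Int.natAbs_ne_zero.mpr ha0) (by
      have h : IsCoprime bq (g 0 0) := ⟨-(M0 : ℤ) * g 1 0, g 1 1, by
        linear_combination det_SL g + g 1 0 * hbq⟩
      rw [Int.isCoprime_iff_gcd_eq_one] at h ⊢
      simpa [Int.gcd, Int.natAbs_abs] using h)
  obtain ⟨t, ht⟩ : g 0 0 ∣ (b0 : ℤ) - bq := by
    rw [← Int.natAbs_dvd]; exact Int.modEq_iff_dvd.mp hb0.symm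
  refine step g _ hg (hup t) (hup0 t) ?_
  set g1 := g * sl 1 ((M0 : ℤ) * t) 0 1 (by ring) with hg1
  have hg1m : g1 ∈ Gamma M0 := Subgroup.mul_mem _ hg (hup t)
  have e00 : g1 0 0 = g 0 0 := by simp [hg1, sl, Matrix.SpecialLinearGroup.coe_mul, Matrix.mul_apply, Fin.sum_univ_two]
  have e01 : g1 0 1 = (M0 : ℤ) * b0 := by
    simp [hg1, sl, Matrix.SpecialLinearGroup.coe_mul, Matrix.mul_apply, Fin.sum_univ_two]
    linear_combination -(M0 : ℤ) * ht + hbq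
  clear_value g1
  -- first entry minus a prime in a suitable progression
  set E : ℕ := ∏ s ∈ E0.primeFactors.filter (fun s => ¬ s ∣ M0), s with hE
  have hco1 : IsCoprime (g 0 0) ((M0 : ℤ) ^ 2 * b0) := by
    have h1 : IsCoprime (g 0 0) (M0 : ℤ) := by
      obtain ⟨z, hz⟩ := g1a
      exact ⟨1, -z, by linear_combination hz⟩
    refine (h1.pow_right).mul_right ⟨g1 1 1, -(M0 : ℤ) * g1 1 0, ?_⟩
    linear_combination det_SL g1 - g1 1 1 * e00 + g1 1 0 * e01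
  have hco2 : IsCoprime ((M0 : ℤ) ^ 2 * b0) (E : ℤ) := by
    rw [hE, Nat.cast_prod]
    refine IsCoprime.prod_right fun s hs => ?_
    obtain ⟨hs1, hs2⟩ := Finset.mem_filter.mp hs
    have hsp := Nat.prime_of_mem_primeFactors hs1
    have h1 : Nat.Coprime s (M0 ^ 2 * b0) := Nat.Coprime.mul_right
      ((hsp.coprime_iff_not_dvd.mpr hs2).pow_right 2) ((Nat.coprime_primes hsp hb0p).mpr fun h => by
        have := Nat.le_of_mem_primeFactors hs1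
        omega)
    rw [show ((M0 : ℤ) ^ 2 * b0) = ((M0 ^ 2 * b0 : ℕ) : ℤ) by push_cast; rfl,
      Int.isCoprime_iff_gcd_eq_one, Int.gcd_natCast_natCast]
    exact h1.symm
  obtain ⟨u, v, huv⟩ := hco2
  obtain ⟨ℓ, hℓgt, hℓp, hℓ⟩ := Nat.forall_exists_prime_gt_and_zmodEq (max q 2)
    (q := M0 ^ 2 * b0 * E) (a := -g 0 0 + (M0 : ℤ) ^ 2 * b0 * u * (g 0 0 - 1))
    (Nat.mul_ne_zero (Nat.mul_ne_zero (by positivity) hb0p.ne_zero)
      (Finset.prod_ne_zero_iff.mpr fun s hs =>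
        (Nat.prime_of_mem_primeFactors (Finset.mem_filter.mp hs).1).ne_zero)) (by
      push_cast
      refine IsCoprime.mul_right ?_ ?_
      · rw [show (M0 : ℤ) ^ 2 * b0 * u * (g 0 0 - 1) = ((M0 : ℤ) ^ 2 * b0) * (u * (g 0 0 - 1)) by ring]
        exact hco1.neg_left.add_mul_left_left _
      · refine ⟨-1, -(v * (g 0 0 - 1)), ?_⟩
        linear_combination -(g 0 0 - 1) * huv)
  obtain ⟨y0, hy0⟩ : (M0 : ℤ) ^ 2 * b0 ∣ (ℓ : ℤ) + g 0 0 := by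
    have h := Int.modEq_iff_dvd.mp hℓ.symm
    push_cast at h
    obtain ⟨z, hz⟩ := (dvd_mul_right _ _).trans h
    exact ⟨z + u * (g 0 0 - 1), by linear_combination hz⟩
  have hneg1 : ∀ s ∈ E0.primeFactors, (s : ℤ) ∣ (ℓ : ℤ) + 1 := by
    intro s hs
    by_cases hsM : s ∣ M0
    · obtain ⟨z, hz⟩ := g1a
      have h1 : (s : ℤ) ∣ (M0 : ℤ) := Int.natCast_dvd_natCast.mpr hsM
      have : (M0 : ℤ) ∣ (ℓ : ℤ) + 1 := ⟨(M0 : ℤ) * b0 * y0 - z, by linear_combination hy0 - hz⟩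
      exact h1.trans this
    · have h := Int.modEq_iff_dvd.mp hℓ.symm
      push_cast at h
      have h1 : (s : ℤ) ∣ (E : ℤ) := Int.natCast_dvd_natCast.mpr
        (Finset.dvd_prod_of_mem (fun s => s) (Finset.mem_filter.mpr ⟨hs, hsM⟩))
      obtain ⟨z, hz⟩ := (dvd_mul_left _ _).trans h
      refine h1.trans ⟨z - v * (g 0 0 - 1), ?_⟩
      linear_combination hz + (g 0 0 - 1) * huv
  have hℓ4 : (4 : ℤ) ∣ (ℓ : ℤ) + 1 := by
    obtain ⟨c, hc⟩ := hM04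
    obtain ⟨z, hz⟩ := g1a
    exact ⟨(c : ℤ) * ((M0 : ℤ) * b0 * y0 - z), by
      linear_combination hy0 - hz + ((M0 : ℤ) * b0 * y0 - z) * (by exact_mod_cast hc : (M0 : ℤ) = 4 * c)⟩
  haveI : Fact ℓ.Prime := ⟨hℓp⟩
  set hh : ℕ := (ℓ - 1) / 2 with hhh
  have hodd : 2 * hh = ℓ - 1 := by
    rcases hℓp.eq_two_or_odd with h | h <;> omega
  have hcop : Nat.Coprime E0 hh := by
    refine Nat.coprime_of_dvd fun s hs hsE hsh => ?_
    have hE0pos : 0 < E0 := by have := hr.two_le; omega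
    have h1 := hneg1 s (Nat.mem_primeFactors.mpr ⟨hs, hsE, hE0pos.ne'⟩)
    obtain ⟨w, hw⟩ := hsh
    have hsh' : (s : ℤ) ∣ (ℓ : ℤ) - 1 := ⟨2 * w, by
      have : (ℓ : ℤ) - 1 = 2 * (hh : ℤ) := by omega
      rw [this, hw]; push_cast; ring⟩
    have h2 : (s : ℤ) ∣ 2 := by simpa using dvd_sub h1 hsh'
    obtain rfl : s = 2 := (Nat.prime_dvd_prime_iff_eq hs Nat.prime_two).mp (by exact_mod_cast h2)
    obtain ⟨z, hz⟩ := hℓ4
    omega
  obtain ⟨j', hj'⟩ : ∃ j' : ℕ, E0 * j' ≡ 1 [MOD hh] := by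
    obtain ⟨x, y, hxy⟩ := Int.isCoprime_iff_gcd_eq_one.mpr (show Int.gcd E0 hh = 1 by simpa using hcop)
    refine ⟨(x % hh).toNat, (Int.natCast_modEq_iff).mp ?_⟩
    have hh0 : (hh : ℤ) ≠ 0 := by
      have := hℓp.two_le
      omega
    push_cast
    rw [Int.toNat_of_nonneg (Int.emod_nonneg _ hh0)]
    calc (E0 : ℤ) * (x % hh) ≡ E0 * x [ZMOD hh] := (Int.mod_modEq x hh).mul_left _
      _ ≡ 1 [ZMOD hh] := Int.modEq_iff_dvd.mpr ⟨y, by linear_combination -hxy⟩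
  obtain ⟨Y, hY⟩ : (ℓ : ℤ) ∣ ((q : ℤ) ^ 2) ^ (E0 * j') - (q : ℤ) ^ 2 := by
    rw [← ZMod.intCast_zmod_eq_zero_iff_dvd]
    push_cast
    have hx : ((q : ZMod ℓ) ^ 2) ^ hh = 1 := by
      rw [← pow_mul, hodd]
      refine ZMod.pow_card_sub_one_eq_one fun h => ?_
      have := Nat.le_of_dvd (Nat.pos_of_ne_zero hq) ((ZMod.natCast_eq_zero_iff q ℓ).mp h)
      omega
    rw [pow_eq_pow_mod _ hx, hj', ← pow_eq_pow_mod _ hx, pow_one, sub_self]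
  -- reach the prime first entry
  refine step g1 _ hg1m (hlo (-y0)) (hlo0 (-y0)) ?_
  set g2 := g1 * sl 1 0 ((M0 : ℤ) * -y0) 1 (by ring) with hg2
  have hg2m : g2 ∈ Gamma M0 := Subgroup.mul_mem _ hg1m (hlo _)
  have f00 : g2 0 0 = -(ℓ : ℤ) := by
    simp [hg2, sl, Matrix.SpecialLinearGroup.coe_mul, Matrix.mul_apply, Fin.sum_univ_two]
    linear_combination e00 - (M0 : ℤ) * y0 * e01 + hy0
  have f01 : g2 0 1 = (M0 : ℤ) * b0 := by
    simp [hg2, sl, Matrix.SpecialLinearGroup.coe_mul, Matrix.mul_apply, Fin.sum_univ_two, e01]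
  clear_value g2
  -- compare the conjugates by `dd` and by a power fixing the period
  set Q : ℚ := ((q : ℚ) ^ 2) ^ (E0 * j') with hQdef
  have hQ : Q ≠ 0 := pow_ne_zero _ hq2
  have hD : Dg Q ∈ H := by
    obtain ⟨T, hT⟩ : (r : ℤ) ∣ 1 - ((q : ℤ) ^ 2) ^ (E0 * j') := by
      rw [← ZMod.intCast_zmod_eq_zero_iff_dvd]
      push_cast
      rw [← pow_mul, show 2 * (E0 * j') = E0 * (2 * j') by ring, pow_mul,
        ZMod.pow_card_sub_one_eq_one (fun h => hrq ((ZMod.natCast_eq_zero_iff q r).mp h)), one_pow,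
        sub_self]
    have hd1 : Dg Q ∈ stab Φ := by
      rw [hQdef, ← Dg_pow hq2]; exact Subgroup.pow_mem _ hΦ.dg _
    refine ⟨hd1, ?_⟩
    show U y * Dg Q * (U y)⁻¹ ∈ stab Φ
    have e : U y * Dg Q * (U y)⁻¹ = Dg Q * U (((j * T : ℤ) : ℚ) / ((q : ℚ) ^ 2) ^ (E0 * j')) := by
      have hT' : (1 : ℚ) - Q = r * T := by rw [hQdef]; exact_mod_cast hT
      rw [Dg_U hQ, mul_inv_eq_iff_eq_mul, mul_assoc, Dg_U hQ, ← mul_assoc, U_add]
      congr 2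
      rw [← hQdef, hy]
      push_cast
      field_simp
      linear_combination (j : ℚ) * hT'
    rw [e]
    exact Subgroup.mul_mem _ hd1 (U_pow_mem hΦ hq _ _)
  have hB1 : emb (sl 1 (-((M0 : ℤ) * b0) * Y * -1) 0 1 (by ring)) ∈ H := by
    refine hgam _ (mem_Gamma_iff.mpr ?_)
    simp [sl]
    exact Dvd.dvd.mul_right (dvd_mul_right _ _) _
  set B : GQ := Dg Q * emb g2 * (Dg Q)⁻¹ * emb (sl 1 (-((M0 : ℤ) * b0) * Y * -1) 0 1 (by ring))
    with hBdef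
  have hBH : B ∈ H := Subgroup.mul_mem _ (Subgroup.mul_mem _ (Subgroup.mul_mem _ hD (hgam _ hg2m))
    (Subgroup.inv_mem _ hD)) hB1
  have hBc : c' B = c' (emb g2) := by
    rw [hBdef, c'mul (Subgroup.mul_mem _ (Subgroup.mul_mem _ hD (hgam _ hg2m)) (Subgroup.inv_mem _ hD)),
      c'mul (Subgroup.mul_mem _ hD (hgam _ hg2m)), c'mul hD, c'inv hD, c'fix ∞ hD (Dg_smul_infty _),
      c'fix ∞ hB1 (by rw [← U_int]; exact U_smul_infty _)]
    abel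
  have hAB : ∃ z : ℚ, dd * emb g2 * dd⁻¹ = Lo z * B := by
    have ha : ((g2 0 0 : ℤ) : ℚ) ≠ 0 := by
      rw [f00]; simpa using hℓp.ne_zero
    have hdet := det_SL_cast g2
    have hY' : Q - (q : ℚ) ^ 2 = (ℓ : ℚ) * Y := by rw [hQdef]; exact_mod_cast hY
    have hf00 : ((g2 0 0 : ℤ) : ℚ) = -(ℓ : ℚ) := by rw [f00]; push_cast; ring
    have hf01 : ((g2 0 1 : ℤ) : ℚ) = (M0 : ℚ) * b0 := by rw [f01]; push_cast; ring
    rw [hBdef, hdd, ← U_int, emb_eq g2, conj_Dg_gm hq2 (by rw [hdet]; norm_num),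
      conj_Dg_gm hQ (by rw [hdet]; norm_num)]
    exact twist_eq ha hq2 hQ hdet (by
      push_cast
      linear_combination ((g2 0 1 : ℤ) : ℚ) * hY' + ((M0 : ℚ) * b0 * Y) * hf00 + (ℓ : ℚ) * Y * hf01)
  obtain ⟨z, hz⟩ := hAB
  have hLoH : Lo z ∈ H := by
    rw [eq_mul_inv_of_mul_eq hz.symm]
    exact Subgroup.mul_mem _ (hd' _ hg2m).1 (Subgroup.inv_mem _ hBH)
  rw [hz, c'mul hLoH, c'fix ((0 : ℚ) : Cu) hLoH (Lo_smul_zero z), zero_add, hBc]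

end Key

end FLTAgent.LR
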