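import Fermat.Agent.LR.Ihara
import Fermat.Agent.JTors.Main

/-!
The lattice of integral parabolic homomorphisms as a Hecke lattice, with its operators expressed
by the correspondences.
-/

set_option autoImplicit false
set_option linter.unusedSectionVars false
set_option linter.style.haveILetI false

noncomputable section

open Matrix OnePoint CongruenceSubgroup
open scoped MatrixGroups

namespace FLTAgent.LR

/-- to real matrices -/
abbrev toR : GQ →* GL (Fin 2) ℝ := Matrix.GeneralLinearGroup.map (algebraMap ℚ ℝ)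

theorem toR_gm {a b c d : ℚ} (h : a * d - b * c ≠ 0) :
    ((toR (gm a b c d) : GL (Fin 2) ℝ) : Matrix (Fin 2) (Fin 2) ℝ) = !![(a : ℝ), b; c, d] := by
  ext i j
  rw [gm, dif_pos h]
  fin_cases i <;> fin_cases j <;>
    simp [Matrix.GeneralLinearGroup.map, Matrix.GeneralLinearGroup.mkOfDetNeZero]

theorem toR_emb (g : SL(2, ℤ)) : toR (emb g) = Matrix.SpecialLinearGroup.mapGL ℝ g := by
  ext i j
  simp [Matrix.GeneralLinearGroup.map]

theorem toR_tRep_coe {ℓ : ℕ} (hℓ : ℓ ≠ 0) (b : ZMod ℓ) :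
    toR (tRep ℓ (b : OnePoint (ZMod ℓ))) = ModularForm.heckeMatrix ℓ b.val := by
  refine Units.ext ?_
  rw [tRep_coe, toR_gm (by simpa using hℓ), ModularForm.val_heckeMatrix hℓ]
  simp

theorem toR_tRep_infty {ℓ : ℕ} (hℓ : ℓ ≠ 0) :
    toR (tRep ℓ ∞) = ModularForm.heckeDiagMatrix ℓ := by
  refine Units.ext ?_
  show ((toR (gm (ℓ : ℚ) 0 0 1) : GL (Fin 2) ℝ) : Matrix (Fin 2) (Fin 2) ℝ) = _
  rw [toR_gm (by simpa using hℓ), ModularForm.heckeDiagMatrix, dif_neg hℓ,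
    ModularForm.val_upperTriangularGL]
  simp

variable {M : ℕ} [NeZero M]

/-- the Hecke lattice of level `M` on parabolic homomorphisms -/
def latticeOf (L : JTors.LatticeData M) : Attach.HeckeLattice M where
  Lam := JTors.Lam M
  instFree := JTors.lam_free (N := M)
  instFinite := JTors.lam_finite (N := M)
  T := L.T
  periods := L.periods
  periods_T := L.periods_T
  tors n := (JTors.torsMap M n).comp JTors.conjW
  nsmul_eq_zero_iff n hn x := by
    rw [JTors.nsmul_eq_zero_iff hn x]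
    exact ⟨fun ⟨φ, hφ⟩ => ⟨JTors.conjW φ, by rw [AddMonoidHom.comp_apply, JTors.conjW_conjW, hφ]⟩,
      fun ⟨v, hv⟩ => ⟨JTors.conjW v, hv⟩⟩
  tors_eq_zero_iff n hn v := by
    rw [AddMonoidHom.comp_apply, JTors.torsMap_eq_zero_iff hn]
    constructor
    · rintro ⟨w, hw⟩
      exact ⟨JTors.conjW w, by rw [← map_zsmul, ← hw, JTors.conjW_conjW]⟩
    · rintro ⟨w, rfl⟩
      exact ⟨JTors.conjW w, map_zsmul JTors.conjW _ w⟩
  tors_mul n m hn hm v := JTors.torsMap_mul hn hm (JTors.conjW v)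
  tors_T n hn ℓ v := by
    rw [AddMonoidHom.comp_apply, AddMonoidHom.comp_apply]
    refine JTors.IsTors.eq_torsMap hn ?_
    have hx := JTors.isTors_torsMap hn (JTors.conjW v)
    by_cases hd : (ℓ : ℕ) ∣ M
    · exact JTors.isTors_hecke_U hn ℓ hd (L.transferU ℓ hd) hx
    · exact JTors.isTors_hecke_T hn ℓ hd (L.transferT ℓ hd) hx

/-- `T_ℓ` on the lattice -/
theorem lattice_TH (L : JTors.LatticeData M) {ℓ : ℕ} [NeZero ℓ] (hℓ : ℓ.Prime) (hℓM : ¬ ℓ ∣ M)
    (φ : JTors.Lam M) : (L.T ⟨ℓ, hℓ⟩ φ).1 = TH M ℓ hℓ hℓM φ.1 := by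
  refine AddMonoidHom.ext fun x => ?_
  obtain ⟨γ, rfl⟩ := Additive.ofMul.surjective x
  obtain ⟨σ, g, h⟩ := (TC M M ℓ hℓ dvd_rfl hℓM).exists_rel γ
  rw [TH, Corr.op_apply _ h]
  refine L.transferT ⟨ℓ, hℓ⟩ hℓM φ γ σ g fun i => ?_
  have hc : ∀ k : OnePoint (ZMod ℓ), toR (tRep ℓ k) =
      P2MW.S_ModularForm_heckeU_slash_eq_self_of_mem_Gamma0.ModularForm.HeckeSlashInvariance.heckeRep ℓ k := fun k => by
    induction k using OnePoint.rec with
    | infty => exact toR_tRep_infty hℓ.ne_zero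
    | coe b => exact toR_tRep_coe hℓ.ne_zero b
  have e := congrArg toR (h i)
  rw [map_mul, map_mul, embG_apply, embG_apply, toR_emb, toR_emb] at e
  simp only [TC, hc] at e
  exact e

/-- `U_ℓ` on the lattice -/
theorem lattice_UC (L : JTors.LatticeData M) {ℓ : ℕ} [NeZero ℓ] (hℓ : ℓ.Prime) (hℓM : ℓ ∣ M)
    (φ : JTors.Lam M) : (L.T ⟨ℓ, hℓ⟩ φ).1 = (UC M ℓ hℓ hℓM).op φ.1 := by
  refine AddMonoidHom.ext fun x => ?_
  obtain ⟨γ, rfl⟩ := Additive.ofMul.surjective x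
  obtain ⟨σ, g, h⟩ := (UC M ℓ hℓ hℓM).exists_rel γ
  rw [Corr.op_apply _ h]
  refine L.transferU ⟨ℓ, hℓ⟩ hℓM φ γ σ g fun i => ?_
  have e := congrArg toR (h i)
  rw [map_mul, map_mul, embG_apply, embG_apply, toR_emb, toR_emb] at e
  simp only [UC, toR_tRep_coe hℓ.ne_zero] at e
  exact e

end FLTAgent.LR
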