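import Fermat.Agent.LR.Corr

/-!
The two degeneracy maps between levels `N` and `Nq`, the involution, and their relations.
-/

set_option autoImplicit false
set_option linter.unusedSectionVars false
set_option linter.style.haveILetI false
set_option linter.unusedVariables false

noncomputable section

open Matrix OnePoint CongruenceSubgroup
open scoped MatrixGroups

namespace FLTAgent.LR

attribute [local instance] Classical.propDecidable

variable (N q : ℕ) [NeZero q]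

/-- first coordinate of `q x - N y = 1` -/
def bx : ℤ := Int.gcdA q N

/-- second coordinate -/
def byy : ℤ := -Int.gcdB q N

theorem bezout_bxy (hq : q.Prime) (hqN : ¬ q ∣ N) : bx N q * q - byy N q * N = 1 := by
  have h := Int.gcd_eq_gcd_ab (q : ℤ) N
  rw [Int.gcd_natCast_natCast, Nat.Coprime.gcd_eq_one (hq.coprime_iff_not_dvd.mpr hqN)] at h
  rw [bx, byy]
  push_cast at h
  linear_combination -h

variable {N q} (hq : q.Prime) (hqN : ¬ q ∣ N)

theorem Gamma0_le_of_dvd {A B : ℕ} (h : A ∣ B) {γ : SL(2, ℤ)} (hγ : γ ∈ Gamma0 B) : γ ∈ Gamma0 A :=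
  mem_Gamma0_iff.mpr ((Int.natCast_dvd_natCast.mpr h).trans (mem_Gamma0_iff.mp hγ))

/-- restriction -/
def resC {A B : ℕ} (h : A ∣ B) : Corr A B Unit where
  rep _ := 1
  sep _ _ _ _ := rfl
  step γ _ := ⟨(), ⟨γ, Gamma0_le_of_dvd h γ.2⟩, by rw [one_mul, mul_one]; rfl⟩

theorem resC_op {A B : ℕ} (h : A ∣ B) {V : Type} [AddCommGroup V] (φ : HomG A V) (γ : Gamma0 B) :
    (resC h).op φ (Additive.ofMul γ) =
      φ (Additive.ofMul (⟨γ, Gamma0_le_of_dvd h γ.2⟩ : Gamma0 A)) := by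
  rw [Corr.op_apply _ (σ := Equiv.refl Unit) (g := fun _ => ⟨γ, Gamma0_le_of_dvd h γ.2⟩)
    (fun _ => by show 1 * _ = _ * 1; rw [one_mul, mul_one]; rfl)]
  simp

/-- conjugation by `diag (q, 1)` -/
def etaC (N q : ℕ) [NeZero q] : Corr N (N * q) Unit where
  rep _ := Dg q
  sep _ _ _ _ := rfl
  step γ _ := by
    have hqQ : (q : ℚ) ≠ 0 := Nat.cast_ne_zero.mpr (NeZero.ne q)
    obtain ⟨e, he⟩ := mem_Gamma0_iff.mp γ.2
    push_cast at he
    refine ⟨(), ⟨sl ((γ : SL(2, ℤ)) 0 0) (q * (γ : SL(2, ℤ)) 0 1) (N * e) ((γ : SL(2, ℤ)) 1 1)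
      (by linear_combination det_SL (γ : SL(2, ℤ)) + (γ : SL(2, ℤ)) 0 1 * he),
      mem_Gamma0_iff.mpr (by simp [sl])⟩, ?_⟩
    simp only [embG_apply]
    rw [emb_sl, emb_eq, Dg, gm_mul (by simpa using hqQ) (by rw [det_SL_cast]; norm_num),
      gm_mul ?_ (by simpa using hqQ)]
    · have he' := congrArg (Int.cast : ℤ → ℚ) he
      push_cast at he' ⊢
      exact gm_ext (by ring) (by ring) (by linear_combination he') (by ring)
    · intro h0
      have he' := congrArg (Int.cast : ℤ → ℚ) he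
      push_cast at he' h0
      exact one_ne_zero (α := ℚ) (by
        linear_combination h0 - det_SL_cast (γ : SL(2, ℤ)) - ((γ : SL(2, ℤ)) 0 1 : ℤ) * he')

/-- the involution matrix -/
def wQ (N q : ℕ) : GQ := gm (q * bx N q : ℤ) (byy N q) (N * q : ℕ) q

include hq hqN in
theorem det_wQ :
    ((q * bx N q : ℤ) : ℚ) * (q : ℚ) - (byy N q : ℚ) * ((N * q : ℕ) : ℚ) = q := by
  have h : (bx N q : ℚ) * q - byy N q * N = 1 := by exact_mod_cast bezout_bxy N q hq hqN
  push_cast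
  linear_combination (q : ℚ) * h

/-- `γ₀` in `w = γ₀ diag (q, 1)` -/
def gam0 (hq : q.Prime) (hqN : ¬ q ∣ N) : Gamma0 N :=
  ⟨sl (bx N q) (byy N q) N q (by linear_combination bezout_bxy N q hq hqN),
    mem_Gamma0_iff.mpr (by simp [sl])⟩

include hq hqN in
theorem wQ_eq : wQ N q = embG (gam0 hq hqN) * Dg q := by
  simp only [embG_apply, gam0]
  have hqQ : (q : ℚ) ≠ 0 := Nat.cast_ne_zero.mpr hq.ne_zero
  rw [wQ, emb_sl, Dg, gm_mul ?_ (by simpa using hqQ)]
  · push_cast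
    exact gm_ext (by ring) (by ring) (by ring) (by ring)
  · intro h0
    have h : (bx N q : ℚ) * q - byy N q * N = 1 := by exact_mod_cast bezout_bxy N q hq hqN
    push_cast at h0
    exact one_ne_zero (α := ℚ) (by linear_combination h0 - h)

include hq hqN in
/-- conjugation of integral matrices by the involution -/
theorem wQ_conj {a b c d δ : ℤ} (hdet : a * d - b * c = δ) (hδ : δ ≠ 0)
    (hc : ((N * q : ℕ) : ℤ) ∣ c) :
    ∃ a' b' c' d' : ℤ, a' * d' - b' * c' = δ ∧ ((N * q : ℕ) : ℤ) ∣ c' ∧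
      wQ N q * gm (a : ℚ) b c d = gm (a' : ℚ) b' c' d' * wQ N q := by
  obtain ⟨e, rfl⟩ := hc
  have h := bezout_bxy N q hq hqN
  set x := bx N q with hx
  set y := byy N q with hy
  push_cast at hdet ⊢
  set X : ℤ := x * a + y * (N * e) with hX
  set Y : ℤ := x * q * b + y * d with hY
  set Z : ℤ := N * a + q * (N * e) with hZ
  set T : ℤ := N * q * b + q * d with hT
  have hdet' : (q * X - N * Y) * (-y * Z + x * T) - (-y * X + x * Y) * (q * Z - N * T) = δ := by
    rw [hX, hY, hZ, hT]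
    linear_combination ((a * d - b * ((N : ℤ) * q * e)) * (x * q - y * N + 1)) * h + hdet
  refine ⟨q * X - N * Y, -y * X + x * Y, q * Z - N * T, -y * Z + x * T, hdet',
    ⟨a + q * e - N * b - d, by rw [hZ, hT]; ring⟩, ?_⟩
  have hqQ : (q : ℚ) ≠ 0 := Nat.cast_ne_zero.mpr hq.ne_zero
  have hδQ : ((δ : ℤ) : ℚ) ≠ 0 := by exact_mod_cast hδ
  have hw := det_wQ hq hqN
  rw [← hx, ← hy] at hw
  have hw' : ((q * x : ℤ) : ℚ) * q - (y : ℚ) * ((N * q : ℕ) : ℚ) ≠ 0 := by rw [hw]; exact hqQ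
  have hA : (a : ℚ) * d - (b : ℚ) * ((N : ℚ) * q * e) ≠ 0 := by
    rw [show (a : ℚ) * d - (b : ℚ) * ((N : ℚ) * q * e) = δ by exact_mod_cast hdet]
    exact hδQ
  have hA' : ((q * X - N * Y : ℤ) : ℚ) * ((-y * Z + x * T : ℤ) : ℚ) -
      ((-y * X + x * Y : ℤ) : ℚ) * ((q * Z - N * T : ℤ) : ℚ) ≠ 0 := by
    intro h0
    exact hδQ (((Int.cast_inj (α := ℚ)).mpr hdet').symm.trans (by push_cast at h0 ⊢; exact h0))
  rw [wQ, ← hx, ← hy, gm_mul hw' hA, gm_mul hA' hw']
  have hh : (x : ℚ) * q - y * N = 1 := by exact_mod_cast h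
  rw [hX, hY, hZ, hT]
  push_cast
  refine gm_ext ?_ ?_ ?_ ?_
  · linear_combination (-(q : ℚ) * (x * a + y * (N * e))) * hh
  · linear_combination (-((x : ℚ) * q * b + y * d)) * hh
  · linear_combination (-(q : ℚ) * ((N : ℚ) * a + q * (N * e))) * hh
  · linear_combination (-((N : ℚ) * q * b + q * d)) * hh

/-- the involution -/
def WC (hq : q.Prime) (hqN : ¬ q ∣ N) : Corr (N * q) (N * q) Unit where
  rep _ := wQ N q
  sep _ _ _ _ := rfl
  step γ _ := by
    obtain ⟨a, b, c, d, hdet, hc, e⟩ := wQ_conj hq hqN (det_SL (γ : SL(2, ℤ))) one_ne_zero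
      (mem_Gamma0_iff.mp γ.2)
    refine ⟨(), ⟨sl a b c d hdet, mem_Gamma0_iff.mpr hc⟩, ?_⟩
    simp only [embG_apply]
    rw [emb_eq, e, emb_sl]

/-- `w² = q γ` -/
def gamW (hq : q.Prime) (hqN : ¬ q ∣ N) : Gamma0 (N * q) :=
  ⟨sl (q * bx N q ^ 2 + byy N q * N) (byy N q * (bx N q + 1)) (N * q * (bx N q + 1))
    (N * byy N q + q) (by
      linear_combination (bx N q * (q : ℤ) - byy N q * N + 1) * bezout_bxy N q hq hqN),
    mem_Gamma0_iff.mpr (by simp [sl])⟩

include hq hqN in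
theorem wQ_sq : wQ N q * wQ N q = gm q 0 0 q * embG (gamW hq hqN) := by
  have hqQ : (q : ℚ) ≠ 0 := Nat.cast_ne_zero.mpr hq.ne_zero
  have hw : ((q * bx N q : ℤ) : ℚ) * q - (byy N q : ℚ) * ((N * q : ℕ) : ℚ) ≠ 0 := by
    rw [det_wQ hq hqN]; exact hqQ
  simp only [embG_apply, gamW]
  rw [wQ, emb_sl, gm_mul hw hw, gm_mul (by simpa using mul_ne_zero hqQ hqQ) ?_]
  · push_cast
    exact gm_ext (by ring) (by ring) (by ring) (by ring)
  · intro h0
    have h : (bx N q : ℚ) * q - byy N q * N = 1 := by exact_mod_cast bezout_bxy N q hq hqN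
    push_cast at h0
    exact one_ne_zero (α := ℚ) (by
      linear_combination h0 - ((bx N q : ℚ) * q - byy N q * N + 1) * h)

include hq hqN in
theorem wQ_conj_inv (g : Gamma0 (N * q)) :
    ∃ g' : Gamma0 (N * q), embG g * wQ N q = wQ N q * embG g' := by
  obtain ⟨⟨⟩, g'', hg⟩ := (WC hq hqN).step g ()
  change wQ N q * embG g = embG g'' * wQ N q at hg
  refine ⟨(gamW hq hqN)⁻¹ * g'' * gamW hq hqN, ?_⟩
  have hqQ : (q : ℚ) ≠ 0 := Nat.cast_ne_zero.mpr hq.ne_zero
  have e := wQ_sq hq hqN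
  refine mul_left_cancel (a := wQ N q) ?_
  rw [← mul_assoc, hg, mul_assoc, e, ← mul_assoc (wQ N q) (wQ N q), e, map_mul, map_mul, map_inv,
    ← mul_assoc (embG g''), ← scalar_comm hqQ]
  group

/-- the coset representatives of `Γ₀(Nq)` in `Γ₀(N)` -/
def epsSL (N q : ℕ) : OnePoint (ZMod q) → SL(2, ℤ)
  | Option.none => 1
  | Option.some b => sl 1 ((b.val : ℤ) - byy N q) (-(N : ℤ))
      (1 - (N : ℤ) * ((b.val : ℤ) - byy N q)) (by ring)

theorem epsSL_mem (i : OnePoint (ZMod q)) : epsSL N q i ∈ Gamma0 N := by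
  induction i using OnePoint.rec with
  | infty => exact Subgroup.one_mem _
  | coe b => exact mem_Gamma0_iff.mpr (dvd_neg.mpr dvd_rfl)

/-- the representatives as elements of `Γ₀(N)` -/
def epsG (i : OnePoint (ZMod q)) : Gamma0 N := ⟨epsSL N q i, epsSL_mem i⟩

include hq hqN in
theorem wQ_eps (i : OnePoint (ZMod q)) :
    wQ N q * emb (epsSL N q i) =
      if i = ∞ then wQ N q else tRep q i := by
  induction i using OnePoint.rec with
  | infty =>
    rw [if_pos rfl, show epsSL N q ∞ = 1 from rfl, map_one, mul_one]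
  | coe b =>
    rw [if_neg (OnePoint.coe_ne_infty b), tRep_coe]
    show wQ N q * emb (sl 1 ((b.val : ℤ) - byy N q) (-(N : ℤ))
      (1 - (N : ℤ) * ((b.val : ℤ) - byy N q)) (by ring)) = _
    have hqQ : (q : ℚ) ≠ 0 := Nat.cast_ne_zero.mpr hq.ne_zero
    rw [emb_sl, wQ, gm_mul (by rw [det_wQ hq hqN]; exact hqQ) ?_]
    · have h : (bx N q : ℚ) * q - byy N q * N = 1 := by exact_mod_cast bezout_bxy N q hq hqN
      push_cast
      refine gm_ext ?_ ?_ ?_ ?_
      · linear_combination h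
      · linear_combination ((b.val : ℕ) - (byy N q : ℚ)) * h
      · ring
      · ring
    · intro h0
      push_cast at h0
      exact one_ne_zero (α := ℚ) (by linear_combination h0)

/-- lower left entry of `A εᵢ⁻¹` -/
def lowEps (N q : ℕ) (c d : ℤ) : OnePoint (ZMod q) → ℤ
  | Option.none => c
  | Option.some b => c * (1 - (N : ℤ) * ((b.val : ℤ) - byy N q)) + d * N

theorem mul_eps_inv (A : SL(2, ℤ)) (j : OnePoint (ZMod q)) :
    (A * (epsSL N q j)⁻¹) 1 0 = lowEps N q (A 1 0) (A 1 1) j := by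
  induction j using OnePoint.rec with
  | infty => show (A * (1 : SL(2, ℤ))⁻¹) 1 0 = A 1 0; rw [inv_one, mul_one]
  | coe b =>
    rw [mul_apply_SL, Matrix.SpecialLinearGroup.coe_inv]
    show _ = A 1 0 * (1 - (N : ℤ) * ((b.val : ℤ) - byy N q)) + A 1 1 * N
    simp [epsSL, sl, Matrix.adjugate_fin_two]

include hq hqN in
/-- every bottom row is in one class -/
theorem exists_class {c d : ℤ} (hc : (N : ℤ) ∣ c) (hcd : (q : ℤ) ∣ c → ¬ (q : ℤ) ∣ d) :
    ∃ j, ((N * q : ℕ) : ℤ) ∣ lowEps N q c d j := by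
  haveI : Fact q.Prime := ⟨hq⟩
  have hcop : IsCoprime (N : ℤ) (q : ℤ) := by
    rw [Int.isCoprime_iff_gcd_eq_one, Int.gcd_natCast_natCast]
    exact (hq.coprime_iff_not_dvd.mpr hqN).symm
  push_cast
  by_cases h : (q : ℤ) ∣ c
  · exact ⟨∞, hcop.mul_dvd hc h⟩
  · have hc0 : (c : ZMod q) ≠ 0 := fun e => h ((ZMod.intCast_zmod_eq_zero_iff_dvd _ _).mp e)
    have hN0 : (N : ZMod q) ≠ 0 := fun e => hqN ((ZMod.natCast_eq_zero_iff N q).mp e)
    set b : ZMod q := (d : ZMod q) / c + (N : ZMod q)⁻¹ + (byy N q : ℤ) with hb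
    refine ⟨(b : OnePoint (ZMod q)), hcop.mul_dvd ?_ ?_⟩
    · exact dvd_add (hc.mul_right _) (dvd_mul_left _ _)
    · rw [← ZMod.intCast_zmod_eq_zero_iff_dvd]
      show ((c * (1 - (N : ℤ) * ((b.val : ℤ) - byy N q)) + d * N : ℤ) : ZMod q) = 0
      push_cast
      rw [ZMod.natCast_zmod_val, hb]
      field_simp
      ring

include hq hqN in
theorem eps_sep {i j : OnePoint (ZMod q)} (h : (q : ℤ) ∣ (epsSL N q i * (epsSL N q j)⁻¹) 1 0) :
    i = j := by
  haveI : Fact q.Prime := ⟨hq⟩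
  rw [mul_eps_inv, ← ZMod.intCast_zmod_eq_zero_iff_dvd] at h
  have hN0 : (N : ZMod q) ≠ 0 := fun e => hqN ((ZMod.natCast_eq_zero_iff N q).mp e)
  induction i using OnePoint.rec with
  | infty =>
    induction j using OnePoint.rec with
    | infty => rfl
    | coe b =>
      exfalso
      refine hN0 ?_
      simpa [lowEps, epsSL, OnePoint.some] using h
  | coe a =>
    induction j using OnePoint.rec with
    | infty =>
      exfalso
      refine hN0 ?_
      change (((-(N : ℤ)) : ℤ) : ZMod q) = 0 at h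
      simpa using h
    | coe b =>
      change (((-(N : ℤ)) * (1 - (N : ℤ) * ((b.val : ℤ) - byy N q)) +
        (1 - (N : ℤ) * ((a.val : ℤ) - byy N q)) * N : ℤ) : ZMod q) = 0 at h
      push_cast at h
      rw [ZMod.natCast_zmod_val, ZMod.natCast_zmod_val] at h
      have : (N : ZMod q) * N * (b - a) = 0 := by linear_combination h
      rw [sub_eq_zero.mp ((mul_eq_zero.mp this).resolve_left (mul_ne_zero hN0 hN0))]

/-- the trace from level `Nq` to level `N` -/
def epsC (hq : q.Prime) (hqN : ¬ q ∣ N) : Corr (N * q) N (OnePoint (ZMod q)) where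
  rep i := emb (epsSL N q i)
  sep i j g h := by
    refine eps_sep hq hqN ?_
    have e : epsSL N q i = (g : SL(2, ℤ)) * epsSL N q j := emb_injective (by rw [map_mul]; exact h)
    rw [e, mul_inv_cancel_right]
    exact (Int.natCast_dvd_natCast.mpr (dvd_mul_left q N)).trans (mem_Gamma0_iff.mp g.2)
  step γ i := by
    set A : SL(2, ℤ) := epsSL N q i * (γ : SL(2, ℤ)) with hA
    have hAm : A ∈ Gamma0 N := Subgroup.mul_mem _ (epsSL_mem i) γ.2
    obtain ⟨j, hj⟩ := exists_class hq hqN (mem_Gamma0_iff.mp hAm) (d := A 1 1) fun h1 h2 =>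
      hq.not_dvd_one (Int.natCast_dvd_natCast.mp (by
        rw [Nat.cast_one, ← det_SL A]; exact dvd_sub (h2.mul_left _) (h1.mul_left _)))
    refine ⟨j, ⟨A * (epsSL N q j)⁻¹, mem_Gamma0_iff.mpr (by rw [mul_eps_inv]; exact hj)⟩, ?_⟩
    simp only [embG_apply]
    rw [← map_mul, ← map_mul, inv_mul_cancel_right]

/-- `U_q` at level `M` -/
def UC (M q : ℕ) [NeZero q] (hq : q.Prime) (hqM : q ∣ M) : Corr M M (ZMod q) where
  rep b := tRep q (b : OnePoint (ZMod q))
  sep i j g h := OnePoint.coe_injective (tRep_sep hq _ _ g h)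
  step γ i := by
    have hd := det_SL (γ : SL(2, ℤ))
    have hqc : (q : ℤ) ∣ (γ : SL(2, ℤ)) 1 0 :=
      (Int.natCast_dvd_natCast.mpr hqM).trans (mem_Gamma0_iff.mp γ.2)
    obtain ⟨k, g, e⟩ := exists_fin (M := M) hq (a := (γ : SL(2, ℤ)) 0 0 + i.val * (γ : SL(2, ℤ)) 1 0)
      (b := (γ : SL(2, ℤ)) 0 1 + i.val * (γ : SL(2, ℤ)) 1 1) (c := q * (γ : SL(2, ℤ)) 1 0)
      (d := q * (γ : SL(2, ℤ)) 1 1) (by linear_combination (q : ℤ) * hd)
      ((mem_Gamma0_iff.mp γ.2).mul_left _) (fun h => hq.not_dvd_one (Int.natCast_dvd_natCast.mp (by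
        rw [Nat.cast_one, ← hd]
        exact dvd_sub (((dvd_add_left (hqc.mul_left _)).mp h).mul_right _) (hqc.mul_left _))))
    refine ⟨k, g, ?_⟩
    rw [tRep_coe, tRep_coe, ← e]
    simp only [embG_apply]
    have hqQ : (q : ℚ) ≠ 0 := Nat.cast_ne_zero.mpr hq.ne_zero
    rw [emb_eq, gm_mul (by simpa using hqQ) (by rw [det_SL_cast]; norm_num)]
    exact gm_ext (by push_cast; ring) (by push_cast; ring) (by push_cast; ring) (by push_cast; ring)

variable {V : Type} [AddCommGroup V]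

/-- `α₁` -/
def al1 (N q : ℕ) : HomG N V →+ HomG (N * q) V := (resC (dvd_mul_right N q)).op

/-- `α₂` -/
def al2 (N q : ℕ) [NeZero q] : HomG N V →+ HomG (N * q) V := (etaC N q).op

/-- the involution on homomorphisms -/
def Wop (hq : q.Prime) (hqN : ¬ q ∣ N) : HomG (N * q) V →+ HomG (N * q) V := (WC hq hqN).op

/-- `β₁` -/
def be1 (hq : q.Prime) (hqN : ¬ q ∣ N) : HomG (N * q) V →+ HomG N V := (epsC hq hqN).op

/-- `β₂` -/
def be2 (hq : q.Prime) (hqN : ¬ q ∣ N) : HomG (N * q) V →+ HomG N V :=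
  (be1 hq hqN).comp (Wop hq hqN)

theorem Wop_Wop (φ : HomG (N * q) V) : Wop hq hqN (Wop hq hqN φ) = φ := by
  have h := (WC hq hqN).op_op (WC hq hqN) (resC (dvd_refl (N * q))) (Equiv.punitProd Unit)
    (fun _ => gamW hq hqN) (c := (q : ℚ)) (Nat.cast_ne_zero.mpr hq.ne_zero) (fun _ _ => by
      show wQ N q * wQ N q = _ * (_ * 1)
      rw [mul_one, wQ_sq hq hqN]) φ
  refine h.trans (AddMonoidHom.ext fun x => ?_)
  obtain ⟨γ, rfl⟩ := Additive.ofMul.surjective x
  rw [resC_op]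

theorem Wop_al1 (φ : HomG N V) : Wop hq hqN (al1 N q φ) = al2 N q φ :=
  (resC (dvd_mul_right N q)).op_op (WC hq hqN) (etaC N q) (Equiv.punitProd Unit)
    (fun _ => gam0 hq hqN) one_ne_zero (fun _ _ => by
      show 1 * wQ N q = _
      rw [one_mul, gm_id, one_mul]
      exact wQ_eq hq hqN) φ

theorem Wop_al2 (φ : HomG N V) : Wop hq hqN (al2 N q φ) = al1 N q φ := by
  rw [← Wop_al1 hq hqN, Wop_Wop]

theorem be1_al1 (φ : HomG N V) : be1 hq hqN (al1 N q φ) = (q + 1) • φ := by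
  refine AddMonoidHom.ext fun x => ?_
  obtain ⟨γ, rfl⟩ := Additive.ofMul.surjective x
  set σ := (epsC hq hqN).perm γ
  set g := (epsC hq hqN).mult γ
  have hg : ∀ i, (⟨g i, Gamma0_le_of_dvd (dvd_mul_right N q) (g i).2⟩ : Gamma0 N) =
      epsG i * γ * (epsG (σ i))⁻¹ := fun i => by
    refine embG_injective ?_
    have e := (epsC hq hqN).rel_mult γ i
    rw [map_mul, map_mul, map_inv, eq_mul_inv_iff_mul_eq]
    exact e.symm
  show (epsC hq hqN).op _ _ = _
  rw [(epsC hq hqN).op_apply ((epsC hq hqN).rel_mult γ)]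
  simp only [al1, resC_op, g] at hg ⊢
  simp only [hg, ofMul_mul, ofMul_inv, map_add, map_neg, Finset.sum_add_distrib,
    Finset.sum_neg_distrib, Equiv.sum_comp σ (fun i => φ (Additive.ofMul (epsG i : Gamma0 N))),
    Finset.sum_const, Finset.card_univ, AddMonoidHom.smul_apply]
  rw [show Fintype.card (OnePoint (ZMod q)) = q + 1 from
    (Fintype.card_option (α := ZMod q)).trans (by rw [ZMod.card])]
  abel

theorem be2_al2 (φ : HomG N V) : be2 hq hqN (al2 N q φ) = (q + 1) • φ := by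
  rw [be2, AddMonoidHom.comp_apply, Wop_al2, be1_al1]

theorem be1_al2 (φ : HomG N V) :
    be1 hq hqN (al2 N q φ) = (TC N N q hq dvd_rfl hqN).op φ := by
  refine (etaC N q).op_op (epsC hq hqN) (TC N N q hq dvd_rfl hqN) (Equiv.prodPUnit _)
    (fun p => if p.1 = ∞ then 1 else (gam0 hq hqN)⁻¹) one_ne_zero (fun k _ => ?_) φ
  show Dg (q : ℚ) * emb (epsSL N q k) = gm 1 0 0 1 * (_ * tRep q k)
  rw [gm_id, one_mul]
  by_cases hk : k = ∞
  · subst hk
    rw [if_pos rfl, show epsSL N q ∞ = 1 from rfl, map_one, map_one, mul_one, one_mul, tRep_infty]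
  · rw [if_neg hk, map_inv]
    have h := wQ_eps hq hqN k
    rw [if_neg hk, wQ_eq hq hqN, mul_assoc] at h
    rw [← h, inv_mul_cancel_left]

theorem be2_al1 (φ : HomG N V) :
    be2 hq hqN (al1 N q φ) = (TC N N q hq dvd_rfl hqN).op φ := by
  rw [be2, AddMonoidHom.comp_apply, Wop_al1, be1_al2]

/-- `α₁ β₂ = U + W` -/
theorem al1_be2 (h : HomG (N * q) V) :
    al1 N q (be2 hq hqN h) = (UC (N * q) q hq (dvd_mul_left q N)).op h + Wop hq hqN h := by
  refine AddMonoidHom.ext fun x => ?_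
  obtain ⟨γ, rfl⟩ := Additive.ofMul.surjective x
  set γN : Gamma0 N := ⟨γ, Gamma0_le_of_dvd (dvd_mul_right N q) γ.2⟩
  set σ := (epsC hq hqN).perm γN with hσ
  set g := (epsC hq hqN).mult γN with hg
  have hr := (epsC hq hqN).rel_mult γN
  rw [← hσ, ← hg] at hr
  have h0 : σ ∞ = ∞ ∧ g ∞ = γ := by
    have e : embG γN = embG (g ∞) * emb (epsSL N q (σ ∞)) := by
      have := hr ∞
      change emb (1 : SL(2, ℤ)) * _ = _ at this
      rwa [map_one, one_mul] at this
    have hs : σ ∞ = ∞ := (epsC hq hqN).sep _ _ ((g ∞)⁻¹ * γ) (by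
      show emb (epsSL N q (σ ∞)) = _ * emb (1 : SL(2, ℤ))
      rw [map_one, mul_one, map_mul, map_inv, eq_inv_mul_iff_mul_eq, ← e]; rfl)
    refine ⟨hs, embG_injective ?_⟩
    rw [hs, show epsSL N q ∞ = 1 from rfl, map_one, mul_one] at e
    exact e.symm
  have hsome : ∀ b : ZMod q,
      σ (b : OnePoint (ZMod q)) = ((Equiv.removeNone σ b : ZMod q) : OnePoint (ZMod q)) := by
    intro b
    refine (Equiv.removeNone_some σ ?_).symm
    rcases hb : σ (Option.some b) with _ | b'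
    · exact absurd (σ.injective (hb.trans h0.1.symm)) (Option.some_ne_none b)
    · exact ⟨b', rfl⟩
  have hU : (UC (N * q) q hq (dvd_mul_left q N)).Rel γ (Equiv.removeNone σ)
      (fun b : ZMod q => (WC hq hqN).mult (g b) ()) := by
    intro b
    have hw := (WC hq hqN).rel_mult (g b) ()
    change wQ N q * embG (g b) = embG ((WC hq hqN).mult (g b) ()) * wQ N q at hw
    have e := wQ_eps hq hqN (b : OnePoint (ZMod q))
    rw [if_neg (OnePoint.coe_ne_infty b)] at e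
    have e' := wQ_eps hq hqN ((Equiv.removeNone σ b : ZMod q) : OnePoint (ZMod q))
    rw [if_neg (OnePoint.coe_ne_infty _), ← hsome] at e'
    show tRep q _ * embG γ = _ * tRep q _
    rw [← e, ← hsome, ← e', ← mul_assoc, ← hw, mul_assoc, mul_assoc]
    congr 1
    exact hr b
  show al1 N q (be1 hq hqN (Wop hq hqN h)) _ = _
  rw [al1, resC_op]
  show (epsC hq hqN).op _ _ = _
  rw [(epsC hq hqN).op_apply hr, AddMonoidHom.add_apply, Corr.op_apply _ hU]
  refine (Fintype.sum_option (α := ZMod q)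
    (fun i : OnePoint (ZMod q) => Wop hq hqN h (Additive.ofMul (g i)))).trans ?_
  rw [add_comm]
  congr 1
  · refine Finset.sum_congr rfl fun b _ => ?_
    show (WC hq hqN).op h _ = _
    rw [(WC hq hqN).op_apply ((WC hq hqN).rel_mult _), Fintype.sum_unique]
    rfl
  · show Wop hq hqN h (Additive.ofMul (g ∞)) = _
    rw [h0.2]

section Comm

variable {ℓ : ℕ} [NeZero ℓ] (hℓ : ℓ.Prime) (hℓM : ¬ ℓ ∣ N * q)

include hℓM in
theorem not_dvd_left' : ¬ ℓ ∣ N := fun h => hℓM (h.mul_right q)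

theorem al1_TC (φ : HomG N V) :
    al1 N q ((TC N N ℓ hℓ dvd_rfl (not_dvd_left' hℓM)).op φ) =
      (TC (N * q) (N * q) ℓ hℓ dvd_rfl hℓM).op (al1 N q φ) := by
  set R := TC N (N * q) ℓ hℓ (dvd_mul_right N q) (not_dvd_left' hℓM)
  have h1 := (TC N N ℓ hℓ dvd_rfl (not_dvd_left' hℓM)).op_op (resC (dvd_mul_right N q)) R
    (Equiv.punitProd _) (fun _ => 1) one_ne_zero (fun _ i => by
      show tRep ℓ i * 1 = gm 1 0 0 1 * (embG 1 * tRep ℓ i)
      rw [gm_id, map_one, mul_one, one_mul, one_mul]) φ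
  have h2 := (resC (dvd_mul_right N q)).op_op (TC (N * q) (N * q) ℓ hℓ dvd_rfl hℓM) R
    (Equiv.prodPUnit _) (fun _ => 1) one_ne_zero (fun k _ => by
      show 1 * tRep ℓ k = gm 1 0 0 1 * (embG 1 * tRep ℓ k)
      rw [gm_id, map_one, one_mul, one_mul]) φ
  exact h1.trans h2.symm

/-- multiplication of the indices by `q` -/
def mulPerm (hℓ : ℓ.Prime) (hℓq : ¬ ℓ ∣ q) : OnePoint (ZMod ℓ) ≃ OnePoint (ZMod ℓ) :=
  haveI : Fact ℓ.Prime := ⟨hℓ⟩
  Equiv.optionCongr (Equiv.mulLeft₀ (q : ZMod ℓ)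
    (fun h => hℓq ((ZMod.natCast_eq_zero_iff q ℓ).mp h)))

theorem al2_TC (φ : HomG N V) :
    al2 N q ((TC N N ℓ hℓ dvd_rfl (not_dvd_left' hℓM)).op φ) =
      (TC (N * q) (N * q) ℓ hℓ dvd_rfl hℓM).op (al2 N q φ) := by
  haveI : Fact ℓ.Prime := ⟨hℓ⟩
  have hℓq : ¬ ℓ ∣ q := fun h => hℓM (h.mul_left N)
  set R := (TC N N ℓ hℓ dvd_rfl (not_dvd_left' hℓM)).comp1 (etaC N q)
  have h1 := ((TC N N ℓ hℓ dvd_rfl (not_dvd_left' hℓM)).op_comp1 (etaC N q) φ).symm
  have hex : ∀ k : OnePoint (ZMod ℓ), ∃ a : Gamma0 N,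
      Dg (q : ℚ) * tRep ℓ k = embG a * (tRep ℓ (mulPerm hℓ hℓq k) * Dg (q : ℚ)) := by
    intro k
    have hqQ : (q : ℚ) ≠ 0 := Nat.cast_ne_zero.mpr (NeZero.ne q)
    have hℓQ : (ℓ : ℚ) ≠ 0 := Nat.cast_ne_zero.mpr hℓ.ne_zero
    induction k using OnePoint.rec with
    | infty =>
      refine ⟨1, ?_⟩
      show Dg (q : ℚ) * tRep ℓ ∞ = _ * (tRep ℓ ∞ * _)
      rw [map_one, one_mul, tRep_infty, Dg_mul hqQ hℓQ, Dg_mul hℓQ hqQ, mul_comm]
    | coe b =>
      set b' : ZMod ℓ := (q : ZMod ℓ) * b with hb'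
      obtain ⟨m, hm⟩ : (ℓ : ℤ) ∣ (q : ℤ) * b.val - b'.val := by
        rw [← ZMod.intCast_zmod_eq_zero_iff_dvd]
        push_cast
        rw [ZMod.natCast_zmod_val, ZMod.natCast_zmod_val, hb', sub_self]
      refine ⟨⟨sl 1 m 0 1 (by ring), mem_Gamma0_iff.mpr (by simp [sl])⟩, ?_⟩
      show Dg (q : ℚ) * tRep ℓ (b : OnePoint (ZMod ℓ)) =
        emb (sl 1 m 0 1 (by ring)) * (tRep ℓ (b' : OnePoint (ZMod ℓ)) * Dg (q : ℚ))
      rw [← U_int, tRep_coe, tRep_coe, Dg, U, gm_mul (by simpa using hqQ) (by simpa using hℓQ),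
        gm_mul (by simpa using hℓQ) (by simpa using hqQ), gm_mul (by norm_num) (by simp [hℓQ, hqQ])]
      have hm' := congrArg (Int.cast : ℤ → ℚ) hm
      push_cast at hm'
      exact gm_ext (by ring) (by linear_combination hm') (by ring) (by ring)
  choose a ha using hex
  have h2 := (etaC N q).op_op (TC (N * q) (N * q) ℓ hℓ dvd_rfl hℓM) R
    ((Equiv.prodPUnit _).trans (mulPerm hℓ hℓq)) (fun p => a p.1) one_ne_zero (fun k _ => by
      show Dg (q : ℚ) * tRep ℓ k = gm 1 0 0 1 * _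
      rw [gm_id, one_mul]
      exact ha k) φ
  exact h1.trans h2.symm

theorem Wop_TC (φ : HomG (N * q) V) :
    Wop hq hqN ((TC (N * q) (N * q) ℓ hℓ dvd_rfl hℓM).op φ) =
      (TC (N * q) (N * q) ℓ hℓ dvd_rfl hℓM).op (Wop hq hqN φ) := by
  set T := TC (N * q) (N * q) ℓ hℓ dvd_rfl hℓM
  have hex : ∀ k : OnePoint (ZMod ℓ), ∃ (t : OnePoint (ZMod ℓ)) (a : Gamma0 (N * q)),
      wQ N q * tRep ℓ k = embG a * (tRep ℓ t * wQ N q) := by
    intro k
    obtain ⟨a0, b0, d0, had, e⟩ := tRep_int k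
    obtain ⟨a, b, c, d, hdet, hc, e'⟩ := wQ_conj hq hqN (a := a0) (b := b0) (c := 0) (d := d0)
      (δ := (ℓ : ℤ)) (by linear_combination had) (Int.natCast_ne_zero.mpr hℓ.ne_zero) (dvd_zero _)
    obtain ⟨t, g, e''⟩ := exists_tRep hℓ hℓM hdet hc
    exact ⟨t, g, by rw [e, ← mul_assoc, ← e'', ← e']; push_cast; rfl⟩
  choose t a ha using hex
  have hinj : Function.Injective t := fun i j hij => by
    obtain ⟨g', hg'⟩ := wQ_conj_inv hq hqN (a i * (a j)⁻¹)
    refine tRep_sep hℓ i j (g' : SL(2, ℤ)) (mul_left_cancel (a := wQ N q) ?_)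
    show wQ N q * tRep ℓ i = wQ N q * (embG g' * tRep ℓ j)
    rw [← mul_assoc, ← hg', map_mul, map_inv, ha i, hij, mul_assoc, mul_assoc, ha j]
    group
  have h1 := (T.op_comp1 (WC hq hqN) φ).symm
  have h2 := (WC hq hqN).op_op T (T.comp1 (WC hq hqN))
    ((Equiv.prodPUnit _).trans (Equiv.ofBijective t (Finite.injective_iff_bijective.mp hinj)))
    (fun p => a p.1) one_ne_zero (fun k _ => by
      show wQ N q * tRep ℓ k = gm 1 0 0 1 * _
      rw [gm_id, one_mul]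
      exact ha k) φ
  exact h1.trans h2.symm

theorem be1_TC (φ : HomG (N * q) V) :
    be1 hq hqN ((TC (N * q) (N * q) ℓ hℓ dvd_rfl hℓM).op φ) =
      (TC N N ℓ hℓ dvd_rfl (not_dvd_left' hℓM)).op (be1 hq hqN φ) := by
  have hcl : ∀ {a b c d : ℤ}, a * d - b * c = ℓ → (N : ℤ) ∣ c →
      ∃ (p : OnePoint (ZMod ℓ) × OnePoint (ZMod q)) (g : Gamma0 (N * q)),
        gm (a : ℚ) b c d = embG g * (tRep ℓ p.1 * emb (epsSL N q p.2)) := by
    intro a b c d hdet hc
    have hcd : (q : ℤ) ∣ c → ¬ (q : ℤ) ∣ d := fun h1 h2 => by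
      have h3 : (q : ℤ) ∣ (ℓ : ℤ) := hdet ▸ dvd_sub (h2.mul_left _) (h1.mul_left _)
      exact hℓM ((Nat.prime_dvd_prime_iff_eq hq hℓ).mp (Int.natCast_dvd_natCast.mp h3) ▸
        dvd_mul_left q N)
    obtain ⟨j, hj⟩ := exists_class hq hqN hc hcd
    -- the product with the inverse representative
    set E := (epsSL N q j)⁻¹ with hE
    have hlow : lowEps N q c d j = c * E 0 0 + d * E 1 0 := by
      induction j using OnePoint.rec with
      | infty => simp [hE, lowEps, epsSL]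
      | coe b =>
        show c * _ + d * _ = _
        rw [hE, Matrix.SpecialLinearGroup.coe_inv]
        simp [epsSL, sl, Matrix.adjugate_fin_two]
    obtain ⟨t, g, e⟩ := exists_tRep (M := N * q) hℓ hℓM
      (a := a * E 0 0 + b * E 1 0) (b := a * E 0 1 + b * E 1 1) (c := c * E 0 0 + d * E 1 0)
      (d := c * E 0 1 + d * E 1 1) (by linear_combination hdet + (a * d - b * c) * det_SL E)
      (hlow ▸ hj)
    refine ⟨(t, j), g, ?_⟩
    show _ = embG g * (tRep ℓ t * emb (epsSL N q j))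
    rw [← mul_assoc, ← e]
    have hd1 : (a : ℚ) * d - b * c ≠ 0 := by
      rw [show (a : ℚ) * d - b * c = ((ℓ : ℤ) : ℚ) by exact_mod_cast hdet]
      exact_mod_cast hℓ.ne_zero
    have e2 : gm ((a * E 0 0 + b * E 1 0 : ℤ) : ℚ) (a * E 0 1 + b * E 1 1 : ℤ)
        (c * E 0 0 + d * E 1 0 : ℤ) (c * E 0 1 + d * E 1 1 : ℤ) = gm (a : ℚ) b c d * emb E := by
      rw [emb_eq, gm_mul hd1 (by rw [det_SL_cast]; norm_num)]
      push_cast
      rfl
    rw [e2, hE, map_inv, inv_mul_cancel_right]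
  -- the composite correspondence
  let R : Corr (N * q) N (OnePoint (ZMod ℓ) × OnePoint (ZMod q)) :=
    { rep := fun p => tRep ℓ p.1 * emb (epsSL N q p.2)
      sep := fun p p' g h => by
        obtain ⟨a0, b0, d0, had, e⟩ := tRep_int p.1
        obtain ⟨a1, b1, d1, had1, e1⟩ := tRep_int p'.1
        set Z := epsSL N q p.2 * (epsSL N q p'.2)⁻¹ with hZ
        have h' : tRep ℓ p.1 * emb Z = embG g * tRep ℓ p'.1 := by
          rw [hZ, map_mul, map_inv, ← mul_assoc, h]; group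
        have hqd : ¬ (q : ℤ) ∣ d0 := fun hd => by
          have h3 : (q : ℤ) ∣ (ℓ : ℤ) := had ▸ hd.mul_left _
          exact hℓM ((Nat.prime_dvd_prime_iff_eq hq hℓ).mp (Int.natCast_dvd_natCast.mp h3) ▸
            dvd_mul_left q N)
        have h10 : d0 * Z 1 0 = ((g : SL(2, ℤ)) 1 0) * a1 := by
          have := congrArg (fun X : GQ => (X : Matrix (Fin 2) (Fin 2) ℚ) 1 0) h'
          have hℓQ : ((ℓ : ℤ) : ℚ) ≠ 0 := by exact_mod_cast hℓ.ne_zero
          have hn0 : (a0 : ℚ) * d0 - b0 * 0 ≠ 0 := by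
            rw [mul_zero, sub_zero, show (a0 : ℚ) * d0 = ((ℓ : ℤ) : ℚ) by exact_mod_cast had]
            exact hℓQ
          have hn1 : (a1 : ℚ) * d1 - b1 * 0 ≠ 0 := by
            rw [mul_zero, sub_zero, show (a1 : ℚ) * d1 = ((ℓ : ℤ) : ℚ) by exact_mod_cast had1]
            exact hℓQ
          simp [e, e1, val_gm hn0, val_gm hn1, Units.val_mul, Matrix.mul_apply,
            Fin.sum_univ_two] at this
          exact_mod_cast this
        have hq2 : p.2 = p'.2 := by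
          refine eps_sep hq hqN ?_
          have hd : (q : ℤ) ∣ d0 * Z 1 0 := h10 ▸ (((Int.natCast_dvd_natCast.mpr
            (dvd_mul_left q N)).trans (mem_Gamma0_iff.mp g.2)).mul_right _)
          exact ((Nat.prime_iff_prime_int.mp hq).dvd_or_dvd hd).resolve_left hqd
        refine Prod.ext (tRep_sep hℓ _ _ (g : SL(2, ℤ)) ?_) hq2
        rw [hZ, hq2, mul_inv_cancel, map_one, mul_one] at h'
        exact h'
      step := fun γ p => by
        obtain ⟨a, b, c, d, hdet, hc, e⟩ := tRep_mul_int p.1 (epsSL N q p.2 * (γ : SL(2, ℤ)))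
        obtain ⟨p', g, e'⟩ := hcl hdet
          ((mem_Gamma0_iff.mp (Subgroup.mul_mem _ (epsSL_mem p.2) γ.2)).trans hc)
        exact ⟨p', g, by simp only [embG_apply]; rw [mul_assoc, ← map_mul, e, e', embG_apply]⟩ }
  have h1 := (TC (N * q) (N * q) ℓ hℓ dvd_rfl hℓM).op_op (epsC hq hqN) R (Equiv.prodComm _ _)
    (fun _ => 1) one_ne_zero (fun k i => by
      show tRep ℓ i * emb (epsSL N q k) = gm 1 0 0 1 * (embG 1 * (tRep ℓ i * emb (epsSL N q k)))
      rw [gm_id, map_one, one_mul, one_mul]) φ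
  have hex : ∀ x : OnePoint (ZMod ℓ) × OnePoint (ZMod q),
      ∃ (p : OnePoint (ZMod ℓ) × OnePoint (ZMod q)) (g : Gamma0 (N * q)),
        emb (epsSL N q x.2) * tRep ℓ x.1 = embG g * (tRep ℓ p.1 * emb (epsSL N q p.2)) := by
    rintro ⟨k, i⟩
    obtain ⟨a, b, d, had, e⟩ := tRep_int k
    set F := epsSL N q i
    obtain ⟨p, g, e'⟩ := hcl (a := F 0 0 * a) (b := F 0 0 * b + F 0 1 * d) (c := F 1 0 * a)
      (d := F 1 0 * b + F 1 1 * d) (by linear_combination had + (a * d) * det_SL F)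
      ((mem_Gamma0_iff.mp (epsSL_mem i)).mul_right _)
    refine ⟨p, g, ?_⟩
    rw [← e', e, emb_eq, gm_mul (by rw [det_SL_cast]; norm_num) (by
      rw [mul_zero, sub_zero, show (a : ℚ) * d = ((ℓ : ℤ) : ℚ) by exact_mod_cast had]
      exact_mod_cast hℓ.ne_zero)]
    push_cast
    exact gm_ext (by ring) (by ring) (by ring) (by ring)
  choose p g hp using hex
  have hinj : Function.Injective p := fun x y hxy => by
    have h1 : emb (epsSL N q x.2) * tRep ℓ x.1 =
        embG (g x * (g y)⁻¹) * (emb (epsSL N q y.2) * tRep ℓ y.1) := by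
      rw [hp x, hxy, map_mul, map_inv, hp y]; group
    have hx : x.1 = y.1 := tRep_sep hℓ _ _
      ((epsSL N q x.2)⁻¹ * ((g x * (g y)⁻¹ : Gamma0 (N * q)) : SL(2, ℤ)) * epsSL N q y.2)
      (mul_left_cancel (a := emb (epsSL N q x.2)) (by
        rw [h1]
        generalize g x * (g y)⁻¹ = X
        simp only [embG_apply, map_mul, map_inv]
        group))
    refine Prod.ext hx ?_
    rw [hx, ← mul_assoc] at h1
    exact (epsC hq hqN).sep _ _ _ (mul_right_cancel h1)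
  have h2 := (epsC hq hqN).op_op (TC N N ℓ hℓ dvd_rfl (not_dvd_left' hℓM)) R
    (Equiv.ofBijective p (Finite.injective_iff_bijective.mp hinj)) g one_ne_zero (fun k i => by
      show emb (epsSL N q i) * tRep ℓ k = gm 1 0 0 1 * _
      rw [gm_id, one_mul]
      exact hp (k, i)) φ
  exact h1.trans h2.symm

theorem be2_TC (φ : HomG (N * q) V) :
    be2 hq hqN ((TC (N * q) (N * q) ℓ hℓ dvd_rfl hℓM).op φ) =
      (TC N N ℓ hℓ dvd_rfl (not_dvd_left' hℓM)).op (be2 hq hqN φ) := by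
  rw [be2, AddMonoidHom.comp_apply, AddMonoidHom.comp_apply, Wop_TC, be1_TC]

end Comm

end FLTAgent.LR
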