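import Fermat.Agent.LR.Galois
import Fermat.Agent.LR.Eigen
import Fermat.Agent.LR.Lattice
import Fermat.Agent.TOR.MazurAbsent
import Fermat.Agent.TOR.MazurModel
import Fermat.Agent.Attach.Integers
import Fermat.Agent.Alg.DeligneSerre
import Fermat.Prelude.Def_FLTPrelim_ModularRep
import Fermat.Prelude.Def_FreyPackage_LevelRaising

/-!
Level raising at one prime: the congruent eigensystem occurs in the part of level `Nq` killed by
both trace maps.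
-/

set_option autoImplicit false
set_option linter.unusedSectionVars false
set_option linter.style.haveILetI false

noncomputable section

open Matrix CongruenceSubgroup ModularCurve.Period
open ModularFormClass (qCoeff)
open FLTAgent.Attach (TFull S2)
open scoped MatrixGroups

namespace FLTAgent.LR

variable {p : ℕ} {M A B : ℕ}

/-- reduction modulo `p` -/
def red (p M : ℕ) : HomG M ℤ →+ HomG M (ZMod p) :=
  AddMonoidHom.compHom (Int.castAddHom (ZMod p))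

theorem red_apply (φ : HomG M ℤ) (x : Additive (Gamma0 M)) : red p M φ x = (φ x : ZMod p) := rfl

theorem red_op {ι : Type} [Fintype ι] (C : Corr A B ι) (φ : HomG A ℤ) :
    red p B (C.op φ) = C.op (red p A φ) := (C.op_comp (Int.castAddHom (ZMod p)) φ).symm

theorem red_p_smul (φ : HomG M ℤ) : red p M ((p : ℤ) • φ) = 0 :=
  AddMonoidHom.ext fun x => by simp [red_apply]

theorem exists_hom_div (hp : p ≠ 0) {φ : HomG M ℤ} (h : red p M φ = 0) :
    ∃ z : HomG M ℤ, φ = (p : ℤ) • z := by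
  have hd : ∀ x, (p : ℤ) ∣ φ x := fun x =>
    (ZMod.intCast_zmod_eq_zero_iff_dvd _ _).1 (DFunLike.congr_fun h x)
  refine ⟨AddMonoidHom.mk' (fun x => φ x / p) (fun a b => by
    rw [map_add, Int.add_ediv_of_dvd_left (hd a)]), AddMonoidHom.ext fun x => ?_⟩
  show φ x = (p : ℤ) • (φ x / p)
  rw [smul_eq_mul, Int.mul_ediv_cancel' (hd x)]

theorem exists_lam_div [NeZero M] (hp : p ≠ 0) {φ : JTors.Lam M} (h : red p M φ.1 = 0) :
    ∃ z : JTors.Lam M, φ = (p : ℤ) • z := by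
  obtain ⟨z, hz⟩ := exists_hom_div hp h
  refine ⟨⟨z, fun γ hγ => ?_⟩, Subtype.ext (by rw [hz]; rfl)⟩
  have h0 : φ.1 (Additive.ofMul γ) = 0 := φ.2 γ hγ
  rw [hz] at h0
  change (p : ℤ) • z (Additive.ofMul γ) = 0 at h0
  exact (smul_eq_zero.1 h0).resolve_left (Int.natCast_ne_zero.2 hp)

theorem eq_zero_of_zsmul [Fact p.Prime] {m : ℤ} (hm : ¬ (p : ℤ) ∣ m) {φ : HomG M (ZMod p)}
    (h : m • φ = 0) : φ = 0 := by
  refine AddMonoidHom.ext fun x => ?_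
  have h' : (m : ZMod p) * φ x = 0 := by rw [← zsmul_eq_mul]; exact DFunLike.congr_fun h x
  exact (mul_eq_zero.1 h').resolve_left fun hz => hm ((ZMod.intCast_zmod_eq_zero_iff_dvd _ _).1 hz)

theorem coe_sq_eq_one {R : Type} [CommRing R] (χ : R →+* integralClosure ℤ ℂ) {u : R} (h : u * u = 1) :
    ((χ u : ℂ)) ^ 2 = 1 := by
  have h2 : χ u * χ u = 1 := by rw [← map_mul, h, map_one]
  rw [pow_two]
  exact (Subalgebra.coe_mul _ (χ u) (χ u)).symm.trans (congrArg Subtype.val h2)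

section Ops

variable {V : Type} [AddCommGroup V] {ℓ : ℕ} [NeZero ℓ] (hℓ : ℓ.Prime) (hℓM : ¬ ℓ ∣ M)

theorem red_e1H (φ : HomG M ℤ) :
    red p M (e1H M ℓ hℓ hℓM φ) = e1H M ℓ hℓ hℓM (red p M φ) := by
  rw [e1H_apply, e1H_apply, map_sub, map_nsmul, TH, red_op]; rfl

theorem red_e2H (φ : HomG M ℤ) :
    red p M (e2H M ℓ hℓ hℓM φ) = e2H M ℓ hℓ hℓM (red p M φ) := by
  rw [e2H_apply, e2H_apply, map_sub, map_nsmul, TH, red_op, red_op]; rfl

theorem e1H_eig {φ : HomG M V} {a : ℤ} (h : TH M ℓ hℓ hℓM φ = a • φ) :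
    e1H M ℓ hℓ hℓM φ = (a - (ℓ + 1)) • φ := by
  rw [e1H_apply, h, sub_zsmul, ← natCast_zsmul φ (ℓ + 1), sub_eq_add_neg]; push_cast; rfl

theorem e2H_eig {φ : HomG M V} {a : ℤ} (h : TH M ℓ hℓ hℓM φ = a • φ) :
    e2H M ℓ hℓ hℓM φ = (a ^ 2 - ((ℓ : ℤ) + 1) ^ 2) • φ := by
  rw [e2H_apply, h, map_zsmul, h, ← mul_smul, sub_zsmul, ← natCast_zsmul φ ((ℓ + 1) ^ 2), sq a, sub_eq_add_neg]
  push_cast
  rfl

theorem map_e1H {M' : ℕ} (hℓM' : ¬ ℓ ∣ M') (F : HomG M V →+ HomG M' V)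
    (hF : ∀ φ, F (TH M ℓ hℓ hℓM φ) = TH M' ℓ hℓ hℓM' (F φ)) (φ : HomG M V) :
    F (e1H M ℓ hℓ hℓM φ) = e1H M' ℓ hℓ hℓM' (F φ) := by
  rw [e1H_apply, e1H_apply, map_sub, map_nsmul, hF]

theorem map_e2H {M' : ℕ} (hℓM' : ¬ ℓ ∣ M') (F : HomG M V →+ HomG M' V)
    (hF : ∀ φ, F (TH M ℓ hℓ hℓM φ) = TH M' ℓ hℓ hℓM' (F φ)) (φ : HomG M V) :
    F (e2H M ℓ hℓ hℓM φ) = e2H M' ℓ hℓ hℓM' (F φ) := by
  rw [e2H_apply, e2H_apply, map_sub, map_nsmul, hF, hF]

end Ops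

section Transfer

variable {N q : ℕ} [NeZero N] [NeZero q] (hq : q.Prime) (hqN : ¬ q ∣ N)

/-- parabolic homomorphisms killed by both traces -/
def newLam : Submodule ℤ (JTors.Lam (N * q)) :=
  AddSubgroup.toIntSubmodule
    { carrier := {φ | be1 hq hqN φ.1 = 0 ∧ be2 hq hqN φ.1 = 0}
      zero_mem' := ⟨map_zero _, map_zero _⟩
      add_mem' := fun {a b} ha hb =>
        ⟨(map_add _ a.1 b.1).trans (by rw [ha.1, hb.1, add_zero]),
          (map_add _ a.1 b.1).trans (by rw [ha.2, hb.2, add_zero])⟩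
      neg_mem' := fun {a} ha =>
        ⟨(map_neg _ a.1).trans (by rw [ha.1, neg_zero]),
          (map_neg _ a.1).trans (by rw [ha.2, neg_zero])⟩ }

theorem mem_newLam {φ : JTors.Lam (N * q)} :
    φ ∈ newLam hq hqN ↔ be1 hq hqN φ.1 = 0 ∧ be2 hq hqN φ.1 = 0 := Iff.rfl

theorem be2_Wop (φ : HomG (N * q) ℤ) : be2 hq hqN (Wop hq hqN φ) = be1 hq hqN φ := by
  show be1 hq hqN (Wop hq hqN (Wop hq hqN φ)) = _
  rw [Wop_Wop]

set_option maxHeartbeats 800000 in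
/-- the key congruence class at level `Nq` -/
theorem exists_new_class {W : WeierstrassCurve ℤ} (hp : p.Prime) (hp2 : p ≠ 2) (hqp : q ≠ p)
    (hΔ : W.Δ ≠ 0) (hirr : W.ModRepIsIrreducible p) (L : JTors.LatticeData N)
    {f : S2 N} (hf : f.IsNormalizedEigenform)
    {𝔪 : Ideal (integralClosure ℤ ℂ)} (hmax : 𝔪.IsMaximal) (hpm : (p : integralClosure ℤ ℂ) ∈ 𝔪)
    (hcong : ∀ ℓ : ℕ, ℓ.Prime → W.IsGoodPrimeFor ℓ → ¬ ℓ ∣ N → ℓ ≠ p →
      ∃ a : integralClosure ℤ ℂ, (a : ℂ) = qCoeff f ℓ ∧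
        a - ((W.apOfModel ℓ : ℤ) : integralClosure ℤ ℂ) ∈ 𝔪)
    (hLR : ∃ a : integralClosure ℤ ℂ, (a : ℂ) = qCoeff f q ∧
      a ^ 2 - ((q : integralClosure ℤ ℂ) + 1) ^ 2 ∈ 𝔪) :
    ∃ w : JTors.Lam (N * q), w ∈ newLam hq hqN ∧ red p (N * q) w.1 ≠ 0 ∧
      (∃ c : ℤ, c * c = 1 ∧ Wop hq hqN (red p (N * q) w.1) = c • red p (N * q) w.1) ∧
      ∀ (ℓ : ℕ) [NeZero ℓ] (hℓ : ℓ.Prime) (hℓM : ¬ ℓ ∣ N * q), W.IsGoodPrimeFor ℓ → ℓ ≠ p →
        TH (N * q) ℓ hℓ hℓM (red p (N * q) w.1) = W.apOfModel ℓ • red p (N * q) w.1 := by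
  classical
  haveI : Fact p.Prime := ⟨hp⟩
  have hpm' := hmax.isPrime
  -- the sign
  obtain ⟨e, he, hae⟩ : ∃ e : ℤ, e * e = 1 ∧ ∃ a : integralClosure ℤ ℂ, (a : ℂ) = qCoeff f q ∧
      a - ((e * ((q : ℤ) + 1) : ℤ) : integralClosure ℤ ℂ) ∈ 𝔪 := by
    obtain ⟨a, ha, ha2⟩ := hLR
    rw [sq_sub_sq] at ha2
    rcases hpm'.mem_or_mem ha2 with h | h
    · refine ⟨-1, rfl, a, ha, ?_⟩
      convert h using 1
      push_cast; ring
    · refine ⟨1, rfl, a, ha, ?_⟩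
      convert h using 1
      push_cast; ring
  -- the class at level `N`
  set D := latticeOf L
  obtain ⟨y0, hy0, hpy, hT⟩ := TOR.exists_eigen_torsion D hf hp hmax hpm
  obtain ⟨v, hv⟩ := (D.nsmul_eq_zero_iff p hp.pos y0).1 hpy
  change JTors.Lam N at v
  set y := red p N v.1 with hy
  have hyT : ∀ (ℓ : ℕ) [NeZero ℓ] (hℓ : ℓ.Prime) (hℓN : ¬ ℓ ∣ N) (a : ℤ),
      (∃ c : integralClosure ℤ ℂ, (c : ℂ) = qCoeff f ℓ ∧ c - (a : integralClosure ℤ ℂ) ∈ 𝔪) →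
        TH N ℓ hℓ hℓN y = a • y := by
    intro ℓ _ hℓ hℓN a hc
    have h1 : D.tors p (D.T ⟨ℓ, hℓ⟩ v) = D.tors p (a • v) := by
      refine (D.tors_T p hp.pos ⟨ℓ, hℓ⟩ v).trans ?_
      rw [hv, hT ℓ hℓ hℓN a hc, ← hv]
      exact (map_zsmul (D.tors p) a v).symm
    obtain ⟨z, hz⟩ := (D.tors_eq_iff hp.pos _ _).1 h1
    have h2 : (L.T ⟨ℓ, hℓ⟩ v).1 - a • v.1 = (p : ℤ) • (z : JTors.Lam N).1 :=
      congrArg Subtype.val hz
    have h3 := congrArg (red p N) h2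
    rw [map_sub, map_zsmul, red_p_smul, sub_eq_zero, lattice_TH L hℓ hℓN, TH, red_op] at h3
    exact h3
  have hgoodT : ∀ (ℓ : ℕ) [NeZero ℓ] (hℓ : ℓ.Prime) (hℓN : ¬ ℓ ∣ N), W.IsGoodPrimeFor ℓ → ℓ ≠ p →
      TH N ℓ hℓ hℓN y = W.apOfModel ℓ • y := fun ℓ _ hℓ hℓN hg hℓp =>
    hyT ℓ hℓ hℓN _ (hcong ℓ hℓ hg hℓN hℓp)
  have hqT : (TC N N q hq dvd_rfl hqN).op y = (e * ((q : ℤ) + 1)) • y := hyT q hq hqN _ hae
  -- auxiliary primes
  obtain ⟨r, hr, hrS, hrg, hrp, hr2⟩ := exists_prime_sq_ne hΔ hp hp2 hirr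
    (insert q (N.primeFactors ∪ ((q : ℤ) ^ 2 - 1).natAbs.primeFactors))
  simp only [Finset.mem_insert, Finset.mem_union, not_or] at hrS
  obtain ⟨hrq', hrN', hr1'⟩ := hrS
  haveI : NeZero r := ⟨hr.ne_zero⟩
  have hrN : ¬ r ∣ N := fun h => hrN' (Nat.mem_primeFactors.2 ⟨hr, h, NeZero.ne N⟩)
  have hrq : ¬ r ∣ q := fun h => hrq' ((Nat.prime_dvd_prime_iff_eq hr hq).1 h)
  have hr1 : ¬ (r : ℤ) ∣ (q : ℤ) ^ 2 - 1 := fun h => hr1' (Nat.mem_primeFactors.2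
    ⟨hr, Int.natCast_dvd.1 h, by
      rw [Int.natAbs_ne_zero]
      nlinarith [hq.two_le]⟩)
  have hrM : ¬ r ∣ N * q := fun h => (hr.dvd_mul.1 h).elim hrN hrq
  obtain ⟨M1, hM1, hdual⟩ := dual_surj hq hqN hr hrq hrN hr1
  obtain ⟨M2, hM2, hih⟩ := ihara (V := ZMod p) hq hqN hr hrq hrN hr1
  obtain ⟨s, hs, hsS, hsg, hsp, hs1, hs2⟩ := exists_prime_one_mod hΔ hp hp2 hirr
    (insert q N.primeFactors) (M1 * M2 * (N * q))
    (Nat.mul_pos (Nat.mul_pos hM1 hM2) (NeZero.pos (N * q)))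
  simp only [Finset.mem_insert, not_or] at hsS
  obtain ⟨hsq', hsN'⟩ := hsS
  haveI : NeZero s := ⟨hs.ne_zero⟩
  have hsN : ¬ s ∣ N := fun h => hsN' (Nat.mem_primeFactors.2 ⟨hs, h, NeZero.ne N⟩)
  have hsq : ¬ s ∣ q := fun h => hsq' ((Nat.prime_dvd_prime_iff_eq hs hq).1 h)
  have hsM : ¬ s ∣ N * q := fun h => (hs.dvd_mul.1 h).elim hsN hsq
  have hsM1 : (M1 : ℤ) ∣ (s : ℤ) - 1 :=
    (Int.natCast_dvd_natCast.2 ((dvd_mul_right M1 M2).mul_right (N * q))).trans hs1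
  have hsM2 : (M2 : ℤ) ∣ (s : ℤ) - 1 :=
    (Int.natCast_dvd_natCast.2 ((dvd_mul_left M2 M1).mul_right (N * q))).trans hs1
  have hsNq : ((N * q : ℕ) : ℤ) ∣ (s : ℤ) - 1 :=
    (Int.natCast_dvd_natCast.2 (dvd_mul_left (N * q) (M1 * M2))).trans hs1
  set μs := W.apOfModel s - ((s : ℤ) + 1)
  set μr := W.apOfModel r ^ 2 - ((r : ℤ) + 1) ^ 2
  -- the two pullbacks
  set v0 : HomG (N * q) ℤ := al1 N q v.1 + (-e) • al2 N q v.1 with hv0
  set y' := red p (N * q) v0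
  have hy' : y' = al1 N q y + (-e) • al2 N q y := by
    simp only [y', hv0, map_add, map_zsmul, al1, al2, red_op]
    rfl
  have hTy' : ∀ (ℓ : ℕ) [NeZero ℓ] (hℓ : ℓ.Prime) (hℓM : ¬ ℓ ∣ N * q), W.IsGoodPrimeFor ℓ → ℓ ≠ p →
      TH (N * q) ℓ hℓ hℓM y' = W.apOfModel ℓ • y' := by
    intro ℓ _ hℓ hℓM hg hℓp
    have hℓN : ¬ ℓ ∣ N := fun h => hℓM (h.mul_right q)
    have h := hgoodT ℓ hℓ hℓN hg hℓp
    rw [TH] at h ⊢
    rw [hy', map_add, map_zsmul, ← al1_TC hℓ hℓM, ← al2_TC hℓ hℓM, h, map_zsmul, map_zsmul,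
      smul_add, smul_comm]
  have hb1 : red p N (be1 hq hqN v0) = 0 := by
    rw [be1, red_op]
    show be1 hq hqN y' = 0
    rw [hy', map_add, map_zsmul, be1_al1, be1_al2, hqT, ← mul_smul, ← natCast_zsmul,
      ← add_smul]
    have : ((q + 1 : ℕ) : ℤ) + -e * (e * ((q : ℤ) + 1)) = 0 := by
      push_cast
      linear_combination (-((q : ℤ) + 1)) * he
    rw [this, zero_smul]
  have hb2 : red p N (be2 hq hqN v0) = 0 := by
    rw [be2, AddMonoidHom.comp_apply, be1, red_op, Wop, red_op]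
    show be2 hq hqN y' = 0
    rw [hy', map_add, map_zsmul, be2_al1, be2_al2, hqT, ← natCast_zsmul, ← mul_smul, ← add_smul]
    have : e * ((q : ℤ) + 1) + -e * ((q + 1 : ℕ) : ℤ) = 0 := by push_cast; ring
    rw [this, zero_smul]
  obtain ⟨z1, hz1⟩ := exists_hom_div hp.ne_zero hb1
  obtain ⟨z2, hz2⟩ := exists_hom_div hp.ne_zero hb2
  obtain ⟨h', hh1, hh2⟩ := hdual s hs hsN hsM1 z1 z2
  set pre : HomG (N * q) ℤ :=
    2 • e2H (N * q) r hr hrM (e1H (N * q) s hs hsM v0) - (p : ℤ) • h' with hpre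
  set v1 := e1H (N * q) s hs hsM pre with hv1
  have hkill : ∀ (F : HomG (N * q) ℤ →+ HomG N ℤ) (z : HomG N ℤ),
      (∀ φ, F (TH (N * q) r hr hrM φ) = TH N r hr hrN (F φ)) →
      (∀ φ, F (TH (N * q) s hs hsM φ) = TH N s hs hsN (F φ)) → F v0 = (p : ℤ) • z →
      F h' = 2 • e2H N r hr hrN (e1H N s hs hsN z) → F v1 = 0 := by
    intro F z hFr hFs hF0 hFh
    rw [hv1, map_e1H hs hsM hsN F hFs, hpre, map_sub, map_nsmul, map_zsmul,
      map_e2H hr hrM hrN F hFr, map_e1H hs hsM hsN F hFs, hF0, hFh, map_zsmul, map_zsmul,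
      smul_comm, sub_self, map_zero]
  have hK1 : be1 hq hqN v1 = 0 := hkill _ z1 (fun φ => be1_TC hq hqN hr hrM φ)
    (fun φ => be1_TC hq hqN hs hsM φ) hz1 hh1
  have hK2 : be2 hq hqN v1 = 0 := hkill _ z2 (fun φ => be2_TC hq hqN hr hrM φ)
    (fun φ => be2_TC hq hqN hs hsM φ) hz2 hh2
  -- its reduction
  have hred : red p (N * q) v1 = (2 * μr * μs * μs) • y' := by
    have hsT := hTy' s hs hsM hsg hsp
    have hrT := hTy' r hr hrM hrg hrp
    rw [hv1, red_e1H, hpre, map_sub, map_nsmul, red_p_smul, sub_zero, red_e2H, red_e1H,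
      e1H_eig hs hsM hsT, map_zsmul, e2H_eig hr hrM hrT, map_nsmul, map_zsmul, map_zsmul,
      e1H_eig hs hsM hsT, ← natCast_zsmul, ← mul_smul, ← mul_smul, ← mul_smul]
    congr 1
    push_cast
    ring
  have hunit : ¬ (p : ℤ) ∣ 2 * μr * μs * μs := by
    have hP := Nat.prime_iff_prime_int.1 hp
    intro h
    rcases hP.dvd_mul.1 h with h | h
    · rcases hP.dvd_mul.1 h with h | h
      · rcases hP.dvd_mul.1 h with h | h
        · exact hp2 ((Nat.prime_dvd_prime_iff_eq hp Nat.prime_two).1 (by exact_mod_cast h))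
        · exact hr2 h
      · exact hs2 h
    · exact hs2 h
  -- it is not divisible by `p`
  have hy'0 : y' ≠ 0 := by
    intro h0
    have hpar : IsParabolicHom (Gamma0 N) y := fun γ hγ => by
      show red p N v.1 (Additive.ofMul γ) = 0
      rw [red_apply, v.2 γ hγ, Int.cast_zero]
    have hpar2 : IsParabolicHom (Gamma0 N) ((-e) • y) := fun γ hγ => by
      show (-e) • y (Additive.ofMul γ) = 0
      rw [hpar γ hγ, smul_zero]
    have hI := hih s hs hsN hsq hsM2 y ((-e) • y) hpar hpar2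
      (by rw [map_zsmul, ← hy', h0])
    have hsT := hgoodT s hs hsN hsg hsp
    have hrT := hgoodT r hr hrN hrg hrp
    rw [e1H_eig hs hsN hsT, map_zsmul, e2H_eig hr hrN hrT, map_zsmul, map_zsmul,
      e1H_eig hs hsN hsT, ← mul_smul, ← mul_smul] at hI
    have hm : ¬ (p : ℤ) ∣ μs * μr * μs := fun h => hunit
      (h.trans ⟨2, by ring⟩)
    have hy00 : y = 0 := eq_zero_of_zsmul hm hI
    obtain ⟨z, hz⟩ := exists_lam_div hp.ne_zero (φ := v) hy00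
    exact hy0 (by rw [← hv]; exact (D.tors_eq_zero_iff p hp.pos v).2 ⟨z, hz⟩)
  refine ⟨⟨v1, e1H_parabolic hs hsM hsNq pre⟩, ⟨hK1, hK2⟩, ?_, ⟨-e, by rw [neg_mul_neg, he], ?_⟩,
    fun ℓ _ hℓ hℓM hg hℓp => ?_⟩
  · show red p (N * q) v1 ≠ 0
    rw [hred]
    exact fun h => hy'0 (eq_zero_of_zsmul hunit h)
  · show Wop hq hqN (red p (N * q) v1) = (-e) • red p (N * q) v1
    rw [hred, map_zsmul, hy', map_add, map_zsmul, Wop_al1, Wop_al2, smul_comm (-e)]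
    congr 1
    rw [smul_add, ← mul_smul, neg_mul_neg, he, one_smul, add_comm]
  · show TH (N * q) ℓ hℓ hℓM (red p (N * q) v1) = W.apOfModel ℓ • red p (N * q) v1
    rw [hred, map_zsmul, hTy' ℓ hℓ hℓM hg hℓp, smul_comm]

include hq hqN in
set_option maxHeartbeats 1600000 in
/-- level raising at a prime -/
theorem exists_raised {W : WeierstrassCurve ℤ} (hp : p.Prime) (hp2 : p ≠ 2) (hqp : q ≠ p)
    (hΔ : W.Δ ≠ 0) (hirr : W.ModRepIsIrreducible p)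
    {f : S2 N} (hf : f.IsNormalizedEigenform)
    {𝔪 : Ideal (integralClosure ℤ ℂ)} (hmax : 𝔪.IsMaximal) (hpm : (p : integralClosure ℤ ℂ) ∈ 𝔪)
    (hcong : ∀ ℓ : ℕ, ℓ.Prime → W.IsGoodPrimeFor ℓ → ¬ ℓ ∣ N → ℓ ≠ p →
      ∃ a : integralClosure ℤ ℂ, (a : ℂ) = qCoeff f ℓ ∧
        a - ((W.apOfModel ℓ : ℤ) : integralClosure ℤ ℂ) ∈ 𝔪)
    (hLR : ∃ a : integralClosure ℤ ℂ, (a : ℂ) = qCoeff f q ∧
      a ^ 2 - ((q : integralClosure ℤ ℂ) + 1) ^ 2 ∈ 𝔪) :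
    ∃ (g : S2 (N * q)) (𝔪' : Ideal (integralClosure ℤ ℂ)),
      g.IsNormalizedEigenform ∧ 𝔪'.IsMaximal ∧ (p : integralClosure ℤ ℂ) ∈ 𝔪' ∧
      (∀ ℓ : ℕ, ℓ.Prime → W.IsGoodPrimeFor ℓ → ¬ ℓ ∣ N * q → ℓ ≠ p →
        ∃ a : integralClosure ℤ ℂ, (a : ℂ) = qCoeff g ℓ ∧
          a - ((W.apOfModel ℓ : ℤ) : integralClosure ℤ ℂ) ∈ 𝔪') ∧
      qCoeff g q ^ 2 = 1 := by
  classical
  haveI : Fact p.Prime := ⟨hp⟩
  obtain ⟨L⟩ := JTors.exists_latticeData N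
  obtain ⟨L'⟩ := JTors.exists_latticeData (N * q)
  obtain ⟨w, hwK, hw0, ⟨c, hc, hcW⟩, hwT⟩ :=
    exists_new_class hq hqN hp hp2 hqp hΔ hirr L hf hmax hpm hcong hLR
  set D := latticeOf L'
  haveI := JTors.lam_free (N := N * q)
  haveI := JTors.lam_finite (N := N * q)
  let act : TFull (N * q) →+* Module.End ℤ (JTors.Lam (N * q)) := D.act
  -- the subring fixing the class
  let S : Subring (TFull (N * q)) :=
    { carrier := {t | (∀ φ ∈ newLam hq hqN, act t φ ∈ newLam hq hqN) ∧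
        ∃ (a : ℤ) (z : JTors.Lam (N * q)), act t w = a • w + (p : ℤ) • z}
      one_mem' := ⟨fun φ hφ => by rwa [map_one], 1, 0, by simp⟩
      zero_mem' := ⟨fun φ _ => by rw [map_zero]; exact zero_mem _, 0, 0, by simp⟩
      add_mem' := fun {s t} ⟨hs, a, z, hz⟩ ⟨ht, a', z', hz'⟩ =>
        ⟨fun φ hφ => by rw [map_add]; exact add_mem (hs φ hφ) (ht φ hφ), a + a', z + z', by
          rw [map_add, LinearMap.add_apply, hz, hz', add_smul, smul_add]; abel⟩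
      neg_mem' := fun {s} ⟨hs, a, z, hz⟩ =>
        ⟨fun φ hφ => by rw [map_neg]; exact neg_mem (hs φ hφ), -a, -z, by
          rw [map_neg, LinearMap.neg_apply, hz, neg_smul, smul_neg, neg_add]⟩
      mul_mem' := fun {s t} ⟨hs, a, z, hz⟩ ⟨ht, a', z', hz'⟩ =>
        ⟨fun φ hφ => by rw [map_mul]; exact hs _ (ht φ hφ), a' * a, a' • z + act s z', by
          rw [map_mul, Module.End.mul_apply, hz', map_add, map_smul, map_smul, hz, smul_add,
            mul_smul, smul_comm a' (p : ℤ) z, smul_add, add_assoc]⟩ }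
  have hmemS : ∀ t, (∀ φ ∈ newLam hq hqN, act t φ ∈ newLam hq hqN) →
      (∃ a : ℤ, red p (N * q) (act t w).1 = a • red p (N * q) w.1) → t ∈ S := by
    rintro t ht ⟨a, ha⟩
    obtain ⟨z, hz⟩ := exists_lam_div hp.ne_zero (φ := act t w - a • w) (by
      show red p (N * q) ((act t w).1 - a • w.1) = 0
      rw [map_sub, map_zsmul, ha, sub_self])
    exact ⟨ht, a, z, by rw [← hz]; abel⟩
  -- `T_ℓ`
  have hTS : ∀ (ℓ : ℕ) (hℓ : ℓ.Prime) (hℓM : ¬ ℓ ∣ N * q), W.IsGoodPrimeFor ℓ → ℓ ≠ p →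
      CuspForm.heckeAlgebra.T hℓ hℓM (Set.notMem_empty _) ∈ S ∧
      red p (N * q) (act (CuspForm.heckeAlgebra.T hℓ hℓM (Set.notMem_empty _)) w).1 =
        W.apOfModel ℓ • red p (N * q) w.1 := by
    intro ℓ hℓ hℓM hg hℓp
    haveI : NeZero ℓ := ⟨hℓ.ne_zero⟩
    have ha : ∀ φ, (act (CuspForm.heckeAlgebra.T hℓ hℓM (Set.notMem_empty _)) φ).1 =
        TH (N * q) ℓ hℓ hℓM φ.1 := fun φ => by
      show (D.act _ φ).1 = _
      rw [D.act_T hℓ hℓM]
      exact lattice_TH L' hℓ hℓM φ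
    have hw' : red p (N * q) (act (CuspForm.heckeAlgebra.T hℓ hℓM (Set.notMem_empty _)) w).1 =
        W.apOfModel ℓ • red p (N * q) w.1 := by
      rw [ha, ← hwT ℓ hℓ hℓM hg hℓp, TH, red_op]
      rfl
    refine ⟨hmemS _ (fun φ hφ => ?_) ⟨_, hw'⟩, hw'⟩
    rw [mem_newLam, ha]
    exact ⟨by rw [TH, be1_TC hq hqN hℓ hℓM, hφ.1, map_zero],
      by rw [TH, be2_TC hq hqN hℓ hℓM, hφ.2, map_zero]⟩
  -- `U_q`
  set tU : TFull (N * q) :=
    CuspForm.heckeAlgebra.U hq (dvd_mul_left q N) (Set.notMem_empty _) with htU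
  have hU : ∀ φ ∈ newLam hq hqN, (act tU φ).1 = -Wop hq hqN φ.1 := fun φ hφ => by
    show (D.act tU φ).1 = _
    rw [htU, act_U D hq (dvd_mul_left q N)]
    refine (lattice_UC L' hq (dvd_mul_left q N) φ).trans ?_
    have h := al1_be2 hq hqN φ.1
    rw [((mem_newLam hq hqN).1 hφ).2, map_zero] at h
    exact eq_neg_of_add_eq_zero_left h.symm
  have hUK : ∀ φ ∈ newLam hq hqN, act tU φ ∈ newLam hq hqN := fun φ hφ => by
    rw [mem_newLam, hU φ hφ, map_neg, map_neg, be2_Wop, neg_eq_zero, neg_eq_zero]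
    exact ⟨((mem_newLam hq hqN).1 hφ).2, ((mem_newLam hq hqN).1 hφ).1⟩
  have hUS : tU ∈ S := hmemS tU hUK ⟨-c, by
    rw [hU w hwK, map_neg, Wop, red_op, neg_smul]
    exact congrArg Neg.neg hcW⟩
  -- the quotient acting on the new part
  let π : S →+* Module.End ℤ (newLam hq hqN) :=
    { toFun := fun t => (act t.1).restrict t.2.1
      map_one' := LinearMap.ext fun φ => Subtype.ext (by simp)
      map_mul' := fun s t => LinearMap.ext fun φ => Subtype.ext (by simp)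
      map_zero' := LinearMap.ext fun φ => Subtype.ext (by simp)
      map_add' := fun s t => LinearMap.ext fun φ => Subtype.ext (by simp) }
  haveI := Attach.finite_TFull (N * q)
  haveI : Module.Finite ℤ S :=
    Module.Finite.of_injective S.subtype.toAddMonoidHom.toIntLinearMap Subtype.val_injective
  haveI : Module.Finite ℤ (S ⧸ RingHom.ker π) :=
    Module.Finite.of_surjective (Ideal.Quotient.mk (RingHom.ker π)).toAddMonoidHom.toIntLinearMap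
      (fun x => Ideal.Quotient.mk_surjective (I := RingHom.ker π) x)
  haveI : Module.IsTorsionFree ℤ (S ⧸ RingHom.ker π) :=
    Function.Injective.moduleIsTorsionFree (RingHom.kerLift π) (RingHom.kerLift_injective π)
      (fun n x => map_zsmul (RingHom.kerLift π) n x)
  have huniq : ∀ (a : ℤ) (z : JTors.Lam (N * q)), a • w + (p : ℤ) • z = 0 → (a : ZMod p) = 0 := by
    intro a z h
    by_contra hne
    have h1 := congrArg (fun x : JTors.Lam (N * q) => red p (N * q) x.1) h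
    change red p (N * q) (a • w.1 + (p : ℤ) • z.1) = red p (N * q) 0 at h1
    rw [map_add, map_zsmul, red_p_smul, add_zero, map_zero] at h1
    exact hw0 (eq_zero_of_zsmul (fun hd => hne ((ZMod.intCast_zmod_eq_zero_iff_dvd _ _).2 hd)) h1)
  choose aS zS hS using fun t : S => t.2.2
  let θ0 : S → ZMod p := fun t => (aS t : ℤ)
  have hθ0 : ∀ (t : S) (a : ℤ) (z : JTors.Lam (N * q)), act t.1 w = a • w + (p : ℤ) • z →
      θ0 t = a := by
    intro t a z h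
    have hz' := hS t
    rw [← sub_eq_zero, ← Int.cast_sub]
    refine huniq _ (zS t - z) ?_
    rw [sub_smul, smul_sub, ← sub_eq_zero.2 (hz'.symm.trans h)]
    abel
  let θ1 : S →+* ZMod p :=
    { toFun := θ0
      map_one' := (hθ0 1 1 0 (by simp)).trans Int.cast_one
      map_zero' := (hθ0 0 0 0 (by simp)).trans Int.cast_zero
      map_add' := fun s t => by
        rw [hθ0 (s + t) (aS s + aS t) (zS s + zS t) (by
          rw [Subring.coe_add, map_add, LinearMap.add_apply, hS s, hS t, add_smul, smul_add]; abel)]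
        push_cast
        rfl
      map_mul' := fun s t => by
        rw [hθ0 (s * t) (aS t * aS s) (aS t • zS s + act s.1 (zS t)) (by
          rw [Subring.coe_mul, map_mul, Module.End.mul_apply, hS t, map_add, map_smul, map_smul,
            hS s, smul_add, mul_smul, smul_comm _ (p : ℤ) (zS s), smul_add, add_assoc])]
        push_cast
        exact mul_comm _ _ }
  have hker : ∀ t ∈ RingHom.ker π, θ1 t = 0 := fun t ht => by
    have h0 : act t.1 w = 0 :=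
      congrArg Subtype.val (LinearMap.congr_fun (RingHom.mem_ker.1 ht) ⟨w, hwK⟩)
    exact (hθ0 t 0 0 (by rw [h0]; simp)).trans Int.cast_zero
  let θ : S ⧸ RingHom.ker π →+* ZMod p := Ideal.Quotient.lift _ θ1 hker
  obtain ⟨χ, 𝔪', hmax', hpm2, hθχ⟩ := Alg.exists_maximal_lift θ
  obtain ⟨χf, hχf⟩ := Attach.exists_extension S.subtype Subtype.val_injective
    ((integralClosure ℤ ℂ).val.toRingHom.comp (χ.comp (Ideal.Quotient.mk (RingHom.ker π))))
  obtain ⟨g, hg, hgT, hgU⟩ := exists_eigenform_full χf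
  have hχfS : ∀ t : S, χf t.1 = (χ (Ideal.Quotient.mk _ t) : ℂ) := fun t =>
    RingHom.congr_fun hχf t
  refine ⟨g, 𝔪', hg, hmax', hpm2, fun ℓ hℓ hgood hℓM hℓp => ?_, ?_⟩
  · obtain ⟨hmem, hw'⟩ := hTS ℓ hℓ hℓM hgood hℓp
    refine ⟨χ (Ideal.Quotient.mk _ ⟨_, hmem⟩), by rw [hgT ℓ hℓ hℓM, ← hχfS ⟨_, hmem⟩], ?_⟩
    rw [← map_intCast χ, ← map_sub]
    refine hθχ _ ?_
    rw [map_sub, map_intCast]
    obtain ⟨z, hz⟩ := exists_lam_div hp.ne_zero
      (φ := act (CuspForm.heckeAlgebra.T hℓ hℓM (Set.notMem_empty _)) w - W.apOfModel ℓ • w) (by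
        show red p (N * q) ((act _ w).1 - W.apOfModel ℓ • w.1) = 0
        rw [map_sub, map_zsmul, hw', sub_self])
    rw [show θ (Ideal.Quotient.mk _ ⟨_, hmem⟩) = (W.apOfModel ℓ : ZMod p) from
      hθ0 ⟨_, hmem⟩ _ z (by rw [← hz]; abel), sub_self]
  · have h1 : (Ideal.Quotient.mk (RingHom.ker π)) (⟨tU, hUS⟩ * ⟨tU, hUS⟩) = 1 := by
      rw [← map_one (Ideal.Quotient.mk (RingHom.ker π)), Ideal.Quotient.mk_eq_mk_iff_sub_mem,
        RingHom.mem_ker, map_sub, map_one, map_mul, sub_eq_zero]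
      refine LinearMap.ext fun φ => Subtype.ext (Subtype.ext ?_)
      show (act tU (act tU φ.1)).1 = φ.1.1
      rw [hU _ (hUK _ φ.2), hU _ φ.2, map_neg, Wop_Wop, neg_neg]
    rw [hgU q hq (dvd_mul_left q N), ← htU, hχfS ⟨tU, hUS⟩]
    exact coe_sq_eq_one χ ((RingHom.map_mul (Ideal.Quotient.mk (RingHom.ker π)) _ _).symm.trans h1)

end Transfer

end FLTAgent.LR
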