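import Fermat.Agent.SS.Push
import Fermat.Agent.HeckeJ.API

/-!
Pullback of classes along the two degeneracy maps: Galois equivariance, and compatibility with the
Hecke operators on the torsion where they are given by Frobenius.
-/

set_option autoImplicit false
set_option linter.unusedSectionVars false
set_option synthInstance.maxHeartbeats 200000
set_option linter.style.haveILetI false

noncomputable section

open ModularCurve AlgebraicCurve
open FLTAgent.Reduction (Qb FB)
open FLTAgent.Attach (GaloisInputs)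

namespace FLTAgent.LR

local notation "GalQ" => AlgebraicClosure ℚ ≃ₐ[ℚ] AlgebraicClosure ℚ

variable (M q : ℕ) [NeZero M] [NeZero q]

/-- pullback of divisors -/
def pullDiv (φ : FB M →ₐ[Qb] FB (M * q)) : Divisor Qb (FB M) →+ Divisor Qb (FB (M * q)) :=
  haveI := HeckeJ.hasPrincipalDivisors_bar (M * q)
  Divisor.pullbackAlong φ (HeckeJ.isIntegralAlong φ)

theorem pullDiv_mem_degZero (φ : FB M →ₐ[Qb] FB (M * q)) {D : Divisor Qb (FB M)}
    (hD : D ∈ Divisor.degZero (K := Qb) (F := FB M)) :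
    pullDiv M q φ D ∈ Divisor.degZero (K := Qb) (F := FB (M * q)) := by
  haveI := HeckeJ.hasPrincipalDivisors_bar (M * q)
  exact Divisor.pullbackAlong_mem_degZero φ _ (HeckeJ.fundamentalIdentityAlong φ _) hD

theorem isPrincipal_pullDiv (φ : FB M →ₐ[Qb] FB (M * q)) {D : Divisor Qb (FB M)}
    (hD : D.IsPrincipal) : (pullDiv M q φ D).IsPrincipal := by
  haveI := HeckeJ.hasPrincipalDivisors_bar (M * q)
  exact Divisor.isPrincipal_pullbackAlong φ _ hD

/-- the pullback of a function has the pullback divisor -/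
theorem pullDiv_apply_of_ord (φ : FB M →ₐ[Qb] FB (M * q)) {D : Divisor Qb (FB M)} {f : FB M}
    {n : ℤ} (hD : ∀ v, n * D v = v.ord f) (w : Place Qb (FB (M * q))) :
    n * pullDiv M q φ D w = w.ord (φ f) := by
  haveI := HeckeJ.hasPrincipalDivisors_bar (M * q)
  rw [pullDiv, Divisor.pullbackAlong_apply, mul_left_comm, hD,
    ← w.ord_restrictAlong φ (HeckeJ.isIntegralAlong φ) f]

/-- pullback of classes along an embedding of function fields -/
def pullJ (φ : FB M →ₐ[Qb] FB (M * q)) : JZero M →+ JZero (M * q) :=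
  QuotientAddGroup.map _ _
    (((pullDiv M q φ).domRestrict (Divisor.degZero (K := Qb) (F := FB M))).codRestrict _
      fun D => pullDiv_mem_degZero M q φ D.2)
    (by
      rintro ⟨D, hD0⟩ hD
      simp only [AddSubgroup.mem_addSubgroupOf] at hD ⊢
      exact isPrincipal_pullDiv M q φ hD)

theorem pullJ_mk (φ : FB M →ₐ[Qb] FB (M * q)) (D : Divisor.degZero (K := Qb) (F := FB M)) :
    pullJ M q φ (Pic0.mk D) =
      Pic0.mk ⟨pullDiv M q φ (D : Divisor Qb (FB M)), pullDiv_mem_degZero M q φ D.2⟩ := rfl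

theorem pullJ_smul (φ : FB M →ₐ[Qb] FB (M * q))
    (hφ : ∀ σ : GalQ, SemilinearAut.IntertwinesAlong φ.toRingHom
      (arithmeticGalois (modularFunctionFieldFull M) σ)
      (arithmeticGalois (modularFunctionFieldFull (M * q)) σ))
    (σ : GalQ) (x : JZero M) : pullJ M q φ (σ • x) = σ • pullJ M q φ x := by
  haveI := HeckeJ.hasPrincipalDivisors_bar (M * q)
  obtain ⟨D, rfl⟩ := Pic0.mk_surjective x
  rw [galois_smul_pic0_def, galois_smul_pic0_def, SemilinearAut.pic0_smul_mk, pullJ_mk, pullJ_mk,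
    SemilinearAut.pic0_smul_mk]
  refine congrArg Pic0.mk (Subtype.ext ?_)
  simp only [SemilinearAut.coe_degZeroSMulHom, pullDiv]
  exact HeckeJ.pullbackAlong_smul φ _ (hφ σ) _

variable {M q}

/-- the good Hecke operators commute with pullback on torsion -/
theorem pullJ_hecke (G : GaloisInputs (M * q)) (G0 : GaloisInputs M)
    (φ : FB M →ₐ[Qb] FB (M * q))
    (hφ : ∀ σ : GalQ, SemilinearAut.IntertwinesAlong φ.toRingHom
      (arithmeticGalois (modularFunctionFieldFull M) σ)
      (arithmeticGalois (modularFunctionFieldFull (M * q)) σ))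
    {ℓ : ℕ} (hℓ : ℓ.Prime) (hℓN : ¬ ℓ ∣ M * q) {n : ℕ} (hn : 0 < n) (hℓn : ¬ ℓ ∣ n) {x : JZero M}
    (hx : n • x = 0) :
    heckeOperatorBar (M * q) ⟨ℓ, hℓ⟩ (pullJ M q φ x) =
      pullJ M q φ (heckeOperatorBar M ⟨ℓ, hℓ⟩ x) := by
  obtain ⟨A, σ, hA, hσ⟩ := Alg.exists_place_frobenius ℓ hℓ
  rw [SS.hecke_eq_frobenius G hℓ hℓN hA hσ hn hℓn
      (show n • pullJ M q φ x = 0 by rw [← map_nsmul, hx, map_zero]),
    SS.hecke_eq_frobenius G0 hℓ (fun h => hℓN (h.trans (dvd_mul_right M q))) hA hσ hn hℓn hx,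
    map_add, map_nsmul, pullJ_smul M q φ hφ, pullJ_smul M q φ hφ]

end FLTAgent.LR
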