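import Fermat.Agent.LR.Theta
import Fermat.Agent.Periods.Parabolic

/-!
Twice any homomorphism is a combination of counting homomorphisms; consequently the traces from
level `Nq` reach a large submodule of pairs at level `N`.
-/

set_option autoImplicit false
set_option linter.unusedSectionVars false
set_option linter.style.haveILetI false
set_option linter.unusedVariables false
set_option linter.unusedSimpArgs false

noncomputable section

open Matrix OnePoint CongruenceSubgroup UpperHalfPlane ComplexConjugate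
open scoped MatrixGroups

namespace FLTAgent.LR

attribute [local instance] Classical.propDecidable

variable {N : ℕ} [NeZero N]

local notation "G2" => SL(2, ℤ)
local notation "XX" => SL(2, ℤ) ⧸ Gamma0 N

theorem Lv_axis (δ : G2) (z : ℍ) :
    Lv ((0 : ℚ) : Cu) ∞ (δ • z) =
      if ((((δ 0 0 : ℤ) : ℂ) * z + (δ 0 1 : ℤ)) * conj (((δ 1 0 : ℤ) : ℂ) * z + (δ 1 1 : ℤ))).re < 0
      then 1 else 0 := by
  rw [Lv_zero_infty]
  refine if_congr ?_ rfl rfl
  rw [← actH_emb, emb_eq, ← UpperHalfPlane.coe_re, coe_actH (by rw [det_SL_cast]; norm_num)]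
  push_cast
  refine re_div_neg_iff (denom_ne ?_ z.im_pos)
  by_contra h
  push Not at h
  have := det_SL δ
  rw [h.1, h.2] at this
  simp at this

theorem crossing_T (δ : G2)
    (h : Lv ((0 : ℚ) : Cu) ∞ (δ • ModularGroup.T • UpperHalfPlane.I) -
      Lv ((0 : ℚ) : Cu) ∞ (δ • UpperHalfPlane.I) ≠ 0) :
    δ = ModularGroup.S ∨ δ = -ModularGroup.S ∨ δ = ModularGroup.T⁻¹ ∨ δ = -ModularGroup.T⁻¹ := by
  rw [Lv_axis, Lv_axis, UpperHalfPlane.modular_T_smul, coe_vadd, UpperHalfPlane.coe_I] at h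
  set a := δ 0 0 with ha
  set b := δ 0 1 with hb
  set c := δ 1 0 with hc
  set d := δ 1 1 with hd
  have hdet : a * d - b * c = 1 := det_SL δ
  have e0 : ((((a : ℤ) : ℂ) * Complex.I + (b : ℤ)) * conj (((c : ℤ) : ℂ) * Complex.I + (d : ℤ))).re =
      ((b * d + a * c : ℤ) : ℝ) := by simp
  have e1 : ((((a : ℤ) : ℂ) * (((1 : ℝ) : ℂ) + Complex.I) + (b : ℤ)) *
      conj (((c : ℤ) : ℂ) * (((1 : ℝ) : ℂ) + Complex.I) + (d : ℤ))).re =
      (((a + b) * (c + d) + a * c : ℤ) : ℝ) := by simp
  rw [e0, e1] at h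
  simp only [Int.cast_lt_zero] at h
  have hne : ¬ ((a + b) * (c + d) + a * c < 0 ↔ b * d + a * c < 0) := fun hh => h (by
    rw [if_congr hh rfl rfl, sub_self])
  have hac : a = 0 ∨ c = 0 := by
    by_contra hh
    push Not at hh
    refine hne ?_
    have h0 : (0 : ℤ) < (a * c) ^ 2 := sq_pos_of_ne_zero (mul_ne_zero hh.1 hh.2)
    have k0 : 0 < (a * c) * (b * d + a * c) := by
      have : 4 * ((a * c) * (b * d + a * c)) = (a * d + b * c) ^ 2 - 1 + 4 * (a * c) ^ 2 := by
        linear_combination -(a * d - b * c + 1) * hdet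
      nlinarith [sq_nonneg (a * d + b * c)]
    have k1 : 0 < (a * c) * ((a + b) * (c + d) + a * c) := by
      have : 4 * ((a * c) * ((a + b) * (c + d) + a * c)) =
          (2 * (a * c) + (a * d + b * c)) ^ 2 - 1 + 4 * (a * c) ^ 2 := by
        linear_combination -(a * d - b * c + 1) * hdet
      nlinarith [sq_nonneg (2 * (a * c) + (a * d + b * c))]
    rcases lt_or_gt_of_ne (mul_ne_zero hh.1 hh.2) with hn | hp
    · exact ⟨fun _ => by nlinarith, fun _ => by nlinarith⟩
    · exact ⟨fun h' => absurd h' (by nlinarith), fun h' => absurd h' (by nlinarith)⟩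
  have hext : ∀ g : G2, g 0 0 = a → g 0 1 = b → g 1 0 = c → g 1 1 = d → δ = g := fun g e₁ e₂ e₃ e₄ => by
    apply Subtype.ext
    ext i j
    fin_cases i <;> fin_cases j
    · exact e₁.symm
    · exact e₂.symm
    · exact e₃.symm
    · exact e₄.symm
  rcases hac with h0 | h0
  · rw [h0] at hdet hne
    have hbc : b * c = -1 := by linarith
    rcases Int.eq_one_or_neg_one_of_mul_eq_neg_one hbc with hb1 | hb1
    · have hc1 : c = -1 := by rw [hb1] at hbc; linarith
      have hd0 : d = 0 := by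
        rw [hb1, hc1] at hne
        by_contra hd0
        refine hne ?_
        constructor <;> intro h' <;> omega
      exact Or.inr (Or.inl (hext _ (by rw [h0]; decide) (by rw [hb1]; decide)
        (by rw [hc1]; decide) (by rw [hd0]; decide)))
    · have hc1 : c = 1 := by rw [hb1] at hbc; linarith
      have hd0 : d = 0 := by
        rw [hb1, hc1] at hne
        by_contra hd0
        refine hne ?_
        constructor <;> intro h' <;> omega
      exact Or.inl (hext _ (by rw [h0]; decide) (by rw [hb1]; decide)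
        (by rw [hc1]; decide) (by rw [hd0]; decide))
  · rw [h0] at hdet hne
    have had : a * d = 1 := by linarith
    rcases Int.eq_one_or_neg_one_of_mul_eq_one' had with ⟨ha1, hd1⟩ | ⟨ha1, hd1⟩
    · have hb1 : b = -1 := by
        rw [ha1, hd1] at hne
        by_contra hb1
        refine hne ?_
        constructor <;> intro h' <;> omega
      exact Or.inr (Or.inr (Or.inl (hext _ (by rw [ha1]; decide)
        (by rw [hb1]; decide)
        (by rw [h0]; decide)
        (by rw [hd1]; decide))))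
    · have hb1 : b = 1 := by
        rw [ha1, hd1] at hne
        by_contra hb1
        refine hne ?_
        constructor <;> intro h' <;> omega
      exact Or.inr (Or.inr (Or.inr (hext _ (by rw [ha1]; decide)
        (by rw [hb1]; decide)
        (by rw [h0]; decide)
        (by rw [hd1]; decide))))

theorem crossing_values :
    (Lv ((0 : ℚ) : Cu) ∞ (ModularGroup.S • ModularGroup.T • UpperHalfPlane.I) -
      Lv ((0 : ℚ) : Cu) ∞ (ModularGroup.S • UpperHalfPlane.I) = 1) ∧
    (Lv ((0 : ℚ) : Cu) ∞ (ModularGroup.T⁻¹ • ModularGroup.T • UpperHalfPlane.I) -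
      Lv ((0 : ℚ) : Cu) ∞ (ModularGroup.T⁻¹ • UpperHalfPlane.I) = -1) := by
  constructor <;>
    rw [Lv_axis, Lv_axis, UpperHalfPlane.modular_T_smul, coe_vadd, UpperHalfPlane.coe_I] <;>
    simp [Matrix.SpecialLinearGroup.coe_inv, adjugate_fin_two]

/-- functions with given differences along a permutation of finite order -/
theorem exists_primitive_of_perm {X : Type} (τ : Equiv.Perm X) {n : ℕ} (hn : 0 < n) (hτ : τ ^ n = 1)
    (u : X → ℤ) (hu : ∀ x, ∑ i ∈ Finset.range n, u ((τ ^ i) x) = 0) :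
    ∃ d : X → ℤ, ∀ x, d (τ x) - d x = u x := by
  let Stau := Setoid.mk (fun x y => ∃ i : ℕ, (τ ^ i) x = y) (by
    have hpow : ∀ i : ℕ, τ ^ (n * i) = 1 := fun i => by rw [pow_mul, hτ, one_pow]
    refine ⟨fun x => ⟨0, rfl⟩, fun {x y} ⟨i, hi⟩ => ⟨n * i - i, ?_⟩, fun {x y z} ⟨i, hi⟩ ⟨j, hj⟩ =>
      ⟨j + i, by rw [pow_add, Equiv.Perm.mul_apply, hi, hj]⟩⟩
    rw [← hi, ← Equiv.Perm.mul_apply, ← pow_add, Nat.sub_add_cancel (Nat.le_mul_of_pos_left i hn),
      hpow, Equiv.Perm.one_apply])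
  have hrep : ∀ x, ∃ i : ℕ, (τ ^ i) (Quotient.out (Quotient.mk Stau x)) = x := fun x =>
    Quotient.mk_out (s := Stau) x
  choose k hk using hrep
  let d : X → ℤ := fun x => ∑ i ∈ Finset.range (k x), u ((τ ^ i) (Quotient.out (Quotient.mk Stau x)))
  -- partial sums only depend on the endpoint
  have hwd : ∀ r i j, i ≤ j → (τ ^ i) r = (τ ^ j) r →
      ∑ l ∈ Finset.range i, u ((τ ^ l) r) = ∑ l ∈ Finset.range j, u ((τ ^ l) r) := by
    intro r i j hij e
    obtain ⟨m, rfl⟩ := Nat.exists_eq_add_of_le hij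
    rw [Finset.sum_range_add, left_eq_add]
    set y := (τ ^ i) r with hy
    have hper : (τ ^ m) y = y := by
      rw [hy, ← Equiv.Perm.mul_apply, ← pow_add, add_comm]
      exact e.symm
    have he : ∀ l, u ((τ ^ (i + l)) r) = u ((τ ^ l) y) := fun l => by
      rw [hy, ← Equiv.Perm.mul_apply, ← pow_add, add_comm]
    simp only [he]
    have h1 : ∀ (p : ℕ), ∑ l ∈ Finset.range (p * m), u ((τ ^ l) y) =
        p * ∑ l ∈ Finset.range m, u ((τ ^ l) y) := by
      intro p
      induction p with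
      | zero => simp
      | succ p ih =>
        rw [Nat.add_mul, one_mul, Finset.sum_range_add, ih]
        push_cast
        rw [add_mul, one_mul]
        congr 1
        refine Finset.sum_congr rfl fun l _ => ?_
        rw [add_comm (p * m), Function.iterate_add_apply]
        congr 2
        rw [mul_comm, Function.iterate_mul]
        exact Function.iterate_fixed (by rwa [← Equiv.Perm.coe_pow]) p
    have h2 : ∀ (p : ℕ) (y : X), ∑ l ∈ Finset.range (p * n), u ((τ ^ l) y) = 0 := by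
      intro p y
      induction p with
      | zero => simp
      | succ p ih =>
        rw [Nat.add_mul, one_mul, Finset.sum_range_add, ih, zero_add]
        simp only [pow_add, Equiv.Perm.mul_apply, mul_comm p, pow_mul, hτ, one_pow,
          Equiv.Perm.one_apply]
        exact hu y
    have h3 := h1 n
    rw [mul_comm n m, h2 m y] at h3
    exact ((mul_eq_zero.mp h3.symm).resolve_left (Int.natCast_ne_zero.mpr hn.ne'))
  refine ⟨d, fun x => ?_⟩
  set r := Quotient.out (Quotient.mk Stau x) with hr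
  have hr' : Quotient.out (Quotient.mk Stau (τ x)) = r := by
    rw [hr, Quotient.sound (s := Stau) (a := x) (b := τ x) ⟨1, by rw [pow_one]⟩]
  have e : (τ ^ (k x + 1)) r = (τ ^ k (τ x)) r := by
    have h1 := hk (τ x)
    rw [hr'] at h1
    rw [h1, pow_succ', Equiv.Perm.mul_apply, hk x]
  have hsum : ∑ l ∈ Finset.range (k (τ x)), u ((τ ^ l) r) =
      ∑ l ∈ Finset.range (k x + 1), u ((τ ^ l) r) := by
    rcases le_total (k (τ x)) (k x + 1) with h | h
    · exact hwd r _ _ h e.symm
    · exact (hwd r _ _ h e).symm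
  simp only [d, hr', ← hr, hsum, Finset.sum_range_succ, hk x]
  rw [hk x]
  ring

/-- twice any homomorphism is a combination of counting homomorphisms -/
theorem two_nsmul_mem_span (φ : HomG N ℤ) :
    2 • φ ∈ AddSubgroup.closure (Set.range fun p : Cu × Cu => theta N p.1 p.2) := by
  classical
  haveI : Finite XX := Subgroup.finite_quotient_of_finiteIndex
  letI := Fintype.ofFinite XX
  set z := Periods.shapiro φ with hz
  have hneg : ∀ x : XX, z (-1) x = 0 := by
    intro x
    have h := Periods.shapiro_mul φ (-1 : G2) (-1) x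
    rw [show (-1 : G2) * -1 = 1 by decide, Periods.shapiro_one, Periods.neg_one_smul_coset] at h
    linarith [h]
  -- normalise at `S`
  obtain ⟨b, hb⟩ := exists_primitive_of_perm (MulAction.toPerm (ModularGroup.S : G2) : Equiv.Perm XX)
    (n := 2) two_pos (by
      ext x
      show ModularGroup.S • ModularGroup.S • x = x
      exact Periods.S_smul_S_smul x)
    (fun x => -z ModularGroup.S x) (fun x => by
      have h := Periods.shapiro_mul φ ModularGroup.S ModularGroup.S x
      rw [Periods.S_mul_S, ← hz, hneg] at h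
      simp only [Finset.sum_range_succ, Finset.sum_range_zero, zero_add, pow_zero, pow_one,
        Equiv.Perm.one_apply, MulAction.toPerm_apply]
      linarith)
  let w : G2 → XX → ℤ := fun g x => z g x + b (g • x) - b x
  have hwmul : ∀ g h x, w (g * h) x = w g (h • x) + w h x := fun g h x => by
    simp only [w, hz, Periods.shapiro_mul, mul_smul]
    ring
  have hwS : ∀ x, w ModularGroup.S x = 0 := fun x => by
    have := hb x
    simp only [MulAction.toPerm_apply] at this
    simp only [w]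
    linarith
  have hwT : ∀ x, w ModularGroup.T x = w Periods.eltU x := fun x => by
    rw [Periods.eltU, hwmul, hwS, zero_add]
  -- solve along the orbits of `U`
  obtain ⟨d, hd⟩ := exists_primitive_of_perm (MulAction.toPerm (Periods.eltU : G2) : Equiv.Perm XX)
    (n := 3) three_pos (by
      ext x
      show Periods.eltU • Periods.eltU • Periods.eltU • x = x
      exact Periods.eltU_smul_three x)
    (fun x => w Periods.eltU x) (fun x => by
      have h := hwmul Periods.eltU (Periods.eltU * Periods.eltU) x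
      have h' : w (-1 : G2) x = 0 := by
        simp only [w, hneg, Periods.neg_one_smul_coset, zero_add, sub_self]
      rw [Periods.eltU_pow_three, h', hwmul, mul_smul] at h
      simp only [Finset.sum_range_succ, Finset.sum_range_zero, zero_add, pow_zero, pow_one, pow_two,
        Equiv.Perm.one_apply, Equiv.Perm.mul_apply, MulAction.toPerm_apply]
      linarith)
  -- the cocycle of crossings
  let L0 : ℍ → ℤ := Lv ((0 : ℚ) : Cu) ∞
  let Z : G2 → XX → ℤ := fun g x =>
    ∑ᶠ δ : G2, d ((δ * g) • x) * (L0 (δ • g • UpperHalfPlane.I) - L0 (δ • UpperHalfPlane.I))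
  have hfin : ∀ (f : G2 → ℤ) (z z' : ℍ),
      (Function.support fun δ : G2 => f δ * (L0 (δ • z) - L0 (δ • z'))).Finite := fun f z z' => by
    refine (finite_Lv_diff ((0 : ℚ) : Cu) ∞ z z').subset fun δ hδ h => hδ ?_
    show f δ * (Lv _ _ _ - Lv _ _ _) = 0
    rw [h, sub_self, mul_zero]
  have hZmul : ∀ g h x, Z (g * h) x = Z g (h • x) + Z h x := by
    intro g h x
    have e : Z h x = ∑ᶠ δ : G2, d ((δ * g * h) • x) *
        (L0 ((δ * g) • h • UpperHalfPlane.I) - L0 ((δ * g) • UpperHalfPlane.I)) :=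
      (finsum_comp_equiv (Equiv.mulRight g) (f := fun δ : G2 =>
        d ((δ * h) • x) * (L0 (δ • h • UpperHalfPlane.I) - L0 (δ • UpperHalfPlane.I)))).symm
    have hf2 : (Function.support fun δ : G2 => d ((δ * g * h) • x) *
        (L0 ((δ * g) • h • UpperHalfPlane.I) - L0 ((δ * g) • UpperHalfPlane.I))).Finite :=
      (hfin (fun δ => d ((δ * h) • x)) (h • UpperHalfPlane.I) UpperHalfPlane.I).preimage
        (fun a _ b _ hab => mul_right_cancel hab)
    rw [e]
    show _ = (∑ᶠ δ : G2, _) + _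
    rw [← finsum_add_distrib (hfin (fun δ => d ((δ * g) • h • x)) _ _) hf2]
    refine finsum_congr fun δ => ?_
    simp only [mul_smul]
    ring
  have hSI : ModularGroup.S • UpperHalfPlane.I = UpperHalfPlane.I := by
    apply UpperHalfPlane.ext
    rw [UpperHalfPlane.modular_S_smul]
    simp
  have hZS : ∀ x, Z ModularGroup.S x = 0 := fun x => by simp only [Z, hSI, sub_self, mul_zero, finsum_zero]
  have hZT : ∀ x, Z ModularGroup.T x = 2 * w ModularGroup.T x := by
    intro x
    show (∑ᶠ δ : G2, _) = _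
    rw [finsum_eq_sum_of_support_subset _
      (s := {ModularGroup.S, -ModularGroup.S, ModularGroup.T⁻¹, -ModularGroup.T⁻¹}) (fun δ hδ => by
        have h := crossing_T δ fun h => hδ (by
          show d _ * (Lv _ _ _ - Lv _ _ _) = 0
          rw [h, mul_zero])
        simpa [Finset.mem_coe] using h)]
    rw [Finset.sum_insert (by decide), Finset.sum_insert (by decide), Finset.sum_insert (by decide),
      Finset.sum_singleton]
    have hn : ∀ (g : G2) (y : XX), (-g) • y = g • y := fun g y => by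
      rw [show (-g : G2) = -1 * g by simp, mul_smul, Periods.neg_one_smul_coset]
    obtain ⟨h1, h2⟩ := crossing_values
    simp only [L0, ModularGroup.SL_neg_smul, h1, h2]
    rw [mul_smul, mul_smul, mul_smul, mul_smul, hn, hn, inv_smul_smul, hwT, ← hd]
    simp only [MulAction.toPerm_apply, Periods.eltU, mul_smul]
    ring
  have hall : ∀ (g : G2) x, Z g x = 2 * w g x := by
    intro g
    have hg : g ∈ Subgroup.closure ({ModularGroup.S, ModularGroup.T} : Set G2) := by
      rw [SpecialLinearGroup.SL2Z_generators]; trivial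
    induction hg using Subgroup.closure_induction with
    | mem g hg =>
      rcases hg with rfl | rfl
      · intro x; rw [hZS, hwS, mul_zero]
      · exact hZT
    | one =>
      intro x
      have h1 := hZmul 1 1 x
      have h2 := hwmul 1 1 x
      rw [one_mul, one_smul] at h1 h2
      linarith
    | mul g h _ _ ihg ihh => intro x; rw [hZmul, hwmul, ihg, ihh]; ring
    | inv g _ ih =>
      intro x
      have h1 := hZmul g g⁻¹ x
      have h2 := hwmul g g⁻¹ x
      have h3 := hZmul 1 1 x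
      have h4 := hwmul 1 1 x
      rw [mul_inv_cancel] at h1 h2
      rw [one_mul, one_smul] at h3 h4
      linarith [ih (g⁻¹ • x)]
  -- read off at the base coset
  set x₀ : XX := QuotientGroup.mk 1
  have hx0 : ∀ g : Gamma0 N, (g : G2) • x₀ = x₀ := fun g => by
    rw [MulAction.Quotient.smul_mk, QuotientGroup.eq]; simp
  have hout : x₀.out ∈ Gamma0 N := by
    have := QuotientGroup.out_eq' x₀
    rw [eq_comm, QuotientGroup.eq] at this
    simpa using this
  let o : XX → G2 := fun x => x.out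
  let E : XX × Gamma0 N ≃ G2 := Equiv.ofBijective (fun p => o p.1 * (p.2 : G2)) ⟨by
      rintro ⟨x, β⟩ ⟨x', β'⟩ h
      have hx : x = x' := by
        have := congrArg (fun g : G2 => (QuotientGroup.mk g : XX)) h
        simpa [o, QuotientGroup.mk_mul_of_mem, β.2, β'.2] using this
      subst hx
      exact Prod.ext rfl (Subtype.ext (mul_left_cancel h)), fun g => by
      refine ⟨(QuotientGroup.mk g, ⟨(o (QuotientGroup.mk g))⁻¹ * g, ?_⟩), ?_⟩
      · rw [← QuotientGroup.eq]; exact QuotientGroup.out_eq' _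
      · simp⟩
  have key : 2 • φ = ∑ x : XX, d x • theta N (emb (o x)⁻¹ • ((0 : ℚ) : Cu)) (emb (o x)⁻¹ • ∞) := by
    refine AddMonoidHom.ext fun a => ?_
    obtain ⟨γ, rfl⟩ := Additive.ofMul.surjective a
    have e : φ (Additive.ofMul γ) = z (γ : G2) x₀ := by
      have : (⟨_, Periods.stab_mem (γ : G2) x₀⟩ : Gamma0 N) = ⟨_, hout⟩⁻¹ * γ * ⟨_, hout⟩ := by
        apply Subtype.ext; simp [hx0]
      rw [hz, Periods.shapiro, this, ofMul_mul, ofMul_mul, map_add, map_add, ofMul_inv, map_neg]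
      abel
    have e2 : w (γ : G2) x₀ = φ (Additive.ofMul γ) := by
      simp only [w, hx0, add_sub_cancel_right, e]
    have h := hall (γ : G2) x₀
    rw [e2] at h
    rw [AddMonoidHom.smul_apply, nsmul_eq_mul, Nat.cast_ofNat, ← h, AddMonoidHom.finsetSum_apply]
    show (∑ᶠ δ : G2, _) = _
    rw [← finsum_comp_equiv E, finsum_prod_fintype]
    · refine Finset.sum_congr rfl fun x _ => ?_
      rw [AddMonoidHom.smul_apply, theta_apply _ _ _ _ UpperHalfPlane.I, FL, smul_eq_mul,
        mul_finsum' _ _ (support_FL _ _ _ _ _)]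
      refine finsum_congr fun β => ?_
      have hx : (o x * (β : G2) * (γ : G2)) • x₀ = x := by
        rw [mul_smul, mul_smul, hx0, hx0, MulAction.Quotient.smul_mk, smul_eq_mul, mul_one]
        exact QuotientGroup.out_eq' x
      have hL : ∀ v : ℍ, L0 ((o x * (β : G2)) • v) =
          Lv (emb (o x)⁻¹ • ((0 : ℚ) : Cu)) (emb (o x)⁻¹ • ∞) ((β : G2) • v) := fun v => by
        rw [mul_smul]
        conv_rhs => rw [← Lv_emb (o x), map_inv, smul_inv_smul, smul_inv_smul]
      show d ((E (x, β) * (γ : G2)) • x₀) * _ = _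
      show d ((o x * (β : G2) * (γ : G2)) • x₀) * (L0 ((o x * (β : G2)) • (γ : G2) • UpperHalfPlane.I) -
        L0 ((o x * (β : G2)) • UpperHalfPlane.I)) = _
      rw [hx, hL, hL]
    · intro x
      exact (hfin (fun δ => d ((δ * (γ : G2)) • x₀)) ((γ : G2) • UpperHalfPlane.I)
        UpperHalfPlane.I).preimage (f := fun β : Gamma0 N => E (x, β))
        fun a _ b _ hab => (Prod.ext_iff.mp (E.injective hab)).2
  rw [key]
  refine AddSubgroup.sum_mem _ fun x _ => AddSubgroup.zsmul_mem _ ?_ _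
  exact AddSubgroup.subset_closure ⟨(_, _), rfl⟩

section Ops

variable {M : ℕ} {V : Type} [AddCommGroup V]

/-- `T_ℓ` on homomorphisms -/
def TH (M ℓ : ℕ) [NeZero ℓ] (hℓ : ℓ.Prime) (hℓM : ¬ ℓ ∣ M) : HomG M V →+ HomG M V :=
  (TC M M ℓ hℓ dvd_rfl hℓM).op

/-- `T_ℓ - (ℓ + 1)` on homomorphisms -/
def e1H (M ℓ : ℕ) [NeZero ℓ] (hℓ : ℓ.Prime) (hℓM : ¬ ℓ ∣ M) : HomG M V →+ HomG M V :=
  TH M ℓ hℓ hℓM - (ℓ + 1) • AddMonoidHom.id _

/-- `T_ℓ² - (ℓ + 1)²` on homomorphisms -/
def e2H (M ℓ : ℕ) [NeZero ℓ] (hℓ : ℓ.Prime) (hℓM : ¬ ℓ ∣ M) : HomG M V →+ HomG M V :=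
  (TH M ℓ hℓ hℓM).comp (TH M ℓ hℓ hℓM) - ((ℓ + 1) ^ 2) • AddMonoidHom.id _

theorem e1H_apply {ℓ : ℕ} [NeZero ℓ] (hℓ : ℓ.Prime) (hℓM : ¬ ℓ ∣ M) (φ : HomG M V) :
    e1H M ℓ hℓ hℓM φ = TH M ℓ hℓ hℓM φ - (ℓ + 1) • φ := rfl

theorem e2H_apply {ℓ : ℕ} [NeZero ℓ] (hℓ : ℓ.Prime) (hℓM : ¬ ℓ ∣ M) (φ : HomG M V) :
    e2H M ℓ hℓ hℓM φ = TH M ℓ hℓ hℓM (TH M ℓ hℓ hℓM φ) - ((ℓ + 1) ^ 2) • φ := rfl

theorem TS_of_hom (F : HomG N ℤ →+ V) {ℓ : ℕ} [NeZero ℓ] (hℓ : ℓ.Prime) (hℓN : ¬ ℓ ∣ N) :
    TS ℓ (fun x y => F (theta N x y)) =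
      fun x y => (F.comp (TH N ℓ hℓ hℓN)) (theta N x y) := by
  funext x y
  rw [TS_apply, AddMonoidHom.comp_apply, TH, theta_TC N hℓ hℓN, map_sum]

theorem e2_of_hom (F : HomG N ℤ →+ V) {r : ℕ} [NeZero r] (hr : r.Prime) (hrN : ¬ r ∣ N) :
    e2 r (fun x y => F (theta N x y)) = fun x y => (F.comp (e2H N r hr hrN)) (theta N x y) := by
  unfold e2
  rw [TS_of_hom F hr hrN, TS_of_hom _ hr hrN]
  funext x y
  simp only [Pi.sub_apply, Pi.smul_apply, AddMonoidHom.comp_apply, e2H_apply, map_sub, map_nsmul]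

theorem e1_of_hom (F : HomG N ℤ →+ V) {s : ℕ} [NeZero s] (hs : s.Prime) (hsN : ¬ s ∣ N) :
    e1 s (fun x y => F (theta N x y)) = fun x y => (F.comp (e1H N s hs hsN)) (theta N x y) := by
  unfold e1
  rw [TS_of_hom F hs hsN]
  funext x y
  simp only [Pi.sub_apply, Pi.smul_apply, AddMonoidHom.comp_apply, e1H_apply, map_sub, map_nsmul]

end Ops

/-- the traces from level `Nq` reach `2 e` of every pair -/
theorem dual_surj {q : ℕ} [NeZero q] (hq : q.Prime) (hqN : ¬ q ∣ N) {r : ℕ} [NeZero r] (hr : r.Prime)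
    (hrq : ¬ r ∣ q) (hrN : ¬ r ∣ N) (hr1 : ¬ (r : ℤ) ∣ (q : ℤ) ^ 2 - 1) :
    ∃ M : ℕ, 0 < M ∧ ∀ (s : ℕ) [NeZero s] (hs : s.Prime) (hsN : ¬ s ∣ N), (M : ℤ) ∣ (s : ℤ) - 1 →
      ∀ z₁ z₂ : HomG N ℤ, ∃ h : HomG (N * q) ℤ,
        be1 hq hqN h = 2 • e2H N r hr hrN (e1H N s hs hsN z₁) ∧
        be2 hq hqN h = 2 • e2H N r hr hrN (e1H N s hs hsN z₂) := by
  set R : AddSubgroup (HomG N ℤ × HomG N ℤ) := ((be1 hq hqN).prod (be2 hq hqN)).range
  set π := QuotientAddGroup.mk' R
  set F₁ : HomG N ℤ →+ (HomG N ℤ × HomG N ℤ) ⧸ R := π.comp (AddMonoidHom.inl _ _)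
  set F₂ : HomG N ℤ →+ (HomG N ℤ × HomG N ℤ) ⧸ R := π.comp (AddMonoidHom.inr _ _)
  have hsym : ∀ F : HomG N ℤ →+ (HomG N ℤ × HomG N ℤ) ⧸ R, IsSym (fun x y => F (theta N x y)) :=
    fun F => ⟨fun x y t => by rw [← map_add, (theta_sym N).add x y t]⟩
  have hst : ∀ F : HomG N ℤ →+ (HomG N ℤ × HomG N ℤ) ⧸ R, ∀ γ ∈ Gamma0 N,
      emb γ ∈ stab (fun x y => F (theta N x y)) := fun F γ hγ x y => by
    show F _ = F _
    rw [← embG_apply (⟨γ, hγ⟩ : Gamma0 N), theta_smul]
  have hpair : (fun x y => F₁ (theta N x y)) + pullS (Dg q) (fun x y => F₂ (theta N x y)) = 0 := by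
    funext x y
    show π (theta N x y, 0) + π (0, theta N (Dg q • x) (Dg q • y)) = 0
    rw [← map_add, Prod.mk_add_mk, add_zero, zero_add]
    exact (QuotientAddGroup.eq_zero_iff _).mpr
      ⟨theta (N * q) x y, Prod.ext (theta_be1 hq hqN x y) (theta_be2 hq hqN x y)⟩
  obtain ⟨hI₁, hI₂⟩ := inv_of_pair hq hqN (hsym F₁) (hsym F₂) (hst F₁) (hst F₂) hpair
  obtain ⟨M, hM, hcore⟩ := core (V := (HomG N ℤ × HomG N ℤ) ⧸ R) (NeZero.pos N) (NeZero.ne q) hr hrq
    hrN hr1
  refine ⟨M, hM, fun s _ hs hsN hs1 z₁ z₂ => ?_⟩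
  have hkill : ∀ F : HomG N ℤ →+ (HomG N ℤ × HomG N ℤ) ⧸ R, Inv N q (fun x y => F (theta N x y)) →
      ∀ φ : HomG N ℤ, F (2 • e2H N r hr hrN (e1H N s hs hsN φ)) = 0 := by
    intro F hI φ
    have h := hcore _ hI s hs hs1
    rw [e2_of_hom F hr hrN, e1_of_hom _ hs hsN] at h
    set G := (F.comp (e2H N r hr hrN)).comp (e1H N s hs hsN) with hG
    have h' : G (2 • φ) = 0 := by
      refine AddSubgroup.closure_induction (p := fun x _ => G x = 0) ?_ (map_zero G)
        (fun a b _ _ ha hb => by rw [map_add, ha, hb, add_zero])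
        (fun a _ ha => by rw [map_neg, ha, neg_zero]) (two_nsmul_mem_span φ)
      rintro _ ⟨⟨x, y⟩, rfl⟩
      have := congrFun (congrFun h x) y
      simp only [AddMonoidHom.comp_apply, Pi.zero_apply] at this ⊢
      simp only [hG, AddMonoidHom.comp_apply]
      exact this
    simpa [hG, map_nsmul] using h'
  have h0 : π (2 • e2H N r hr hrN (e1H N s hs hsN z₁), 2 • e2H N r hr hrN (e1H N s hs hsN z₂)) = 0 := by
    have := congrArg₂ (· + ·) (hkill F₁ hI₁ z₁) (hkill F₂ hI₂ z₂)
    simp only [add_zero] at this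
    rw [← this]
    simp only [F₁, F₂, AddMonoidHom.comp_apply, AddMonoidHom.inl_apply, AddMonoidHom.inr_apply]
    rw [← map_add, Prod.mk_add_mk, add_zero, zero_add]
  obtain ⟨h, hh⟩ := (QuotientAddGroup.eq_zero_iff _).mp h0
  exact ⟨h, congrArg Prod.fst hh, congrArg Prod.snd hh⟩

end FLTAgent.LR
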