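import Fermat.Agent.LR.Level

/-!
Homomorphisms counting crossings of translates of a geodesic between cusps, and how correspondences
act on them.
-/

set_option autoImplicit false
set_option linter.unusedSectionVars false
set_option linter.style.haveILetI false
set_option linter.unusedVariables false
set_option linter.unusedSimpArgs false

noncomputable section

open Matrix OnePoint CongruenceSubgroup UpperHalfPlane ComplexConjugate
open scoped MatrixGroups

namespace FLTAgent.LR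

attribute [local instance] Classical.propDecidable

/-- the action of rational matrices -/
def actH (g : GQ) (z : ℍ) : ℍ := Matrix.GeneralLinearGroup.map (algebraMap ℚ ℝ) g • z

theorem actH_mul (g h : GQ) (z : ℍ) : actH (g * h) z = actH g (actH h z) := by
  rw [actH, map_mul, mul_smul]; rfl

theorem actH_emb (γ : SL(2, ℤ)) (z : ℍ) : actH (emb γ) z = γ • z := by
  have e : Matrix.GeneralLinearGroup.map (algebraMap ℚ ℝ) (emb γ) =
      Matrix.SpecialLinearGroup.mapGL ℝ γ := by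
    apply Units.ext
    ext i j
    simp
  rw [actH, e]
  rfl

theorem coe_actH {a b c d : ℚ} (h : 0 < a * d - b * c) (z : ℍ) :
    (actH (gm a b c d) z : ℂ) = ((a : ℂ) * z + b) / ((c : ℂ) * z + d) := by
  have hne : a * d - b * c ≠ 0 := h.ne'
  have hval : ((Matrix.GeneralLinearGroup.map (algebraMap ℚ ℝ) (gm a b c d)) :
      Matrix (Fin 2) (Fin 2) ℝ) = !![(a : ℝ), b; c, d] := by
    ext i j
    fin_cases i <;> fin_cases j <;> simp [val_gm hne]
  have hd : 0 < ((Matrix.GeneralLinearGroup.map (algebraMap ℚ ℝ) (gm a b c d)).det.val : ℝ) := by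
    rw [Matrix.GeneralLinearGroup.val_det_apply, hval, det_fin_two]
    simp
    exact_mod_cast sub_pos.mp h
  rw [actH, UpperHalfPlane.coe_smul_of_det_pos hd, UpperHalfPlane.num, UpperHalfPlane.denom, hval]
  simp

theorem actH_scalar {c : ℚ} (hc : c ≠ 0) (z : ℍ) : actH (gm c 0 0 c) z = z := by
  apply UpperHalfPlane.ext
  rw [coe_actH (by simpa using mul_self_pos.mpr hc)]
  have : (c : ℂ) ≠ 0 := by exact_mod_cast hc
  simp [this]

/-- the cusp with homogeneous coordinates `v` -/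
def cuspOf (v : ℚ × ℚ) : Cu := if v.2 = 0 then ∞ else ((v.1 / v.2 : ℚ) : Cu)

/-- primitive coordinates of a cusp -/
def ivec : Cu → ℤ × ℤ
  | Option.none => (1, 0)
  | Option.some x => (x.num, x.den)

theorem cuspOf_ivec (x : Cu) : cuspOf (((ivec x).1 : ℚ), ((ivec x).2 : ℚ)) = x := by
  induction x using OnePoint.rec with
  | infty => simp [cuspOf, ivec, OnePoint.infty] <;> rfl
  | coe x =>
    show cuspOf ((x.num : ℚ), (((x.den : ℕ) : ℤ) : ℚ)) = _
    simp [cuspOf, Rat.num_div_den]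

theorem ivec_cuspOf {v : ℚ × ℚ} (hv : v ≠ 0) :
    ∃ k : ℚ, k ≠ 0 ∧ ((ivec (cuspOf v)).1 : ℚ) = k * v.1 ∧ ((ivec (cuspOf v)).2 : ℚ) = k * v.2 := by
  obtain ⟨v1, v2⟩ := v
  by_cases h : v2 = 0
  · have h1 : v1 ≠ 0 := fun h1 => hv (by rw [h1, h]; rfl)
    refine ⟨v1⁻¹, inv_ne_zero h1, ?_, ?_⟩
    · rw [cuspOf, if_pos h]
      simp [ivec, OnePoint.infty, h1]
    · rw [cuspOf, if_pos h]
      simp [ivec, OnePoint.infty, h]
  · refine ⟨((v1 / v2).den : ℚ) / v2, div_ne_zero (Nat.cast_ne_zero.mpr (Rat.den_nz _)) h, ?_, ?_⟩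
    · rw [cuspOf, if_neg h]
      show ((v1 / v2).num : ℚ) = _
      have e := (Rat.den_mul_eq_num (v1 / v2)).symm
      rw [e]
      field_simp
    · rw [cuspOf, if_neg h]
      show (((v1 / v2).den : ℤ) : ℚ) = _
      push_cast
      field_simp

theorem smul_cuspOf {a b c d : ℚ} (h : a * d - b * c ≠ 0) {v : ℚ × ℚ} (hv : v ≠ 0) :
    gm a b c d • cuspOf v = cuspOf (a * v.1 + b * v.2, c * v.1 + d * v.2) := by
  obtain ⟨v1, v2⟩ := v
  by_cases h2 : v2 = 0
  · have h1 : v1 ≠ 0 := fun h1 => hv (by rw [h1, h2]; rfl)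
    rw [show cuspOf (v1, v2) = ∞ by simp [cuspOf, h2], smul_infty_eq_ite, val_gm h]
    subst h2
    by_cases hc : c = 0
    · simp [cuspOf, hc]
    · simp [cuspOf, hc, h1, mul_div_mul_right]
  · rw [show cuspOf (v1, v2) = ((v1 / v2 : ℚ) : Cu) by simp [cuspOf, h2], smul_some_eq_ite, val_gm h]
    have e : c * (v1 / v2) + d = (c * v1 + d * v2) / v2 := by field_simp
    have e' : a * (v1 / v2) + b = (a * v1 + b * v2) / v2 := by field_simp
    by_cases h3 : c * v1 + d * v2 = 0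
    · simp [cuspOf, e, h3]
    · simp [cuspOf, e, e', h3, h2, div_div_div_cancel_right₀]

theorem ivec_ne (x : Cu) : (((ivec x).1 : ℚ), ((ivec x).2 : ℚ)) ≠ (0 : ℚ × ℚ) := by
  induction x using OnePoint.rec with
  | infty => simp [ivec, OnePoint.infty]
  | coe x =>
    intro h
    have := congrArg Prod.snd h
    simp [ivec, OnePoint.some] at this

/-- which side of the geodesic from `x` to `y` -/
def Lv (x y : Cu) (z : ℍ) : ℤ :=
  if (((ivec x).1 : ℝ) * (ivec y).2 - (ivec x).2 * (ivec y).1) *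
      ((((ivec x).2 : ℂ) * z - (ivec x).1) * conj (((ivec y).2 : ℂ) * z - (ivec y).1)).re < 0
  then 1 else 0

theorem Lv_self (x : Cu) (z : ℍ) : Lv x x z = 0 := by
  rw [Lv, if_neg]
  rw [show ((ivec x).1 : ℝ) * (ivec x).2 - (ivec x).2 * (ivec x).1 = 0 by ring, zero_mul]
  exact lt_irrefl 0

theorem Lv_smul {a b c d : ℚ} (h : 0 < a * d - b * c) (x y : Cu) (z : ℍ) :
    Lv (gm a b c d • x) (gm a b c d • y) (actH (gm a b c d) z) = Lv x y z := by
  have hne : a * d - b * c ≠ 0 := h.ne'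
  have key : ∀ x : Cu, ∃ k : ℚ, k ≠ 0 ∧
      ((ivec (gm a b c d • x)).1 : ℚ) = k * (a * (ivec x).1 + b * (ivec x).2) ∧
      ((ivec (gm a b c d • x)).2 : ℚ) = k * (c * (ivec x).1 + d * (ivec x).2) := by
    intro x
    have hw : (a * ((ivec x).1 : ℚ) + b * (ivec x).2, c * ((ivec x).1 : ℚ) + d * (ivec x).2) ≠
        (0 : ℚ × ℚ) := by
      intro h0
      have h1 : a * ((ivec x).1 : ℚ) + b * (ivec x).2 = 0 := congrArg Prod.fst h0
      have h2 : c * ((ivec x).1 : ℚ) + d * (ivec x).2 = 0 := congrArg Prod.snd h0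
      have e1 : (a * d - b * c) * ((ivec x).1 : ℚ) = 0 := by linear_combination d * h1 - b * h2
      have e2 : (a * d - b * c) * ((ivec x).2 : ℚ) = 0 := by linear_combination a * h2 - c * h1
      exact ivec_ne x (Prod.ext ((mul_eq_zero.mp e1).resolve_left hne)
        ((mul_eq_zero.mp e2).resolve_left hne))
    have e := ivec_cuspOf hw
    rwa [← smul_cuspOf hne (v := (((ivec x).1 : ℚ), ((ivec x).2 : ℚ))) (ivec_ne x), cuspOf_ivec] at e
  obtain ⟨k, hk, hk1, hk2⟩ := key x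
  obtain ⟨m, hm, hm1, hm2⟩ := key y
  set j : ℂ := (c : ℂ) * z + d with hj
  have hj0 : j ≠ 0 := by
    intro h0
    have him := congrArg Complex.im h0
    have hre := congrArg Complex.re h0
    simp [hj, z.im_pos.ne'] at him hre
    rcases him with rfl
    simp_all
  have hcx : ∀ (x : Cu) (k : ℚ), ((ivec (gm a b c d • x)).1 : ℚ) = k * (a * (ivec x).1 + b * (ivec x).2) →
      ((ivec (gm a b c d • x)).2 : ℚ) = k * (c * (ivec x).1 + d * (ivec x).2) →
      (((ivec (gm a b c d • x)).2 : ℂ) * (actH (gm a b c d) z : ℂ) - (ivec (gm a b c d • x)).1) =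
        ((k * (a * d - b * c) : ℚ) : ℂ) * (((ivec x).2 : ℂ) * z - (ivec x).1) / j := by
    intro x k h1 h2
    have h1' := congrArg (Rat.cast : ℚ → ℂ) h1
    have h2' := congrArg (Rat.cast : ℚ → ℂ) h2
    push_cast at h1' h2' ⊢
    rw [coe_actH h, h1', h2', hj]
    rw [hj] at hj0
    field_simp
    ring
  unfold Lv
  rw [hcx x k hk1 hk2, hcx y m hm1 hm2]
  have e1 : ((ivec (gm a b c d • x)).1 : ℝ) * (ivec (gm a b c d • y)).2 -
      (ivec (gm a b c d • x)).2 * (ivec (gm a b c d • y)).1 =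
      ((k * m * (a * d - b * c) : ℚ) : ℝ) *
        (((ivec x).1 : ℝ) * (ivec y).2 - (ivec x).2 * (ivec y).1) := by
    have a1 := congrArg (Rat.cast : ℚ → ℝ) hk1
    have a2 := congrArg (Rat.cast : ℚ → ℝ) hk2
    have a3 := congrArg (Rat.cast : ℚ → ℝ) hm1
    have a4 := congrArg (Rat.cast : ℚ → ℝ) hm2
    push_cast at a1 a2 a3 a4 ⊢
    rw [a1, a2, a3, a4]
    ring
  have e2 : ∀ (s t : ℝ) (u v : ℂ), (((s : ℂ) * u / j) * conj ((t : ℂ) * v / j)).re =
      s * t / Complex.normSq j * (u * conj v).re := by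
    intro s t u v
    have : ((s : ℂ) * u / j) * conj ((t : ℂ) * v / j) =
        ((s * t / Complex.normSq j : ℝ) : ℂ) * (u * conj v) := by
      rw [map_div₀, map_mul, Complex.conj_ofReal, div_mul_div_comm, Complex.mul_conj]
      push_cast
      ring
    rw [this, Complex.re_ofReal_mul]
  rw [e1, ← Complex.ofReal_ratCast, ← Complex.ofReal_ratCast, e2]
  set X := ((ivec x).1 : ℝ) * (ivec y).2 - (ivec x).2 * (ivec y).1
  set Y := ((((ivec x).2 : ℂ) * z - (ivec x).1) * conj (((ivec y).2 : ℂ) * z - (ivec y).1)).re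
  have hpos : 0 < ((k * m : ℚ) : ℝ) ^ 2 * ((a * d - b * c : ℚ) : ℝ) ^ 3 / Complex.normSq j := by
    have hD : (0 : ℝ) < ((a * d - b * c : ℚ) : ℝ) := by exact_mod_cast h
    have hkm : ((k * m : ℚ) : ℝ) ≠ 0 := by exact_mod_cast mul_ne_zero hk hm
    exact div_pos (mul_pos (by positivity) (pow_pos hD 3)) (Complex.normSq_pos.mpr hj0)
  have e3 : ((k * m * (a * d - b * c) : ℚ) : ℝ) * X *
      (((k * (a * d - b * c) : ℚ) : ℝ) * ((m * (a * d - b * c) : ℚ) : ℝ) / Complex.normSq j * Y) =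
      ((k * m : ℚ) : ℝ) ^ 2 * ((a * d - b * c : ℚ) : ℝ) ^ 3 / Complex.normSq j * (X * Y) := by
    push_cast
    ring
  rw [e3]
  exact if_congr ⟨fun h' => by nlinarith, fun h' => mul_neg_of_pos_of_neg hpos h'⟩ rfl rfl

theorem Lv_emb (γ : SL(2, ℤ)) (x y : Cu) (z : ℍ) :
    Lv (emb γ • x) (emb γ • y) (γ • z) = Lv x y z := by
  rw [← actH_emb, emb_eq]
  exact Lv_smul (by rw [det_SL_cast]; norm_num) x y z

theorem Lv_zero_infty (z : ℍ) : Lv ((0 : ℚ) : Cu) ∞ z = if z.re < 0 then 1 else 0 := by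
  simp [Lv, ivec, OnePoint.some, OnePoint.infty]

theorem re_mul_conj (u v : ℂ) : (u * conj v).re = u.re * v.re + u.im * v.im := by simp

/-- only finitely many integral matrices of given determinant bring a bounded set near an axis -/
theorem finite_near {K : ℤ} (hK : K ≠ 0) {S : Set ℂ} {m R : ℝ} (hm : 0 < m)
    (hS : ∀ ζ ∈ S, m ≤ ζ.im ∧ ‖ζ‖ ≤ R) :
    {A : ℤ × ℤ × ℤ × ℤ | A.1 * A.2.2.2 - A.2.1 * A.2.2.1 = K ∧ ∃ ζ ∈ S,
      |(((A.1 : ℂ) * ζ + A.2.1) * conj ((A.2.2.1 : ℂ) * ζ + A.2.2.2)).re| ≤ |(K : ℝ)| * ζ.im}.Finite := by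
  set μ := min m 1 with hμ
  have hμ0 : 0 < μ := lt_min hm one_pos
  set B := 2 * |(K : ℝ)| * R / μ with hB
  obtain ⟨P, hP⟩ := exists_int_gt (B / m)
  obtain ⟨Q, hQ⟩ := exists_int_gt (B + P * R)
  refine (((Set.finite_Icc (-P) P).prod ((Set.finite_Icc (-Q) Q).prod
    ((Set.finite_Icc (-P) P).prod (Set.finite_Icc (-Q) Q))))).subset ?_
  rintro ⟨a, b, c, d⟩ ⟨hdet, ζ, hζ, hle⟩
  obtain ⟨hζm, hζR⟩ := hS ζ hζ
  simp only at hdet hle
  set u := (a : ℂ) * ζ + b with hu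
  set v := (c : ℂ) * ζ + d with hv
  have hlow : ∀ a b : ℤ, (a ≠ 0 ∨ b ≠ 0) → μ ≤ ‖(a : ℂ) * ζ + b‖ := by
    intro a b hab
    by_cases ha : a = 0
    · subst ha
      have hb := hab.resolve_left (by simp)
      rw [Int.cast_zero, zero_mul, zero_add, Complex.norm_intCast]
      exact (min_le_right _ _).trans (by exact_mod_cast Int.one_le_abs hb)
    · refine (min_le_left _ _).trans (hζm.trans (le_trans ?_ (Complex.abs_im_le_norm _)))
      have e : ((a : ℂ) * ζ + b).im = (a : ℝ) * ζ.im := by simp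
      rw [e, abs_mul]
      exact (le_abs_self _).trans (le_mul_of_one_le_left (abs_nonneg _)
        (by exact_mod_cast Int.one_le_abs ha))
  have hu0 : μ ≤ ‖u‖ := hlow a b (by
    by_contra h
    push Not at h
    rw [h.1, h.2, zero_mul, zero_mul, sub_zero] at hdet
    exact hK hdet.symm)
  have hv0 : μ ≤ ‖v‖ := hlow c d (by
    by_contra h
    push Not at h
    rw [h.1, h.2, mul_zero, mul_zero, sub_zero] at hdet
    exact hK hdet.symm)
  have him : (u * conj v).im = (K : ℝ) * ζ.im := by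
    rw [← hdet, hu, hv]
    simp
    ring
  have hR0 : ζ.im ≤ R := (le_abs_self _).trans ((Complex.abs_im_le_norm ζ).trans hζR)
  have hprod : ‖u‖ * ‖v‖ ≤ 2 * |(K : ℝ)| * R := by
    calc ‖u‖ * ‖v‖ = ‖u * conj v‖ := by rw [norm_mul, Complex.norm_conj]
      _ ≤ |(u * conj v).re| + |(u * conj v).im| := Complex.norm_le_abs_re_add_abs_im _
      _ ≤ 2 * |(K : ℝ)| * ζ.im := by
          rw [him, abs_mul, abs_of_pos (lt_of_lt_of_le hm hζm)]
          linarith
      _ ≤ _ := mul_le_mul_of_nonneg_left hR0 (by positivity)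
  have hbox : ∀ a b : ℤ, ‖(a : ℂ) * ζ + b‖ ≤ B →
      a ∈ Set.Icc (-P) P ∧ b ∈ Set.Icc (-Q) Q := by
    intro a b h
    have h1 : |(a : ℝ)| * m ≤ B := by
      refine le_trans ?_ ((Complex.abs_im_le_norm _).trans h)
      rw [show ((a : ℂ) * ζ + b).im = (a : ℝ) * ζ.im by simp, abs_mul]
      exact mul_le_mul_of_nonneg_left (hζm.trans (le_abs_self _)) (abs_nonneg _)
    have h2 : |(a : ℝ)| ≤ P := ((le_div_iff₀ hm).mpr h1).trans hP.le
    have h3 : |(b : ℝ)| ≤ Q := by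
      have e : ‖((b : ℤ) : ℂ)‖ ≤ ‖(a : ℂ) * ζ + b‖ + ‖(a : ℂ) * ζ‖ := by
        calc ‖((b : ℤ) : ℂ)‖ = ‖((a : ℂ) * ζ + b) - (a : ℂ) * ζ‖ := by rw [add_sub_cancel_left]
          _ ≤ _ := norm_sub_le _ _
      rw [Complex.norm_intCast, norm_mul, Complex.norm_intCast] at e
      have h4 : |(a : ℝ)| * ‖ζ‖ ≤ P * R :=
        mul_le_mul h2 hζR (norm_nonneg _) ((abs_nonneg _).trans h2)
      linarith [hQ.le]
    exact ⟨abs_le.mp (by exact_mod_cast h2), abs_le.mp (by exact_mod_cast h3)⟩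
  have hub : ‖u‖ ≤ B := by
    rw [hB, le_div_iff₀ hμ0]
    exact (mul_le_mul_of_nonneg_left hv0 (norm_nonneg _)).trans hprod
  have hvb : ‖v‖ ≤ B := by
    rw [hB, le_div_iff₀ hμ0, mul_comm]
    exact (mul_le_mul_of_nonneg_right hu0 (norm_nonneg _)).trans hprod
  exact ⟨(hbox a b hub).1, (hbox a b hub).2, (hbox c d hvb).1, (hbox c d hvb).2⟩

/-- normalisation of a pair of cusps -/
theorem exists_norm {x y : Cu} (hxy : x ≠ y) :
    ∃ a b c d : ℤ, 0 < a * d - b * c ∧ gm (a : ℚ) b c d • x = ((0 : ℚ) : Cu) ∧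
      gm (a : ℚ) b c d • y = ∞ := by
  obtain ⟨x1, x2, hx⟩ : ∃ x1 x2 : ℤ, ivec x = (x1, x2) := ⟨_, _, rfl⟩
  obtain ⟨y1, y2, hy⟩ : ∃ y1 y2 : ℤ, ivec y = (y1, y2) := ⟨_, _, rfl⟩
  have ex := cuspOf_ivec x
  have ey := cuspOf_ivec y
  have nx := ivec_ne x
  have ny := ivec_ne y
  rw [hx] at ex nx
  rw [hy] at ey ny
  have hD : y1 * x2 - y2 * x1 ≠ 0 := by
    intro h
    refine hxy ?_
    rw [← ex, ← ey]
    have h' : (y1 : ℚ) * x2 = y2 * x1 := by exact_mod_cast sub_eq_zero.mp h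
    unfold cuspOf
    by_cases h2 : (x2 : ℚ) = 0
    · have hx1 : (x1 : ℚ) ≠ 0 := fun h1 => nx (Prod.ext h1 h2)
      have : (y2 : ℚ) = 0 := by
        rw [h2, mul_zero] at h'
        exact (mul_eq_zero.mp h'.symm).resolve_right hx1
      rw [if_pos h2, if_pos this]
    · have hy2 : (y2 : ℚ) ≠ 0 := by
        intro h1
        rw [h1, zero_mul] at h'
        exact ny (Prod.ext ((mul_eq_zero.mp h').resolve_right h2) h1)
      rw [if_neg h2, if_neg hy2]
      congr 1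
      field_simp
      linear_combination -h'
  obtain ⟨ε, hε, hpos⟩ : ∃ ε : ℤ, ε ≠ 0 ∧ 0 < ε * (y1 * x2 - y2 * x1) := by
    rcases lt_or_gt_of_ne hD with h | h
    · exact ⟨-1, by norm_num, by linarith⟩
    · exact ⟨1, one_ne_zero, by linarith⟩
  refine ⟨x2, -x1, -(ε * y2), ε * y1, by linarith, ?_, ?_⟩
  · have hne : ((x2 : ℤ) : ℚ) * ((ε * y1 : ℤ) : ℚ) - ((-x1 : ℤ) : ℚ) * ((-(ε * y2) : ℤ) : ℚ) ≠ 0 := by
      intro h0
      have h1 : x2 * (ε * y1) - -x1 * -(ε * y2) = 0 := by exact_mod_cast h0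
      linarith
    rw [← ex, smul_cuspOf hne nx]
    unfold cuspOf
    rw [if_neg]
    · congr 1
      push_cast
      rw [show (x2 : ℚ) * x1 + -(x1 : ℚ) * x2 = 0 by ring, zero_div]
    · simp only
      intro h0
      have h1 : -(ε * y2) * x1 + ε * y1 * x2 = 0 := by exact_mod_cast h0
      linarith
  · have hne : ((x2 : ℤ) : ℚ) * ((ε * y1 : ℤ) : ℚ) - ((-x1 : ℤ) : ℚ) * ((-(ε * y2) : ℤ) : ℚ) ≠ 0 := by
      intro h0
      have h1 : x2 * (ε * y1) - -x1 * -(ε * y2) = 0 := by exact_mod_cast h0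
      linarith
    rw [← ey, smul_cuspOf hne ny]
    unfold cuspOf
    rw [if_pos]
    push_cast
    ring

/-- integral coordinates of `h δ` -/
def coordOf (a b c d : ℤ) (δ : SL(2, ℤ)) : ℤ × ℤ × ℤ × ℤ :=
  (a * δ 0 0 + b * δ 1 0, a * δ 0 1 + b * δ 1 1, c * δ 0 0 + d * δ 1 0, c * δ 0 1 + d * δ 1 1)

theorem coordOf_injective {a b c d : ℤ} (h : a * d - b * c ≠ 0) :
    Function.Injective (coordOf a b c d) := by
  intro δ δ' e
  simp only [coordOf, Prod.mk.injEq] at e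
  obtain ⟨e1, e2, e3, e4⟩ := e
  apply Subtype.ext
  ext i j
  fin_cases i <;> fin_cases j <;> refine mul_left_cancel₀ h ?_
  · show _ * δ 0 0 = _ * δ' 0 0
    linear_combination d * e1 - b * e3
  · show _ * δ 0 1 = _ * δ' 0 1
    linear_combination d * e2 - b * e4
  · show _ * δ 1 0 = _ * δ' 1 0
    linear_combination a * e3 - c * e1
  · show _ * δ 1 1 = _ * δ' 1 1
    linear_combination a * e4 - c * e2

theorem coordOf_det (a b c d : ℤ) (δ : SL(2, ℤ)) :
    (coordOf a b c d δ).1 * (coordOf a b c d δ).2.2.2 -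
      (coordOf a b c d δ).2.1 * (coordOf a b c d δ).2.2.1 = a * d - b * c := by
  simp only [coordOf]
  linear_combination (a * d - b * c) * det_SL δ

theorem coe_actH_coordOf {a b c d : ℤ} (h : 0 < a * d - b * c) (δ : SL(2, ℤ)) (z : ℍ) :
    (actH (gm (a : ℚ) b c d) (δ • z) : ℂ) =
      (((coordOf a b c d δ).1 : ℂ) * z + (coordOf a b c d δ).2.1) /
        (((coordOf a b c d δ).2.2.1 : ℂ) * z + (coordOf a b c d δ).2.2.2) := by
  have hq : (0 : ℚ) < (a : ℚ) * d - b * c := by exact_mod_cast h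
  rw [← actH_emb, ← actH_mul, emb_eq, gm_mul hq.ne' (by rw [det_SL_cast]; norm_num), coe_actH]
  · simp only [coordOf]
    push_cast
    ring
  · rw [show ((a : ℚ) * (δ 0 0 : ℤ) + b * (δ 1 0 : ℤ)) * ((c : ℚ) * (δ 0 1 : ℤ) + d * (δ 1 1 : ℤ)) -
      ((a : ℚ) * (δ 0 1 : ℤ) + b * (δ 1 1 : ℤ)) * ((c : ℚ) * (δ 0 0 : ℤ) + d * (δ 1 0 : ℤ)) =
      ((a : ℚ) * d - b * c) * (((δ 0 0 : ℤ) : ℚ) * (δ 1 1 : ℤ) - (δ 0 1 : ℤ) * (δ 1 0 : ℤ)) by ring,
      det_SL_cast, mul_one]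
    exact hq

theorem denom_ne {c d : ℤ} (h : c ≠ 0 ∨ d ≠ 0) {ζ : ℂ} (hζ : 0 < ζ.im) : (c : ℂ) * ζ + d ≠ 0 := by
  intro h0
  have him := congrArg Complex.im h0
  simp [hζ.ne'] at him
  subst him
  simp at h0
  simp [h0] at h

theorem re_div_neg_iff {u v : ℂ} (hv : v ≠ 0) : (u / v).re < 0 ↔ (u * conj v).re < 0 := by
  rw [re_mul_conj, Complex.div_re, ← add_div, div_lt_iff₀ (Complex.normSq_pos.mpr hv), zero_mul]

theorem finite_Lv_diff (x y : Cu) (z z' : ℍ) :
    {δ : SL(2, ℤ) | Lv x y (δ • z) ≠ Lv x y (δ • z')}.Finite := by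
  by_cases hxy : x = y
  · subst hxy
    simp [Lv_self]
  obtain ⟨a, b, c, d, hpos, hx, hy⟩ := exists_norm hxy
  set S : Set ℂ := (fun t : ℝ => (1 - (t : ℂ)) * (z : ℂ) + (t : ℂ) * z') '' Set.Icc 0 1 with hS
  refine Set.Finite.subset ((finite_near (K := a * d - b * c) hpos.ne' (S := S)
    (m := min z.im z'.im) (R := ‖(z : ℂ)‖ + ‖(z' : ℂ)‖) (lt_min z.im_pos z'.im_pos) ?_).preimage
    ((coordOf_injective hpos.ne').injOn)) ?_
  · rintro _ ⟨t, ⟨ht0, ht1⟩, rfl⟩
    constructor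
    · rw [show ((1 - (t : ℂ)) * (z : ℂ) + (t : ℂ) * z').im = (1 - t) * z.im + t * z'.im by simp]
      nlinarith [mul_le_mul_of_nonneg_left (min_le_left z.im z'.im) (sub_nonneg.mpr ht1),
        mul_le_mul_of_nonneg_left (min_le_right z.im z'.im) ht0]
    · refine (norm_add_le _ _).trans (add_le_add ?_ ?_) <;> rw [norm_mul]
      · refine mul_le_of_le_one_left (norm_nonneg _) ?_
        rw [show (1 - (t : ℂ)) = ((1 - t : ℝ) : ℂ) by push_cast; ring, Complex.norm_real,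
          Real.norm_eq_abs, abs_of_nonneg (by linarith)]
        linarith
      · refine mul_le_of_le_one_left (norm_nonneg _) ?_
        rw [Complex.norm_real, Real.norm_eq_abs, abs_of_nonneg ht0]
        exact ht1
  intro δ hδ
  set A := coordOf a b c d δ with hA
  refine ⟨coordOf_det a b c d δ, ?_⟩
  set f : ℂ → ℝ := fun ζ => (((A.1 : ℂ) * ζ + A.2.1) * conj ((A.2.2.1 : ℂ) * ζ + A.2.2.2)).re with hf
  have hL : ∀ w : ℍ, Lv x y (δ • w) = if f w < 0 then 1 else 0 := by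
    intro w
    have hq : (0 : ℚ) < (a : ℚ) * d - b * c := by exact_mod_cast hpos
    rw [← Lv_smul hq, hx, hy, Lv_zero_infty]
    refine if_congr ?_ rfl rfl
    show (actH _ _ : ℂ).re < 0 ↔ _
    rw [coe_actH_coordOf hpos]
    refine re_div_neg_iff (denom_ne ?_ w.im_pos)
    by_contra hh
    push Not at hh
    have := coordOf_det a b c d δ
    rw [hh.1, hh.2, mul_zero, mul_zero, sub_zero] at this
    linarith
  have hne : ¬ (f z < 0 ↔ f z' < 0) := fun h => hδ (by rw [hL, hL, if_congr h rfl rfl])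
  have hcont : Continuous fun t : ℝ => f ((1 - (t : ℂ)) * (z : ℂ) + (t : ℂ) * z') := by
    rw [hf]; fun_prop
  obtain ⟨t, ht, hft⟩ : ∃ t ∈ Set.Icc (0 : ℝ) 1, f ((1 - (t : ℂ)) * (z : ℂ) + (t : ℂ) * z') = 0 := by
    have h01 := intermediate_value_uIcc (a := (0 : ℝ)) (b := 1) hcont.continuousOn
    rw [Set.uIcc_of_le zero_le_one] at h01
    refine h01 ?_
    simp only [Complex.ofReal_zero, Complex.ofReal_one, sub_zero, one_mul, zero_mul, add_zero,
      sub_self, zero_add]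
    rw [Set.mem_uIcc]
    by_cases h1 : f z < 0
    · exact Or.inl ⟨h1.le, le_of_not_gt fun h2 => hne ⟨fun _ => h2, fun _ => h1⟩⟩
    · refine Or.inr ⟨le_of_lt (not_le.mp fun h2 => hne ⟨fun h3 => absurd h3 h1, fun h3 => ?_⟩), le_of_not_gt h1⟩
      exact absurd h3 (not_lt.mpr h2)
  refine ⟨_, ⟨t, ht, rfl⟩, ?_⟩
  rw [show (((A.1 : ℂ) * ((1 - (t : ℂ)) * (z : ℂ) + (t : ℂ) * z') + A.2.1) *
    conj ((A.2.2.1 : ℂ) * ((1 - (t : ℂ)) * (z : ℂ) + (t : ℂ) * z') + A.2.2.2)).re = 0 from hft,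
    abs_zero]
  refine mul_nonneg (abs_nonneg _) ?_
  obtain ⟨ht0, ht1⟩ := ht
  simp
  nlinarith [z.im_pos, z'.im_pos]

/-- the triangle relation holds up to finitely many translates -/
theorem finite_defect (x y t : Cu) (z : ℍ) :
    ∃ k : ℤ, {δ : SL(2, ℤ) |
      Lv x y (δ • z) + Lv y t (δ • z) - Lv x t (δ • z) ≠ k}.Finite := by
  by_cases hxy : x = y
  · subst hxy
    exact ⟨0, by simp [Lv_self]⟩
  obtain ⟨a, b, c, d, hpos, hx, hy⟩ := exists_norm hxy
  set h := gm (a : ℚ) b c d with hh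
  have hq : (0 : ℚ) < (a : ℚ) * d - b * c := by exact_mod_cast hpos
  by_cases hyt : y = t
  · subst hyt
    exact ⟨0, by simp [Lv_self]⟩
  obtain ⟨s, hs⟩ : ∃ s : ℚ, h • t = (s : Cu) := by
    have : h • t ≠ ∞ := fun e => hyt (MulAction.injective h (hy.trans e.symm))
    exact Option.ne_none_iff_exists'.mp this
  set P := s.num
  set Q : ℤ := (s.den : ℤ)
  have hQ : 0 < Q := by simpa [Q] using s.pos
  set S : Set ℂ := {(z : ℂ)}
  have hS : ∀ ζ ∈ S, z.im ≤ ζ.im ∧ ‖ζ‖ ≤ ‖(z : ℂ)‖ := by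
    rintro ζ rfl
    exact ⟨le_rfl, le_rfl⟩
  refine ⟨if 0 < P then 0 else 1, ?_⟩
  refine Set.Finite.subset (Set.Finite.union
    ((finite_near (K := a * d - b * c) hpos.ne' z.im_pos hS).preimage
      (coordOf_injective hpos.ne').injOn)
    ((finite_near (K := (Q * a - P * c) * (Q * d) - (Q * b - P * d) * (Q * c))
      (by rw [show (Q * a - P * c) * (Q * d) - (Q * b - P * d) * (Q * c) = Q * Q * (a * d - b * c) by ring]
          exact (mul_pos (mul_pos hQ hQ) hpos).ne') z.im_pos hS).preimage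
      (coordOf_injective (a := Q * a - P * c) (b := Q * b - P * d) (c := Q * c) (d := Q * d)
        (by rw [show (Q * a - P * c) * (Q * d) - (Q * b - P * d) * (Q * c) = Q * Q * (a * d - b * c) by ring]
            exact (mul_pos (mul_pos hQ hQ) hpos).ne')).injOn)) ?_
  intro δ hδ
  set A := coordOf a b c d δ with hA
  set u : ℂ := (A.1 : ℂ) * z + A.2.1
  set v : ℂ := (A.2.2.1 : ℂ) * z + A.2.2.2
  have hv : v ≠ 0 := by
    refine denom_ne ?_ z.im_pos
    by_contra hh'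
    push Not at hh'
    have := coordOf_det a b c d δ
    rw [← hA, hh'.1, hh'.2, mul_zero, mul_zero, sub_zero] at this
    linarith
  have hns : 0 < Complex.normSq v := Complex.normSq_pos.mpr hv
  set w : ℍ := actH h (δ • z) with hw
  have hwv : (w : ℂ) = u / v := coe_actH_coordOf hpos δ z
  have him : (u * conj v).im = ((a * d - b * c : ℤ) : ℝ) * z.im := by
    have hd' : ((A.1 : ℝ) * A.2.2.2 - A.2.1 * A.2.2.1) = ((a * d - b * c : ℤ) : ℝ) := by
      exact_mod_cast coordOf_det a b c d δ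
    rw [← hd']
    simp [u, v]
    ring
  have hYv : w.im * Complex.normSq v = ((a * d - b * c : ℤ) : ℝ) * z.im := by
    rw [← him, ← UpperHalfPlane.coe_im, hwv, Complex.div_im, ← sub_div,
      div_mul_cancel₀ _ hns.ne']
    simp
    ring
  have hXv : w.re * Complex.normSq v = (u * conj v).re := by
    rw [← UpperHalfPlane.coe_re, hwv, Complex.div_re, ← add_div, div_mul_cancel₀ _ hns.ne',
      re_mul_conj]
  -- the defect in normalised coordinates
  have hD : Lv x y (δ • z) + Lv y t (δ • z) - Lv x t (δ • z) =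
      (if w.re < 0 then 1 else 0) + (if (Q : ℝ) * w.re - P > 0 then 1 else 0) -
        (if (P : ℝ) * ((Q : ℝ) * (w.re * w.re + w.im * w.im) - P * w.re) > 0 then 1 else 0) := by
    rw [← Lv_smul hq x y, ← Lv_smul hq y t, ← Lv_smul hq x t, ← hh, hx, hy, hs, ← hw, Lv_zero_infty]
    congr 1
    · congr 1
      unfold Lv
      refine if_congr ?_ rfl rfl
      simp [ivec, OnePoint.some, OnePoint.infty, P, Q]
      rw [mul_neg_iff]
      constructor
      · rintro (⟨-, h2⟩ | ⟨h1, -⟩)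
        · linarith
        · linarith [s.pos, (Nat.cast_nonneg s.den : (0 : ℝ) ≤ s.den)]
      · intro h2
        exact Or.inl ⟨by exact_mod_cast s.pos, by linarith⟩
    · unfold Lv
      refine if_congr ?_ rfl rfl
      simp [ivec, OnePoint.some, P, Q]
      constructor <;> intro h' <;> nlinarith [h']
  have hcase : |w.re| ≤ w.im ∨ |(Q : ℝ) * w.re - P| ≤ (Q : ℝ) * w.im := by
    by_contra hc
    push Not at hc
    refine hδ ?_
    rw [hD]
    have hQR : (0 : ℝ) < (Q : ℝ) := by exact_mod_cast hQ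
    have hYp := w.im_pos
    have hQY := mul_pos hQR hYp
    obtain ⟨h1, h2⟩ := hc
    have hI : (Q : ℝ) * (w.re * w.re + w.im * w.im) - P * w.re =
        w.re * ((Q : ℝ) * w.re - P) + (Q : ℝ) * w.im * w.im := by ring
    rw [hI]
    by_cases hP : 0 < P
    · have hPR : (0 : ℝ) < (P : ℝ) := by exact_mod_cast hP
      rw [if_pos hP]
      rcases lt_abs.mp h1 with h | h <;> rcases lt_abs.mp h2 with g | g
      · have hI0 : 0 < w.re * ((Q : ℝ) * w.re - P) + (Q : ℝ) * w.im * w.im :=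
          add_pos (mul_pos (by linarith) (by linarith)) (mul_pos hQY hYp)
        rw [if_neg (by linarith), if_pos (by linarith), if_pos (mul_pos hPR hI0)]
        ring
      · have hI0 : w.re * ((Q : ℝ) * w.re - P) + (Q : ℝ) * w.im * w.im ≤ 0 := by
          have := mul_lt_mul'' h g hYp.le hQY.le
          linarith
        rw [if_neg (by linarith), if_neg (by linarith),
          if_neg (not_lt.mpr (mul_nonpos_of_nonneg_of_nonpos hPR.le hI0))]
        ring
      · exfalso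
        have : (Q : ℝ) * w.re < 0 := mul_neg_of_pos_of_neg hQR (by linarith)
        linarith
      · have hI0 : 0 < w.re * ((Q : ℝ) * w.re - P) + (Q : ℝ) * w.im * w.im :=
          add_pos (mul_pos_of_neg_of_neg (by linarith) (by linarith)) (mul_pos hQY hYp)
        rw [if_pos (by linarith), if_neg (by linarith), if_pos (mul_pos hPR hI0)]
        ring
    · have hPR : (P : ℝ) ≤ 0 := by exact_mod_cast not_lt.mp hP
      rw [if_neg hP]
      rcases lt_abs.mp h1 with h | h <;> rcases lt_abs.mp h2 with g | g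
      · have hI0 : 0 ≤ w.re * ((Q : ℝ) * w.re - P) + (Q : ℝ) * w.im * w.im :=
          (add_pos (mul_pos (by linarith) (by linarith)) (mul_pos hQY hYp)).le
        rw [if_neg (by linarith), if_pos (by linarith),
          if_neg (not_lt.mpr (mul_nonpos_of_nonpos_of_nonneg hPR hI0))]
        ring
      · exfalso
        have : 0 < (Q : ℝ) * w.re := mul_pos hQR (by linarith)
        linarith
      · have : (Q : ℝ) * w.re < 0 := mul_neg_of_pos_of_neg hQR (by linarith)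
        have hI0 : w.re * ((Q : ℝ) * w.re - P) + (Q : ℝ) * w.im * w.im < 0 := by
          have := mul_lt_mul'' h g hYp.le hQY.le
          linarith
        rw [if_pos (by linarith), if_pos (by linarith),
          if_pos (mul_pos_of_neg_of_neg (by linarith) hI0)]
        ring
      · have hI0 : 0 ≤ w.re * ((Q : ℝ) * w.re - P) + (Q : ℝ) * w.im * w.im :=
          (add_pos (mul_pos_of_neg_of_neg (by linarith) (by linarith)) (mul_pos hQY hYp)).le
        rw [if_pos (by linarith), if_neg (by linarith),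
          if_neg (not_lt.mpr (mul_nonpos_of_nonpos_of_nonneg hPR hI0))]
        ring
  rcases hcase with h1 | h1
  · refine Or.inl ⟨coordOf_det a b c d δ, (z : ℂ), rfl, ?_⟩
    show |(u * conj v).re| ≤ _
    rw [← hXv, abs_mul, abs_of_pos hns, UpperHalfPlane.coe_im,
      abs_of_pos (by exact_mod_cast hpos : (0 : ℝ) < ((a * d - b * c : ℤ) : ℝ)), ← hYv]
    exact mul_le_mul_of_nonneg_right h1 hns.le
  · refine Or.inr ⟨coordOf_det _ _ _ _ δ, (z : ℂ), rfl, ?_⟩
    set A' := coordOf (Q * a - P * c) (Q * b - P * d) (Q * c) (Q * d) δ with hA'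
    have e1 : (A'.1 : ℂ) * z + A'.2.1 = (Q : ℂ) * u - (P : ℂ) * v := by
      simp only [hA', hA, u, v, coordOf]; push_cast; ring
    have e2 : (A'.2.2.1 : ℂ) * z + A'.2.2.2 = (Q : ℂ) * v := by
      simp only [hA', hA, u, v, coordOf]; push_cast; ring
    show |(((A'.1 : ℂ) * z + A'.2.1) * conj ((A'.2.2.1 : ℂ) * z + A'.2.2.2)).re| ≤ _
    rw [e1, e2]
    have e3 : (((Q : ℂ) * u - (P : ℂ) * v) * conj ((Q : ℂ) * v)).re =
        (Q : ℝ) * ((Q : ℝ) * w.re - P) * Complex.normSq v := by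
      have hXv' := hXv
      rw [re_mul_conj] at hXv' ⊢
      simp [Complex.normSq_apply] at hXv' ⊢
      linear_combination -(Q : ℝ) * (Q : ℝ) * hXv'
    have hQR : (0 : ℝ) < (Q : ℝ) := by exact_mod_cast hQ
    rw [e3, abs_mul, abs_mul, abs_of_pos hQR, abs_of_pos hns, UpperHalfPlane.coe_im]
    have hK : |(((Q * a - P * c) * (Q * d) - (Q * b - P * d) * (Q * c) : ℤ) : ℝ)| * z.im =
        (Q : ℝ) * ((Q : ℝ) * w.im) * Complex.normSq v := by
      rw [show (Q * a - P * c) * (Q * d) - (Q * b - P * d) * (Q * c) = Q * Q * (a * d - b * c) by ring,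
        Int.cast_mul, Int.cast_mul, abs_mul, abs_mul, abs_of_pos hQR,
        abs_of_pos (by exact_mod_cast hpos : (0 : ℝ) < ((a * d - b * c : ℤ) : ℝ)), mul_assoc _ _ z.im,
        ← hYv]
      ring
    rw [hK]
    exact mul_le_mul_of_nonneg_right (mul_le_mul_of_nonneg_left h1 hQR.le) hns.le

/-- the counting function -/
def FL (M : ℕ) (x y : Cu) (z z' : ℍ) : ℤ :=
  ∑ᶠ δ : Gamma0 M, (Lv x y ((δ : SL(2, ℤ)) • z') - Lv x y ((δ : SL(2, ℤ)) • z))

theorem support_FL (M : ℕ) (x y : Cu) (z z' : ℍ) :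
    (Function.support fun δ : Gamma0 M =>
      Lv x y ((δ : SL(2, ℤ)) • z') - Lv x y ((δ : SL(2, ℤ)) • z)).Finite := by
  refine Set.Finite.subset ((finite_Lv_diff x y z' z).preimage Subtype.val_injective.injOn) ?_
  intro δ hδ
  exact fun h => hδ (sub_eq_zero.mpr h)

theorem FL_add (M : ℕ) (x y : Cu) (z z' z'' : ℍ) :
    FL M x y z z' + FL M x y z' z'' = FL M x y z z'' := by
  rw [FL, FL, FL, ← finsum_add_distrib (support_FL M x y z z') (support_FL M x y z' z'')]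
  exact finsum_congr fun δ => by ring

theorem FL_smul (M : ℕ) (x y : Cu) (γ : Gamma0 M) (z z' : ℍ) :
    FL M x y ((γ : SL(2, ℤ)) • z) ((γ : SL(2, ℤ)) • z') = FL M x y z z' := by
  refine (finsum_congr fun δ => ?_).trans (finsum_comp_equiv (Equiv.mulRight γ)
    (f := fun δ : Gamma0 M => Lv x y ((δ : SL(2, ℤ)) • z') - Lv x y ((δ : SL(2, ℤ)) • z)))
  simp only [Equiv.coe_mulRight, Subgroup.coe_mul, mul_smul]

/-- the homomorphism of a pair of cusps -/
def theta (M : ℕ) (x y : Cu) : HomG M ℤ :=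
  AddMonoidHom.mk' (fun γ => FL M x y UpperHalfPlane.I (((Additive.toMul γ : Gamma0 M) : SL(2, ℤ)) • UpperHalfPlane.I))
    fun γ γ' => by
      rw [toMul_add, Subgroup.coe_mul, mul_smul,
        ← FL_add M x y _ (((Additive.toMul γ : Gamma0 M) : SL(2, ℤ)) • UpperHalfPlane.I), FL_smul]

theorem theta_apply (M : ℕ) (x y : Cu) (γ : Gamma0 M) (z : ℍ) :
    theta M x y (Additive.ofMul γ) = FL M x y z ((γ : SL(2, ℤ)) • z) := by
  show FL M x y _ ((γ : SL(2, ℤ)) • UpperHalfPlane.I) = _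
  have h1 := FL_add M x y UpperHalfPlane.I z ((γ : SL(2, ℤ)) • z)
  have h2 := FL_add M x y UpperHalfPlane.I ((γ : SL(2, ℤ)) • UpperHalfPlane.I) ((γ : SL(2, ℤ)) • z)
  rw [FL_smul] at h2
  linarith

theorem theta_smul (M : ℕ) (γ : Gamma0 M) (x y : Cu) :
    theta M (embG γ • x) (embG γ • y) = theta M x y := by
  refine AddMonoidHom.ext fun g => ?_
  show FL M _ _ _ _ = FL M _ _ _ _
  refine (finsum_congr fun δ => ?_).trans (finsum_comp_equiv (Equiv.mulLeft γ⁻¹)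
    (f := fun δ : Gamma0 M => Lv x y ((δ : SL(2, ℤ)) • ((Additive.toMul g : Gamma0 M) : SL(2, ℤ)) • UpperHalfPlane.I) -
      Lv x y ((δ : SL(2, ℤ)) • UpperHalfPlane.I)))
  simp only [Equiv.coe_mulLeft, Subgroup.coe_mul, mul_smul, embG_apply]
  have e : ∀ w : ℍ, Lv (emb (γ : SL(2, ℤ)) • x) (emb (γ : SL(2, ℤ)) • y) w =
      Lv x y (((γ⁻¹ : Gamma0 M) : SL(2, ℤ)) • w) := fun w => by
    conv_lhs => rw [← smul_inv_smul (γ : SL(2, ℤ)) w]
    rw [Lv_emb]
    rfl
  rw [e, e]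

theorem theta_self (M : ℕ) (x : Cu) : theta M x x = 0 := by
  refine AddMonoidHom.ext fun g => ?_
  show FL M x x _ _ = 0
  simp [FL, Lv_self]

theorem theta_sym (M : ℕ) : IsSym (fun x y => theta M x y) := by
  refine ⟨fun x y t => AddMonoidHom.ext fun g => ?_⟩
  show FL M x y _ _ + FL M y t _ _ = FL M x t _ _
  set γ := Additive.toMul g
  set i := UpperHalfPlane.I
  obtain ⟨k, hk⟩ := finite_defect x y t i
  set D : Gamma0 M → ℤ := fun δ => Lv x y ((δ : SL(2, ℤ)) • i) + Lv y t ((δ : SL(2, ℤ)) • i) -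
    Lv x t ((δ : SL(2, ℤ)) • i) - k with hD
  have hDf : (Function.support D).Finite := by
    refine (hk.preimage Subtype.val_injective.injOn).subset fun δ hδ h => hδ ?_
    simp only [hD]; linarith
  have hDf' : (Function.support fun δ => D (δ * γ)).Finite :=
    hDf.preimage (fun a _ b _ h => mul_right_cancel h)
  have h1 := finsum_add_distrib (support_FL M x y i ((γ : SL(2, ℤ)) • i))
    (support_FL M y t i ((γ : SL(2, ℤ)) • i))
  have h0 : (∑ᶠ δ : Gamma0 M, D (δ * γ)) = ∑ᶠ δ, D δ := finsum_comp_equiv (Equiv.mulRight γ)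
  have h2 := finsum_sub_distrib hDf' hDf
  rw [h0, sub_self] at h2
  rw [FL, FL, FL, ← h1, ← sub_eq_zero, ← finsum_sub_distrib
    (Set.Finite.subset ((support_FL M x y i ((γ : SL(2, ℤ)) • i)).union
      (support_FL M y t i ((γ : SL(2, ℤ)) • i))) fun δ hδ => ?_)
    (support_FL M x t i ((γ : SL(2, ℤ)) • i))]
  · rw [← h2]
    refine finsum_congr fun δ => ?_
    simp only [hD, Subgroup.coe_mul, mul_smul]
    ring
  · by_contra hc
    simp only [Set.mem_union, Function.mem_support, not_or, not_not] at hc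
    exact hδ (by show _ + _ = (0 : ℤ); rw [hc.1, hc.2, add_zero])

theorem theta_stab (M : ℕ) (γ : Gamma0 M) : embG γ ∈ stab (fun x y => theta M x y) :=
  fun x y => theta_smul M γ x y

theorem finsum_prod_fintype {α β : Type} [Fintype α] (f : α × β → ℤ)
    (hf : ∀ a, (Function.support fun b => f (a, b)).Finite) :
    ∑ᶠ p, f p = ∑ a, ∑ᶠ b, f (a, b) := by
  have h : (Function.support f).Finite := by
    refine (Set.finite_iUnion fun a => (hf a).image (Prod.mk a)).subset ?_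
    rintro ⟨a, b⟩ hab
    exact Set.mem_iUnion.mpr ⟨a, b, hab, rfl⟩
  rw [finsum_curry f h, finsum_eq_sum_of_fintype]

/-- correspondences on the counting homomorphisms -/
theorem theta_op {A B : ℕ} {ι κ : Type} [Fintype ι] [Fintype κ] (C : Corr A B ι) (e : κ → GQ)
    (hpos : ∀ j, ∃ a b c d : ℚ, 0 < a * d - b * c ∧ e j = gm a b c d)
    (fwd : ∀ (δ : Gamma0 A) (i : ι), ∃ (j : κ) (β : Gamma0 B), embG δ * C.rep i = e j * embG β)
    (bwd : ∀ (j : κ) (β : Gamma0 B), ∃ (δ : Gamma0 A) (i : ι), embG δ * C.rep i = e j * embG β)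
    (esep : ∀ j j' (g : Gamma0 B), e j = e j' * embG g → j = j') (x y : Cu) :
    C.op (theta A x y) = ∑ j, theta B ((e j)⁻¹ • x) ((e j)⁻¹ • y) := by
  choose pj pβ hp using fwd
  have hbij : Function.Bijective (fun p : ι × Gamma0 A => (pj p.2 p.1, pβ p.2 p.1)) := by
    constructor
    · rintro ⟨i, δ⟩ ⟨i', δ'⟩ h
      simp only [Prod.mk.injEq] at h
      have h1 := hp δ i
      rw [h.1, h.2, ← hp δ' i'] at h1
      have hii : i = i' := C.sep i i' (δ⁻¹ * δ') (by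
        rw [map_mul, map_inv, mul_assoc, ← h1, inv_mul_cancel_left])
      rw [hii] at h1
      exact Prod.ext hii (embG_injective (mul_right_cancel h1))
    · rintro ⟨j, β⟩
      obtain ⟨δ, i, h⟩ := bwd j β
      refine ⟨(i, δ), ?_⟩
      have h1 := (hp δ i).symm.trans h
      have hj : pj δ i = j := esep _ _ (β * (pβ δ i)⁻¹) (by
        rw [map_mul, map_inv, ← mul_assoc, ← h1, mul_inv_cancel_right])
      rw [hj] at h1
      exact Prod.ext hj (embG_injective (mul_left_cancel h1))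
  refine AddMonoidHom.ext fun g => ?_
  obtain ⟨γ, rfl⟩ := Additive.ofMul.surjective g
  set i₀ := UpperHalfPlane.I
  have hLe : ∀ (j : κ) (w : ℍ), Lv x y (actH (e j) w) = Lv ((e j)⁻¹ • x) ((e j)⁻¹ • y) w := by
    intro j w
    obtain ⟨a, b, c, d, hd, he⟩ := hpos j
    conv_lhs => rw [← smul_inv_smul (e j) x, ← smul_inv_smul (e j) y, he, Lv_smul hd, ← he]
  set σ := C.perm γ
  have hz : ∀ i, ((C.mult γ i : Gamma0 A) : SL(2, ℤ)) • actH (C.rep (σ i)) i₀ =
      actH (C.rep i) ((γ : SL(2, ℤ)) • i₀) := fun i => by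
    rw [← actH_emb, ← actH_mul, ← actH_emb, ← actH_mul]
    exact congrArg (fun X => actH X i₀) (C.rel_mult γ i).symm
  set z0 : ι → ℍ := fun i => actH (C.rep i) i₀
  set z1 : ι → ℍ := fun i => actH (C.rep i) ((γ : SL(2, ℤ)) • i₀)
  set G : ι → Gamma0 A → ℤ := fun i δ =>
    Lv x y ((δ : SL(2, ℤ)) • z1 i) - Lv x y ((δ : SL(2, ℤ)) • z0 i) with hG
  have step1 : C.op (theta A x y) (Additive.ofMul γ) = ∑ i, FL A x y (z0 i) (z1 i) := by
    rw [C.op_apply (C.rel_mult γ)]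
    have h : ∀ i, theta A x y (Additive.ofMul (C.mult γ i)) =
        (FL A x y i₀ (z0 i) - FL A x y i₀ (z0 (σ i))) + FL A x y (z0 i) (z1 i) := fun i => by
      rw [theta_apply A x y _ (z0 (σ i)), hz]
      have h1 := FL_add A x y i₀ (z0 (σ i)) (z1 i)
      have h2 := FL_add A x y i₀ (z0 i) (z1 i)
      linarith
    simp only [h, Finset.sum_add_distrib, Finset.sum_sub_distrib]
    rw [Equiv.sum_comp σ (fun i => FL A x y i₀ (z0 i)), sub_self, zero_add]
  rw [step1, AddMonoidHom.finsetSum_apply]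
  set H : κ × Gamma0 B → ℤ := fun p =>
    Lv ((e p.1)⁻¹ • x) ((e p.1)⁻¹ • y) ((p.2 : SL(2, ℤ)) • (γ : SL(2, ℤ)) • i₀) -
      Lv ((e p.1)⁻¹ • x) ((e p.1)⁻¹ • y) ((p.2 : SL(2, ℤ)) • i₀) with hH
  have hcongr : ∀ (i : ι) (δ : Gamma0 A), G i δ = H (pj δ i, pβ δ i) := by
    intro i δ
    have hact : ∀ w : ℍ, (δ : SL(2, ℤ)) • actH (C.rep i) w =
        actH (e (pj δ i)) ((pβ δ i : SL(2, ℤ)) • w) := fun w => by
      rw [← actH_emb, ← actH_mul, ← actH_emb, ← actH_mul]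
      exact congrArg (fun X => actH X w) (hp δ i)
    simp only [hG, hH, z0, z1, hact, hLe]
  have c1 : ∀ i, FL A x y (z0 i) (z1 i) = ∑ᶠ δ, G i δ := fun i => by simp only [FL, hG]
  have c2 : (∑ᶠ p : ι × Gamma0 A, G p.1 p.2) = ∑ i, ∑ᶠ δ, G i δ :=
    finsum_prod_fintype (fun p : ι × Gamma0 A => G p.1 p.2)
      (fun i => by simp only [hG]; exact support_FL A x y (z0 i) (z1 i))
  have c3 : (∑ᶠ p : ι × Gamma0 A, G p.1 p.2) = ∑ᶠ p : κ × Gamma0 B, H p :=
    finsum_eq_of_bijective _ hbij (fun p => hcongr p.1 p.2)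
  have c4 : (∑ᶠ p : κ × Gamma0 B, H p) = ∑ j, ∑ᶠ β, H (j, β) :=
    finsum_prod_fintype H (fun j => by simp only [hH]; exact support_FL B _ _ i₀ _)
  rw [Finset.sum_congr rfl fun i _ => c1 i, ← c2, c3, c4]
  refine Finset.sum_congr rfl fun j _ => ?_
  rw [theta_apply B _ _ γ i₀]
  simp only [FL, hH]

variable {N q : ℕ} [NeZero q]

/-- adjugate representatives -/
def tAdj (ℓ : ℕ) : OnePoint (ZMod ℓ) → GQ
  | Option.none => gm 1 0 0 ℓ
  | Option.some b => gm ℓ (-((b.val : ℕ) : ℚ)) 0 1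

theorem tAdj_mul_tRep {ℓ : ℕ} (hℓ : ℓ ≠ 0) (i : OnePoint (ZMod ℓ)) :
    tAdj ℓ i * tRep ℓ i = gm (ℓ : ℚ) 0 0 ℓ := by
  have hℓQ : (ℓ : ℚ) ≠ 0 := Nat.cast_ne_zero.mpr hℓ
  induction i using OnePoint.rec with
  | infty =>
    show gm 1 0 0 (ℓ : ℚ) * gm (ℓ : ℚ) 0 0 1 = _
    rw [gm_mul (by simpa using hℓQ) (by simpa using hℓQ)]
    exact gm_ext (by ring) (by ring) (by ring) (by ring)
  | coe b =>
    show gm (ℓ : ℚ) (-((b.val : ℕ) : ℚ)) 0 1 * gm 1 (b.val : ℕ) 0 (ℓ : ℚ) = _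
    rw [gm_mul (by simpa using hℓQ) (by simpa using hℓQ)]
    exact gm_ext (by ring) (by ring) (by ring) (by ring)

theorem tAdj_int {ℓ : ℕ} (i : OnePoint (ZMod ℓ)) :
    ∃ a b d : ℤ, a * d = ℓ ∧ tAdj ℓ i = gm (a : ℚ) b 0 d := by
  induction i using OnePoint.rec with
  | infty => exact ⟨1, 0, ℓ, by ring, by show gm 1 0 0 (ℓ : ℚ) = _; push_cast; rfl⟩
  | coe k => exact ⟨ℓ, -((k.val : ℕ) : ℤ), 1, by ring, by
      show gm (ℓ : ℚ) (-((k.val : ℕ) : ℚ)) 0 1 = _; push_cast; rfl⟩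

theorem theta_TC (N : ℕ) {ℓ : ℕ} [NeZero ℓ] (hℓ : ℓ.Prime) (hℓN : ¬ ℓ ∣ N) (x y : Cu) :
    (TC N N ℓ hℓ dvd_rfl hℓN).op (theta N x y) =
      ∑ i : OnePoint (ZMod ℓ), theta N (tRep ℓ i • x) (tRep ℓ i • y) := by
  have hℓQ : (ℓ : ℚ) ≠ 0 := Nat.cast_ne_zero.mpr hℓ.ne_zero
  have hinv : ∀ (i : OnePoint (ZMod ℓ)) (x : Cu), (tAdj ℓ i)⁻¹ • x = tRep ℓ i • x := fun i x => by
    rw [inv_smul_eq_iff, ← mul_smul, tAdj_mul_tRep hℓ.ne_zero, scalar_smul hℓQ]
  refine (theta_op _ (tAdj ℓ) (fun j => ?_) (fun δ i => ?_) (fun j β => ?_) (fun j j' g h => ?_) x y).trans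
    (Finset.sum_congr rfl fun i _ => by rw [hinv, hinv])
  · obtain ⟨a, b, d, had, e⟩ := tAdj_int j
    refine ⟨a, b, 0, d, ?_, e⟩
    rw [mul_zero, sub_zero, show (a : ℚ) * d = ((ℓ : ℤ) : ℚ) by exact_mod_cast had]
    exact_mod_cast hℓ.pos
  · obtain ⟨a0, b0, d0, had, e⟩ := tRep_int i
    set g := (δ : SL(2, ℤ))
    obtain ⟨t, g', e'⟩ := exists_tRep (M := N) hℓ hℓN (a := g 1 0 * b0 + g 1 1 * d0)
      (b := -(g 0 0 * b0 + g 0 1 * d0)) (c := -(g 1 0 * a0)) (d := g 0 0 * a0)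
      (by linear_combination had + (a0 * d0) * det_SL g)
      (((mem_Gamma0_iff.mp δ.2).mul_right _).neg_right)
    refine ⟨t, g'⁻¹, ?_⟩
    show embG δ * tRep ℓ i = tAdj ℓ t * embG g'⁻¹
    have hn : (a0 : ℚ) * d0 - b0 * 0 ≠ 0 := by
      rw [mul_zero, sub_zero, show (a0 : ℚ) * d0 = ((ℓ : ℤ) : ℚ) by exact_mod_cast had]
      exact_mod_cast hℓ.ne_zero
    have hg := det_SL_cast g
    have key : gm ((g 1 0 * b0 + g 1 1 * d0 : ℤ) : ℚ) (-(g 0 0 * b0 + g 0 1 * d0) : ℤ)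
        (-(g 1 0 * a0) : ℤ) (g 0 0 * a0 : ℤ) * (embG δ * tRep ℓ i) = gm (ℓ : ℚ) 0 0 ℓ := by
      have had' : (a0 : ℚ) * d0 = ℓ := by exact_mod_cast had
      rw [embG_apply, emb_eq, e, gm_mul (by rw [hg]; norm_num) hn, gm_mul ?_ ?_]
      · refine gm_ext ?_ ?_ ?_ ?_ <;> push_cast
        · linear_combination (ℓ : ℚ) * hg + (((g 0 0 : ℤ) : ℚ) * (g 1 1 : ℤ) -
            ((g 0 1 : ℤ) : ℚ) * (g 1 0 : ℤ)) * had'
        · ring
        · ring
        · linear_combination (ℓ : ℚ) * hg + (((g 0 0 : ℤ) : ℚ) * (g 1 1 : ℤ) -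
            ((g 0 1 : ℤ) : ℚ) * (g 1 0 : ℤ)) * had'
      · push_cast
        intro h0
        exact hn (by linear_combination h0 - ((a0 : ℚ) * d0) * hg)
      · intro h0
        exact hn (by linear_combination h0 - ((a0 : ℚ) * d0) * hg)
    rw [e'] at key
    refine mul_left_cancel (a := embG g' * tRep ℓ t) ?_
    rw [key, mul_assoc (embG g'), ← mul_assoc (tRep ℓ t),
      show tRep ℓ t * tAdj ℓ t = gm (ℓ : ℚ) 0 0 ℓ by
        rw [eq_inv_mul_of_mul_eq (tAdj_mul_tRep hℓ.ne_zero t), mul_assoc, scalar_comm hℓQ,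
          inv_mul_cancel_left],
      ← mul_assoc, ← scalar_comm hℓQ, map_inv, mul_inv_cancel_right]
  · obtain ⟨a, b, d, had, e⟩ := tAdj_int j
    set g := (β : SL(2, ℤ))
    obtain ⟨t, g', e'⟩ := exists_tRep (M := N) hℓ hℓN (a := a * g 0 0 + b * g 1 0)
      (b := a * g 0 1 + b * g 1 1) (c := d * g 1 0) (d := d * g 1 1)
      (by linear_combination had + (a * d) * det_SL g) ((mem_Gamma0_iff.mp β.2).mul_left _)
    refine ⟨g', t, ?_⟩
    show embG g' * tRep ℓ t = tAdj ℓ j * embG β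
    rw [← e', e, embG_apply, emb_eq, gm_mul ?_ (by rw [det_SL_cast]; norm_num)]
    · push_cast
      exact gm_ext (by ring) (by ring) (by ring) (by ring)
    · rw [mul_zero, sub_zero, show (a : ℚ) * d = ((ℓ : ℤ) : ℚ) by exact_mod_cast had]
      exact_mod_cast hℓ.ne_zero
  · refine (tRep_sep hℓ j' j (g : SL(2, ℤ)) ?_).symm
    have h1 := tAdj_mul_tRep hℓ.ne_zero j
    rw [← tAdj_mul_tRep hℓ.ne_zero j', h, mul_assoc] at h1
    exact (mul_left_cancel h1).symm

theorem theta_be1 (hq : q.Prime) (hqN : ¬ q ∣ N) (x y : Cu) :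
    be1 hq hqN (theta (N * q) x y) = theta N x y := by
  refine (theta_op (epsC hq hqN) (fun _ : Unit => 1) (fun _ => ⟨1, 0, 0, 1, by norm_num, gm_id.symm⟩)
    (fun δ i => ⟨(), ⟨(δ : SL(2, ℤ)) * epsSL N q i,
      Subgroup.mul_mem _ (Gamma0_le_of_dvd (dvd_mul_right N q) δ.2) (epsSL_mem i)⟩, ?_⟩)
    (fun _ β => ?_) (fun _ _ _ _ => rfl) x y).trans (by simp)
  · rw [one_mul]
    simp only [embG_apply]
    rw [map_mul]
    rfl
  · set B := (β : SL(2, ℤ))
    obtain ⟨j, hj⟩ := exists_class hq hqN (mem_Gamma0_iff.mp β.2) (d := B 1 1) fun h1 h2 =>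
      hq.not_dvd_one (Int.natCast_dvd_natCast.mp (by
        rw [Nat.cast_one, ← det_SL B]; exact dvd_sub (h2.mul_left _) (h1.mul_left _)))
    refine ⟨⟨B * (epsSL N q j)⁻¹, mem_Gamma0_iff.mpr (by rw [mul_eps_inv]; exact hj)⟩, j, ?_⟩
    rw [one_mul]
    simp only [embG_apply]
    show emb _ * emb _ = _
    rw [← map_mul, inv_mul_cancel_right]

theorem theta_be2 (hq : q.Prime) (hqN : ¬ q ∣ N) (x y : Cu) :
    be2 hq hqN (theta (N * q) x y) = theta N (Dg q • x) (Dg q • y) := by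
  have hqQ : (q : ℚ) ≠ 0 := Nat.cast_ne_zero.mpr hq.ne_zero
  have hW : Wop hq hqN (theta (N * q) x y) = theta (N * q) (wQ N q • x) (wQ N q • y) := by
    refine (theta_op (WC hq hqN) (fun _ : Unit => wQ N q)
      (fun _ => ⟨_, _, _, _, by rw [det_wQ hq hqN]; exact_mod_cast hq.pos, rfl⟩)
      (fun δ _ => ?_) (fun _ β => ?_) (fun _ _ _ _ => rfl) x y).trans ?_
    · obtain ⟨g', hg'⟩ := wQ_conj_inv hq hqN δ
      exact ⟨(), g', hg'⟩
    · obtain ⟨⟨⟩, g, hg⟩ := (WC hq hqN).step β ()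
      exact ⟨g, (), hg.symm⟩
    · rw [Fintype.sum_unique]
      have key : ∀ x : Cu, wQ N q • x = embG (gamW hq hqN) • (wQ N q)⁻¹ • x := fun x => by
        conv_lhs => rw [← smul_inv_smul (wQ N q) x, ← mul_smul, wQ_sq hq hqN, mul_smul,
          scalar_smul hqQ]
      rw [key, key, theta_smul]
  rw [be2, AddMonoidHom.comp_apply, hW, theta_be1, wQ_eq hq hqN, mul_smul, mul_smul, theta_smul]

end FLTAgent.LR
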